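import Fermat.Agent.Bridge.JBasic
import Fermat.Prelude.Def_ModularCurve_X0

/-!
# q-expansions of `E₄`, `Δ` and `j`
-/

set_option autoImplicit false

noncomputable section

open UpperHalfPlane ModularForm EisensteinSeries Function Filter Topology
open scoped MatrixGroups Manifold PowerSeries.WithPiTopology

namespace FLTA.Bridge

theorem qExpansion_E4 :
    qExpansion 1 (E₄ : ℍ → ℂ) = ModularCurve.eisenstein4.map (Int.castRingHom ℂ) := by
  ext m
  rw [E_qExpansion_coeff _ ⟨2, rfl⟩, PowerSeries.coeff_map, ModularCurve.eisenstein4,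
    PowerSeries.coeff_mk]
  split_ifs with h
  · simp
  · rw [show bernoulli 4 = -1 / 30 by decide +kernel, ArithmeticFunction.sigma_apply]
    norm_num

/-- The infinite product `∏ (1 - q ^ (n + 1))` as a function of `q`. -/
def eulerProd (q : ℂ) : ℂ := ∏' n : ℕ, (1 - q ^ (n + 1))

theorem differentiableOn_eulerProd : DifferentiableOn ℂ eulerProd (Metric.ball 0 1) :=
  differentiableOn_tprod_one_sub_pow

theorem analyticAt_eulerProd : AnalyticAt ℂ eulerProd 0 :=
  differentiableOn_eulerProd.analyticAt (Metric.ball_mem_nhds 0 one_pos)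

/-- Partial products of the Euler product, as polynomials. -/
def eulerPartial (M : ℕ) : Polynomial ℤ :=
  ∏ i ∈ Finset.range M, (1 - Polynomial.X ^ (i + 1))

theorem eulerPartial_coeff_eventually (m : ℕ) :
    ∀ᶠ M in atTop, (eulerPartial M).coeff m = PowerSeries.coeff m ModularCurve.etaProd := by
  have h := ((PowerSeries.WithPiTopology.multipliable_one_sub_X_pow ℤ).hasProd.tendsto_prod_nat)
  have h2 := ((PowerSeries.WithPiTopology.continuous_coeff ℤ m).tendsto _).comp h
  rw [nhds_discrete, tendsto_pure] at h2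
  filter_upwards [h2] with M hM
  rw [ModularCurve.etaProd, ← hM, comp_apply, eulerPartial, ← Polynomial.coeff_coe]
  congr 1
  rw [← Polynomial.coeToPowerSeries.ringHom_apply, map_prod]
  simp

theorem iteratedDeriv_polynomial_eval (P : Polynomial ℂ) (n : ℕ) :
    iteratedDeriv n (fun x : ℂ => P.eval x)
      = fun x => (Polynomial.derivative^[n] P).eval x := by
  induction n with
  | zero => simp
  | succ n ih =>
    rw [iteratedDeriv_succ, ih, Function.iterate_succ_apply']
    funext x
    exact Polynomial.deriv _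

theorem tendstoLocallyUniformlyOn_iteratedDeriv {F : ℕ → ℂ → ℂ} {f : ℂ → ℂ} {U : Set ℂ}
    (hU : IsOpen U) (hf : TendstoLocallyUniformlyOn F f atTop U)
    (hF : ∀ k, AnalyticOnNhd ℂ (F k) U) (n : ℕ) :
    TendstoLocallyUniformlyOn (fun k => iteratedDeriv n (F k)) (iteratedDeriv n f) atTop U := by
  induction n with
  | zero => simpa using hf
  | succ n ih =>
    simp only [iteratedDeriv_succ]
    exact ih.deriv (Eventually.of_forall fun k =>
      ((hF k).iterated_deriv n |>.differentiableOn).congr fun x _ => by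
        rw [iteratedDeriv_eq_iterate]) hU

theorem iteratedDeriv_eulerProd_zero (m : ℕ) :
    iteratedDeriv m eulerProd 0
      = m.factorial * (PowerSeries.coeff m ModularCurve.etaProd : ℤ) := by
  have hU : IsOpen (Metric.ball (0 : ℂ) 1) := Metric.isOpen_ball
  let P : ℕ → Polynomial ℂ := fun M => (eulerPartial M).map (Int.castRingHom ℂ)
  have h0 : TendstoLocallyUniformlyOn (fun M x => (P M).eval x) eulerProd atTop
      (Metric.ball (0 : ℂ) 1) := by
    have h := multipliableLocallyUniformlyOn_one_sub_pow.hasProdLocallyUniformlyOn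
    rw [HasProdLocallyUniformlyOn] at h
    intro u hu x hx
    obtain ⟨t, ht, ht'⟩ := h u hu x hx
    refine ⟨t, ht, ?_⟩
    filter_upwards [tendsto_finset_range.eventually ht'] with M hM y hy
    have := hM y hy
    simpa [P, eulerPartial, eulerProd, Polynomial.map_prod, Polynomial.eval_prod] using this
  have h1 := (tendstoLocallyUniformlyOn_iteratedDeriv hU h0
    (fun M => ((P M).differentiable.differentiableOn).analyticOnNhd hU) m).tendsto_at
    (Metric.mem_ball_self one_pos)
  refine tendsto_nhds_unique h1 (Tendsto.congr' ?_ tendsto_const_nhds)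
  filter_upwards [eulerPartial_coeff_eventually m] with M hM
  rw [iteratedDeriv_polynomial_eval]
  simp only
  rw [← Polynomial.coeff_zero_eq_eval_zero, Polynomial.coeff_iterate_derivative, zero_add,
    Nat.descFactorial_self, Polynomial.coeff_map, hM, nsmul_eq_mul]
  simp

/-- The Euler product as a function on the upper half plane. -/
def eulerFun (τ : ℍ) : ℂ := eulerProd (Periodic.qParam 1 (τ : ℂ))

theorem qParam_mem_ball (τ : ℍ) : Periodic.qParam 1 (τ : ℂ) ∈ Metric.ball (0 : ℂ) 1 := by
  simpa using Periodic.norm_qParam_lt_one one_pos τ.im_pos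

theorem cuspFunction_eq_of_eq_comp {F : ℍ → ℂ} {G : ℂ → ℂ} (hG : ContinuousAt G 0)
    (h : ∀ τ : ℍ, F τ = G (Periodic.qParam 1 (τ : ℂ))) :
    Set.EqOn (cuspFunction 1 F) G (Metric.ball 0 1) := by
  have key : ∀ q ∈ Metric.ball (0 : ℂ) 1, q ≠ 0 → cuspFunction 1 F q = G q := by
    intro q hq hq0
    have him := Periodic.im_invQParam_pos_of_norm_lt_one one_pos (by simpa using hq) hq0
    rw [cuspFunction, Periodic.cuspFunction_eq_of_nonzero 1 _ hq0, comp_apply,
      ofComplex_apply_of_im_pos him, h]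
    simp [Periodic.qParam_right_inv one_ne_zero hq0]
  intro q hq
  rcases eq_or_ne q 0 with rfl | hq0
  · simp only [cuspFunction, Periodic.cuspFunction, update_self]
    apply Tendsto.limUnder_eq
    refine Tendsto.congr' ?_ (hG.tendsto.mono_left nhdsWithin_le_nhds)
    filter_upwards [self_mem_nhdsWithin,
      mem_nhdsWithin_of_mem_nhds (Metric.ball_mem_nhds (0 : ℂ) one_pos)] with q hq0 hq1
    have := key q hq1 hq0
    rw [cuspFunction, Periodic.cuspFunction_eq_of_nonzero 1 _ hq0] at this
    exact this.symm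
  · exact key q hq hq0

theorem analyticAt_cuspFunction_of_eq_comp {F : ℍ → ℂ} {G : ℂ → ℂ} (hG : AnalyticAt ℂ G 0)
    (h : ∀ τ : ℍ, F τ = G (Periodic.qParam 1 (τ : ℂ))) :
    AnalyticAt ℂ (cuspFunction 1 F) 0 :=
  hG.congr (Filter.eventuallyEq_of_mem (Metric.ball_mem_nhds 0 one_pos)
    (cuspFunction_eq_of_eq_comp hG.continuousAt h).symm)

theorem iteratedDeriv_cuspFunction_of_eq_comp {F : ℍ → ℂ} {G : ℂ → ℂ} (hG : AnalyticAt ℂ G 0)
    (h : ∀ τ : ℍ, F τ = G (Periodic.qParam 1 (τ : ℂ))) (m : ℕ) :
    iteratedDeriv m (cuspFunction 1 F) 0 = iteratedDeriv m G 0 :=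
  (Filter.eventuallyEq_of_mem (Metric.ball_mem_nhds 0 one_pos)
    (cuspFunction_eq_of_eq_comp hG.continuousAt h)).iteratedDeriv_eq m

theorem qExpansion_eulerFun :
    qExpansion 1 eulerFun = ModularCurve.etaProd.map (Int.castRingHom ℂ) := by
  ext m
  rw [qExpansion_coeff, iteratedDeriv_cuspFunction_of_eq_comp (F := eulerFun) analyticAt_eulerProd (fun _ => rfl),
    iteratedDeriv_eulerProd_zero, PowerSeries.coeff_map]
  simp [Nat.factorial_ne_zero]

theorem analyticAt_cuspFunction_eulerFun : AnalyticAt ℂ (cuspFunction 1 eulerFun) 0 :=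
  analyticAt_cuspFunction_of_eq_comp analyticAt_eulerProd fun _ => rfl

theorem analyticAt_cuspFunction_eulerFun_pow (n : ℕ) :
    AnalyticAt ℂ (cuspFunction 1 (eulerFun ^ n)) 0 :=
  analyticAt_cuspFunction_of_eq_comp (analyticAt_eulerProd.pow n) fun _ => rfl

theorem qExpansion_eulerFun_pow (n : ℕ) :
    qExpansion 1 (eulerFun ^ n) = qExpansion 1 eulerFun ^ n := by
  induction n with
  | zero => simp [qExpansion_one]
  | succ n ih =>
    rw [pow_succ, qExpansion_mul (analyticAt_cuspFunction_eulerFun_pow n)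
      analyticAt_cuspFunction_eulerFun, ih, pow_succ]

/-- The coordinate `q` as a function on the upper half plane. -/
def qFun (τ : ℍ) : ℂ := Periodic.qParam 1 (τ : ℂ)

theorem qExpansion_qFun : qExpansion 1 qFun = PowerSeries.X := by
  ext m
  rw [qExpansion_coeff,
    iteratedDeriv_cuspFunction_of_eq_comp (F := qFun) analyticAt_id (fun _ => rfl),
    PowerSeries.coeff_X]
  rcases m with _ | _ | m
  · simp
  · simp
  · rw [iteratedDeriv_succ', deriv_id', iteratedDeriv_const]
    simp

theorem discriminant_eq_qFun_mul (τ : ℍ) :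
    ModularForm.discriminant τ = qFun τ * eulerFun τ ^ 24 := by
  rw [discriminant_eq_q_prod, qFun, eulerFun, eulerProd,
    ← (multipliable_one_sub_pow (Periodic.norm_qParam_lt_one one_pos τ.im_pos)).tprod_pow]

theorem qExpansion_discriminant :
    qExpansion 1 ModularForm.discriminant
      = PowerSeries.X * ModularCurve.dedekindEtaUnit.map (Int.castRingHom ℂ) := by
  rw [show ModularForm.discriminant = qFun * eulerFun ^ 24 from funext discriminant_eq_qFun_mul,
    qExpansion_mul (analyticAt_cuspFunction_of_eq_comp (F := qFun) analyticAt_id fun _ => rfl)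
      (analyticAt_cuspFunction_eulerFun_pow 24), qExpansion_qFun, qExpansion_eulerFun_pow,
    qExpansion_eulerFun, ModularCurve.dedekindEtaUnit, map_pow]

theorem eulerFun_ne_zero (τ : ℍ) : eulerFun τ ≠ 0 := by
  intro h
  apply ModularForm.discriminant_ne_zero τ
  rw [discriminant_eq_qFun_mul, h]
  simp

theorem qFun_ne_zero (τ : ℍ) : qFun τ ≠ 0 := Periodic.qParam_ne_zero _

/-- The function `q · j`, which is holomorphic at `i∞`. -/
def qMulJ (τ : ℍ) : ℂ := Periodic.qParam 1 (τ : ℂ) * jInv τ

theorem qMulJ_eq (τ : ℍ) : qMulJ τ = E₄ τ ^ 3 / eulerFun τ ^ 24 := by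
  show qFun τ * (E₄ τ ^ 3 / ModularForm.discriminant τ) = _
  have := qFun_ne_zero τ
  have := eulerFun_ne_zero τ
  rw [discriminant_eq_qFun_mul]
  field_simp

theorem mdifferentiable_qMulJ : MDiff qMulJ := by
  rw [UpperHalfPlane.mdifferentiable_iff]
  have h := UpperHalfPlane.mdifferentiable_iff.mp mdifferentiable_jInv
  have h2 : DifferentiableOn ℂ (Periodic.qParam 1) upperHalfPlaneSet := by fun_prop
  exact (h2.mul h).congr fun z hz => by
    simp [qMulJ, ofComplex_apply_of_im_pos hz]

theorem periodic_qMulJ : Periodic (qMulJ ∘ ofComplex) 1 := by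
  intro z
  have hp := periodic_jFun z
  by_cases hz : 0 < z.im
  · have h1 : 0 < (z + 1).im := by simpa using hz
    simp only [jFun, comp_apply] at hp
    simp only [qMulJ, comp_apply, hp]
    congr 1
    simp only [ofComplex_apply_of_im_pos hz, ofComplex_apply_of_im_pos h1]
    simp [Periodic.qParam, mul_add, Complex.exp_add]
  · have h1 : ¬ 0 < (z + 1).im := by simpa using hz
    simp only [not_lt] at hz h1
    simp [ofComplex_apply_of_im_nonpos hz, ofComplex_apply_of_im_nonpos h1]

theorem eulerProd_zero : eulerProd 0 = 1 := by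
  simp [eulerProd]

theorem tendsto_qMulJ_atImInfty : Filter.Tendsto qMulJ atImInfty (𝓝 1) := by
  have hq := UpperHalfPlane.qParam_tendsto_atImInfty (h := (1 : ℝ)) one_pos
  have hu : Tendsto eulerFun atImInfty (𝓝 1) := by
    have := analyticAt_eulerProd.continuousAt.tendsto.comp hq
    rwa [eulerProd_zero] at this
  have hE : Tendsto (E₄ : ℍ → ℂ) atImInfty (𝓝 1) := by
    have hper := SlashInvariantFormClass.periodic_comp_ofComplex E₄ (h := (1 : ℝ))
      one_mem_strictPeriods_SL
    have han := ModularFormClass.analyticAt_cuspFunction_zero E₄ one_pos one_mem_strictPeriods_SL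
    have h0 : cuspFunction 1 E₄ 0 = 1 := by
      have := E_qExpansion_coeff_zero (k := 4) (by norm_num) ⟨2, rfl⟩
      simpa [qExpansion_coeff] using this
    have := han.continuousAt.tendsto.comp hq
    rw [h0] at this
    exact this.congr fun τ => UpperHalfPlane.eq_cuspFunction τ one_ne_zero hper
  have := (hE.pow 3).div (hu.pow 24) (by norm_num)
  rw [one_pow, one_pow, div_one] at this
  exact this.congr fun τ => (qMulJ_eq τ).symm

theorem isBoundedAtImInfty_qMulJ : IsBoundedAtImInfty qMulJ :=
  tendsto_qMulJ_atImInfty.isBigO_one ℝ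

theorem analyticAt_cuspFunction_qMulJ : AnalyticAt ℂ (cuspFunction 1 qMulJ) 0 :=
  UpperHalfPlane.analyticAt_cuspFunction_zero one_pos periodic_qMulJ mdifferentiable_qMulJ
    isBoundedAtImInfty_qMulJ

theorem qExpansion_qMulJ :
    qExpansion 1 qMulJ = ModularCurve.jNum.map (Int.castRingHom ℂ) := by
  have hE := ModularFormClass.analyticAt_cuspFunction_zero E₄ one_pos one_mem_strictPeriods_SL
  have h : qMulJ * eulerFun ^ 24 = (E₄ : ℍ → ℂ) * E₄ * E₄ := funext fun τ => by
    have := eulerFun_ne_zero τ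
    simp only [Pi.mul_apply, Pi.pow_apply, qMulJ_eq]
    field_simp
  have hEE : AnalyticAt ℂ (cuspFunction 1 ((E₄ : ℍ → ℂ) * E₄)) 0 := by
    rw [cuspFunction_mul hE.continuousAt hE.continuousAt]
    exact hE.mul hE
  have h2 := congrArg (qExpansion 1) h
  rw [qExpansion_mul analyticAt_cuspFunction_qMulJ (analyticAt_cuspFunction_eulerFun_pow 24),
    qExpansion_mul hEE hE, qExpansion_mul hE hE, qExpansion_eulerFun_pow, qExpansion_eulerFun,
    qExpansion_E4, ← map_pow, ← map_mul, ← map_mul] at h2
  have h3 : (ModularCurve.etaProd ^ 24).map (Int.castRingHom ℂ)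
      * ModularCurve.dedekindEtaUnitInv.map (Int.castRingHom ℂ) = 1 := by
    rw [← map_mul, ← map_one (PowerSeries.map (Int.castRingHom ℂ))]
    exact congrArg _ ModularCurve.dedekindEtaUnit_mul_inv
  calc qExpansion 1 qMulJ
      = qExpansion 1 qMulJ * ((ModularCurve.etaProd ^ 24).map (Int.castRingHom ℂ)
          * ModularCurve.dedekindEtaUnitInv.map (Int.castRingHom ℂ)) := by rw [h3, mul_one]
    _ = _ := by
      rw [← mul_assoc, h2, ← map_mul, ModularCurve.jNum]
      ring_nf

theorem tendsto_norm_jInv_atImInfty :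
    Filter.Tendsto (fun τ => ‖jInv τ‖) atImInfty Filter.atTop := by
  have hq : Tendsto (fun τ : ℍ => ‖qFun τ‖) atImInfty (𝓝[>] 0) := by
    refine tendsto_nhdsWithin_iff.mpr ⟨?_, Eventually.of_forall fun τ => ?_⟩
    · simpa [qFun] using (UpperHalfPlane.qParam_tendsto_atImInfty (h := (1 : ℝ)) one_pos).norm
    · simpa using qFun_ne_zero τ
  have h1 : Tendsto (fun τ => ‖qMulJ τ‖) atImInfty (𝓝 1) := by
    simpa using tendsto_qMulJ_atImInfty.norm
  have := h1.pos_mul_atTop one_pos (tendsto_inv_nhdsGT_zero.comp hq)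
  refine this.congr fun τ => ?_
  have : ‖qFun τ‖ ≠ 0 := by simpa using qFun_ne_zero τ
  show ‖qFun τ * jInv τ‖ * ‖qFun τ‖⁻¹ = _
  rw [norm_mul]
  field_simp

end FLTA.Bridge
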