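import Fermat.Agent.Bridge.ModHol
import Fermat.Agent.Gamma0.Counts

/-!
# The cosets of `Γ₀(N)` and the polynomial equations of modular functions over `ℂ[j]`
-/

set_option autoImplicit false

noncomputable section

open scoped Manifold MatrixGroups Topology Polynomial
open UpperHalfPlane hiding I
open Complex Filter CongruenceSubgroup ModularCurve

namespace FLTA.Bridge

/-- Holomorphic functions of at most exponential growth at every cusp. -/
def GrowthHol : Subalgebra ℂ (ℍ → ℂ) where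
  carrier := {F | F ∈ Hol ∧ ∀ g : SL(2, ℤ), GrowthInfty (fun τ : ℍ => F (g • τ))}
  mul_mem' ha hb := ⟨mul_mem ha.1 hb.1, fun g => (ha.2 g).mul (hb.2 g)⟩
  add_mem' ha hb := ⟨add_mem ha.1 hb.1, fun g => (ha.2 g).add (hb.2 g)⟩
  algebraMap_mem' c := ⟨Subalgebra.algebraMap_mem _ c, fun _ => GrowthInfty.const c⟩

/-- Evaluation at a point. -/
def growthEval (τ : ℍ) : GrowthHol →+* ℂ :=
  (Pi.evalRingHom (fun _ : ℍ => ℂ) τ).comp GrowthHol.val.toRingHom

@[simp]
theorem growthEval_apply (τ : ℍ) (F : GrowthHol) : growthEval τ F = (F : ℍ → ℂ) τ := rfl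

/-- Evaluation of a holomorphic function at a point. -/
def modHolToHolEval (τ : ℍ) : Hol →+* ℂ :=
  (Pi.evalRingHom (fun _ : ℍ => ℂ) τ).comp Hol.val.toRingHom

/-- An `SL(2, ℤ)`-invariant polynomial over `GrowthHol` has coefficients in `ℂ[j]`. -/
theorem exists_map_eval_jInv_eq (R : Polynomial GrowthHol)
    (hR : ∀ (g : SL(2, ℤ)) (τ : ℍ), R.map (growthEval (g • τ)) = R.map (growthEval τ)) :
    ∃ P : Polynomial (Polynomial ℂ), P.natDegree ≤ R.natDegree ∧
      ∀ τ : ℍ, P.map (Polynomial.evalRingHom (jInv τ)) = R.map (growthEval τ) := by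
  have hc : ∀ k, ∃ p : Polynomial ℂ, (R.coeff k : ℍ → ℂ) = fun τ => p.eval (jInv τ) := by
    intro k
    have hinv : ∀ (g : SL(2, ℤ)) (τ : ℍ),
        (R.coeff k : ℍ → ℂ) (g • τ) = (R.coeff k : ℍ → ℂ) τ := fun g τ => by
      have := congrArg (fun q : Polynomial ℂ => q.coeff k) (hR g τ)
      simpa [Polynomial.coeff_map] using this
    exact exists_aeval_jMod_eq 1
      ⟨(R.coeff k).2.1, fun γ _ τ => hinv γ τ, (R.coeff k).2.2⟩ hinv
  choose p hp using hc
  refine ⟨∑ k ∈ Finset.range (R.natDegree + 1), Polynomial.C (p k) * Polynomial.X ^ k, ?_, ?_⟩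
  · refine Polynomial.natDegree_sum_le_of_forall_le _ _ fun k hk => ?_
    exact (Polynomial.natDegree_C_mul_X_pow_le _ _).trans
      (Nat.lt_succ_iff.mp (Finset.mem_range.mp hk))
  · intro τ
    ext k
    simp only [Polynomial.coeff_map, Polynomial.finsetSum_coeff, Polynomial.coeff_C_mul_X_pow,
      Finset.sum_ite_eq, Finset.mem_range]
    by_cases hk : k < R.natDegree + 1
    · simp [show k ≤ R.natDegree by omega, hp k]
    · simp [show ¬ k ≤ R.natDegree by omega, Polynomial.coeff_eq_zero_of_natDegree_lt (show R.natDegree < k by omega)]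

theorem mem_growthHol_comp_smul {F : ℍ → ℂ} (hF : F ∈ GrowthHol) (g : SL(2, ℤ)) :
    (fun τ : ℍ => F (g • τ)) ∈ GrowthHol := by
  refine ⟨smul_mem_hol hF.1 g, fun g' => ?_⟩
  simpa [mul_smul] using hF.2 (g * g')

variable (N : ℕ) [NeZero N]

/-- The index of `Γ₀(N)` is the Dedekind function. -/
theorem index_Gamma0_eq_dedekindPsi : (Gamma0 N).index = dedekindPsi N :=
  FLTA.Gamma0.index_Gamma0_eq N

/-- `j (N g τ)` separates the cosets of `Γ₀(N)`. -/
theorem eq_of_jInv_scaleTau_smul_eq {g g' : SL(2, ℤ)}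
    (h : ∀ τ : ℍ, jInv (scaleTau N (g • τ)) = jInv (scaleTau N (g' • τ))) :
    g * g'⁻¹ ∈ Gamma0 N := by
  have hk : ∀ τ : ℍ, jInv (scaleTau N ((g * g'⁻¹) • τ)) = jInv (scaleTau N τ) := fun τ => by
    have := h (g'⁻¹ • τ)
    rwa [smul_inv_smul, ← mul_smul] at this
  obtain ⟨u, α, δ, β, hα, hδ, hαδ, hdvd, he⟩ := exists_smul_eq_scaleTau_smul' N (g * g'⁻¹)
  have hN0 : (0 : ℝ) < N := by exact_mod_cast Nat.pos_of_ne_zero (NeZero.ne N)
  have hαR : (0 : ℝ) < α := by exact_mod_cast hα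
  have hδR : (0 : ℝ) < δ := by exact_mod_cast hδ
  let σ : ℍ → ℍ := fun τ => ⟨((α : ℂ) * τ + β) / δ, by
    have := τ.im_pos
    simp [Complex.div_natCast_im]
    positivity⟩
  have hσim : ∀ τ : ℍ, (σ τ).im = α * τ.im / δ := fun τ => by
    show (((α : ℂ) * τ + β) / δ).im = _
    simp [Complex.div_natCast_im]
  have hsim : ∀ τ : ℍ, (scaleTau N τ).im = N * τ.im := fun τ => by
    show (scaleTau N τ : ℂ).im = _
    simp [coe_scaleTau]
  have hinj : ∀ τ : ℍ, jInv (σ τ) = jInv (scaleTau N τ) := fun τ => by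
    rw [← hk τ, he τ (σ τ) rfl, jInv_smul]
  -- the sequence `τ n = (n + 1) i`
  let t : ℕ → ℍ := fun n => ⟨((n : ℝ) + 1 : ℝ) * Complex.I, by simp; positivity⟩
  have htim : ∀ n, (t n).im = (n : ℝ) + 1 := fun n => by
    show ((((n : ℝ) + 1 : ℝ) : ℂ) * Complex.I).im = _
    simp
  have hT : ∀ {c : ℝ}, 0 < c → ∀ f : ℍ → ℍ, (∀ τ, (f τ).im = c * τ.im) →
      Tendsto (fun n => f (t n)) atTop atImInfty := fun {c} hc f hf => by
    rw [atImInfty, tendsto_comap_iff]
    have : (UpperHalfPlane.im ∘ fun n => f (t n)) = fun n : ℕ => c * ((n : ℝ) + 1) := by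
      funext n; simp [hf, htim]
    rw [this]
    exact (tendsto_atTop_add_const_right _ 1 tendsto_natCast_atTop_atTop).const_mul_atTop hc
  have h1 := (tendsto_qMulJ_atImInfty.comp
    (hT (div_pos hαR hδR) σ (fun τ => by rw [hσim]; ring))).norm
  have h2 := (tendsto_qMulJ_atImInfty.comp (hT hN0 (scaleTau N) hsim)).norm
  have h3 := h1.div h2 (by simp)
  set κ : ℝ := -2 * Real.pi * (α / δ - N)
  have h4 : Tendsto (fun n : ℕ => Real.exp (κ * ((n : ℝ) + 1))) atTop (𝓝 1) := by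
    have h5 : Tendsto (fun n => ‖qMulJ (σ (t n))‖ / ‖qMulJ (scaleTau N (t n))‖) atTop (𝓝 1) := by
      simpa [Pi.div_def, Function.comp_def] using h3
    refine h5.congr' ?_
    filter_upwards [(tendsto_norm_jInv_atImInfty.comp (hT hN0 (scaleTau N) hsim)).eventually_gt_atTop
      0] with n hn
    simp only [qMulJ, norm_mul, hinj, norm_qParam_one, hσim, hsim, htim]
    rw [mul_div_mul_right _ _ (by simpa using hn.ne'), ← Real.exp_sub]
    congr 1
    simp only [κ]
    ring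
  have h6 : κ = 0 := by
    rcases lt_trichotomy κ 0 with hκ | hκ | hκ
    · have := Real.tendsto_exp_atBot.comp
        ((tendsto_atTop_add_const_right _ (1 : ℝ) tendsto_natCast_atTop_atTop).const_mul_atTop_of_neg
          hκ)
      exact absurd (tendsto_nhds_unique this h4) zero_ne_one
    · exact hκ
    · have := Real.tendsto_exp_atTop.comp
        ((tendsto_atTop_add_const_right _ (1 : ℝ) tendsto_natCast_atTop_atTop).const_mul_atTop hκ)
      exact absurd h4 (not_tendsto_nhds_of_tendsto_atTop this 1)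
  have h7 : (α : ℝ) = N * δ := by
    have hpi : (-2 * Real.pi) ≠ 0 := by simp [Real.pi_ne_zero]
    have := (mul_eq_zero.mp h6).resolve_left hpi
    field_simp at this
    linarith
  have h8 : α = N * δ := by exact_mod_cast h7
  have h9 : α = N := by
    rw [h8, mul_assoc] at hαδ
    have : δ * δ = 1 := (mul_eq_left₀ (NeZero.ne N)).mp hαδ
    rw [h8, Nat.eq_one_of_mul_eq_one_right this, mul_one]
  rw [Gamma0_mem, ZMod.intCast_zmod_eq_zero_iff_dvd]
  rwa [h9] at hdvd

/-- The conjugates of a modular function: `τ ↦ F (c⁻¹ τ)` for a coset `c`. -/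
def conjFun {F : ℍ → ℂ} (hF : F ∈ ModHol N) (c : SL(2, ℤ) ⧸ Gamma0 N) : GrowthHol :=
  ⟨fun τ : ℍ => F (c.out⁻¹ • τ), mem_growthHol_comp_smul ⟨hF.1, hF.2.2⟩ _⟩

theorem conjFun_smul {F : ℍ → ℂ} (hF : F ∈ ModHol N) (c : SL(2, ℤ) ⧸ Gamma0 N) (g : SL(2, ℤ))
    (τ : ℍ) : (conjFun N hF c : ℍ → ℂ) (g • τ) = (conjFun N hF (g⁻¹ • c) : ℍ → ℂ) τ := by
  show F (c.out⁻¹ • g • τ) = F ((g⁻¹ • c).out⁻¹ • τ)
  have hc : g⁻¹ • c = QuotientGroup.mk (g⁻¹ * c.out) := by
    conv_lhs => rw [← QuotientGroup.out_eq' c]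
    rfl
  obtain ⟨γ, hγ⟩ := QuotientGroup.mk_out_eq_mul (Gamma0 N) (g⁻¹ * c.out)
  rw [hc, hγ, mul_inv_rev, mul_inv_rev, inv_inv, mul_smul, mul_smul, hF.2.1 _ (inv_mem γ.2)]

theorem conjFun_one {F : ℍ → ℂ} (hF : F ∈ ModHol N) (τ : ℍ) :
    (conjFun N hF (QuotientGroup.mk 1) : ℍ → ℂ) τ = F τ := by
  show F ((Quotient.out (QuotientGroup.mk 1 : SL(2, ℤ) ⧸ Gamma0 N))⁻¹ • τ) = F τ
  obtain ⟨γ, hγ⟩ := QuotientGroup.mk_out_eq_mul (Gamma0 N) 1
  rw [hγ, one_mul]
  exact hF.2.1 _ (inv_mem γ.2) τ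

/-- The product over the cosets `g` of `X - F (g • τ)` has coefficients in `ℂ[j]`. -/
theorem exists_monic_eval_eq_prod {F : ℍ → ℂ} (hF : F ∈ ModHol N) :
    ∃ P : Polynomial (Polynomial ℂ), P.Monic ∧ P.natDegree = dedekindPsi N ∧
      ∀ τ : ℍ, P.map (Polynomial.evalRingHom (jInv τ)) =
        ∏ᶠ c : SL(2, ℤ) ⧸ Gamma0 N, (Polynomial.X - Polynomial.C (F (c.out⁻¹ • τ))) := by
  have : Fintype (SL(2, ℤ) ⧸ Gamma0 N) := Fintype.ofFinite _
  set R : Polynomial GrowthHol :=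
    ∏ c : SL(2, ℤ) ⧸ Gamma0 N, (Polynomial.X - Polynomial.C (conjFun N hF c))
  have hRτ : ∀ τ : ℍ, R.map (growthEval τ) =
      ∏ c : SL(2, ℤ) ⧸ Gamma0 N, (Polynomial.X - Polynomial.C ((conjFun N hF c : ℍ → ℂ) τ)) :=
    fun τ => by simp [R, Polynomial.map_prod]
  obtain ⟨P, hdeg, hP⟩ := exists_map_eval_jInv_eq R fun g τ => by
    rw [hRτ, hRτ]
    exact Fintype.prod_equiv (MulAction.toPerm g⁻¹) _ _ fun c => by
      rw [conjFun_smul N hF c g τ]
      rfl
  have hn : R.natDegree = dedekindPsi N := by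
    rw [Polynomial.natDegree_finsetProd_X_sub_C_eq_card, Finset.card_univ,
      ← Nat.card_eq_fintype_card, FLTA.Gamma0.card_cosets_Gamma0]
  rw [hn] at hdeg
  have hlead : P.coeff (dedekindPsi N) = 1 := by
    apply Polynomial.funext
    intro z
    obtain ⟨τ, rfl⟩ := jInv_surjective z
    have h := congrArg (fun q : Polynomial ℂ => q.coeff (dedekindPsi N)) (hP τ)
    have hm : (R.map (growthEval τ)).coeff (dedekindPsi N) = 1 := by
      rw [Polynomial.coeff_map, ← hn,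
        (Polynomial.monic_prod_X_sub_C (conjFun N hF) Finset.univ).coeff_natDegree, map_one]
    simp only [Polynomial.coeff_map, hm] at h
    simpa using h
  refine ⟨P, Polynomial.monic_of_natDegree_le_of_coeff_eq_one _ hdeg hlead,
    le_antisymm hdeg (Polynomial.le_natDegree_of_ne_zero (by simp [hlead])), fun τ => ?_⟩
  rw [hP τ, hRτ, finprod_eq_prod_of_fintype]
  rfl

/-- Evaluation of a polynomial in two variables at `(j, A)`. -/
def evalJ (A : ModHol N) : Polynomial (Polynomial ℂ) →+* ModHol N :=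
  Polynomial.eval₂RingHom (Polynomial.aeval (jMod N) : Polynomial ℂ →ₐ[ℂ] ModHol N).toRingHom A

/-- Evaluation of a modular function at a point. -/
def modHolEval (τ : ℍ) : ModHol N →+* ℂ :=
  (Pi.evalRingHom (fun _ : ℍ => ℂ) τ).comp (ModHol N).val.toRingHom

theorem evalJ_apply (A : ModHol N) (P : Polynomial (Polynomial ℂ)) (τ : ℍ) :
    (evalJ N A P : ℍ → ℂ) τ =
      (P.map (Polynomial.evalRingHom (jInv τ))).eval ((A : ℍ → ℂ) τ) := by
  have h : (modHolEval N τ).comp (evalJ N A) =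
      (Polynomial.evalRingHom ((A : ℍ → ℂ) τ)).comp
        (Polynomial.mapRingHom (Polynomial.evalRingHom (jInv τ))) := by
    refine Polynomial.ringHom_ext (fun p => ?_) ?_
    · have h' : (modHolEval N τ).comp
          (Polynomial.aeval (jMod N) : Polynomial ℂ →ₐ[ℂ] ModHol N).toRingHom =
          Polynomial.evalRingHom (jInv τ) := by
        refine Polynomial.ringHom_ext (fun c => ?_) ?_
        · simp [modHolEval]
        · simp [modHolEval, jMod]
      have := RingHom.congr_fun h' p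
      simpa [evalJ] using this
    · simp [evalJ, modHolEval]
  exact RingHom.congr_fun h P

/-- Every holomorphic modular function is integral over `ℂ[j]`, with explicit equation. -/
theorem exists_monic_aeval_eq_zero (A : ModHol N) :
    ∃ P : Polynomial (Polynomial ℂ), P.Monic ∧ P.natDegree = dedekindPsi N ∧
      evalJ N A P = 0 := by
  obtain ⟨P, hm, hd, hP⟩ := exists_monic_eval_eq_prod N A.2
  have : Fintype (SL(2, ℤ) ⧸ Gamma0 N) := Fintype.ofFinite _
  refine ⟨P, hm, hd, Subtype.ext (funext fun τ => ?_)⟩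
  rw [evalJ_apply, hP τ, finprod_eq_prod_of_fintype, Polynomial.eval_prod]
  exact Finset.prod_eq_zero (Finset.mem_univ (QuotientGroup.mk 1))
    (by rw [Polynomial.eval_sub, Polynomial.eval_X, Polynomial.eval_C]
        exact sub_eq_zero.mpr (conjFun_one N A.2 τ).symm)

theorem conjFun_jAt_injective :
    Function.Injective (fun c => conjFun N (jAt N N dvd_rfl).2 c) := by
  intro c d hcd
  have h := eq_of_jInv_scaleTau_smul_eq N (g := c.out⁻¹) (g' := d.out⁻¹) fun τ =>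
    congrFun (congrArg Subtype.val hcd) τ
  rw [inv_inv] at h
  rw [← QuotientGroup.out_eq' c, ← QuotientGroup.out_eq' d, QuotientGroup.eq]
  exact h

theorem conjFun_sub_ne_zero {c d : SL(2, ℤ) ⧸ Gamma0 N} (h : c ≠ d) :
    (⟨_, (conjFun N (jAt N N dvd_rfl).2 c).2.1⟩ : Hol) -
      ⟨_, (conjFun N (jAt N N dvd_rfl).2 d).2.1⟩ ≠ 0 := by
  intro h0
  have h1 := congrArg (fun x : Hol => (x : ℍ → ℂ)) (sub_eq_zero.mp h0)
  exact h (conjFun_jAt_injective N (Subtype.ext h1))

/-- No relation of degree `< ψ(N)` in `j_N` over `ℂ[j]`. -/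
theorem eq_zero_of_evalJ_jAt_eq_zero {P : Polynomial (Polynomial ℂ)}
    (hdeg : P.natDegree < dedekindPsi N) (h : evalJ N (jAt N N dvd_rfl) P = 0) : P = 0 := by
  have : Fintype (SL(2, ℤ) ⧸ Gamma0 N) := Fintype.ofFinite _
  classical
  let f : SL(2, ℤ) ⧸ Gamma0 N → Hol := fun c => ⟨_, (conjFun N (jAt N N dvd_rfl).2 c).2.1⟩
  set D : Hol := ∏ c : SL(2, ℤ) ⧸ Gamma0 N, ∏ d ∈ Finset.univ.erase c, (f c - f d)
  have hD : D ≠ 0 := Finset.prod_ne_zero_iff.mpr fun c _ => Finset.prod_ne_zero_iff.mpr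
    fun d hd => conjFun_sub_ne_zero N (Finset.ne_of_mem_erase hd).symm
  ext k : 1
  have hk : (⟨fun τ => (P.coeff k).eval (jInv τ), by
      rw [mem_hol_iff_differentiableOn]
      exact ((P.coeff k).differentiable.comp_differentiableOn
        (mem_hol_iff_differentiableOn.mp mdifferentiable_jInv))⟩ : Hol) * D = 0 := by
    refine Subtype.ext (funext fun τ => ?_)
    show (P.coeff k).eval (jInv τ) * (D : ℍ → ℂ) τ = 0
    by_cases hDτ : (D : ℍ → ℂ) τ = 0
    · rw [hDτ, mul_zero]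
    suffices P.map (Polynomial.evalRingHom (jInv τ)) = 0 by
      have := congrArg (fun q : Polynomial ℂ => q.coeff k) this
      simp only [Polynomial.coeff_map, Polynomial.coeff_zero, Polynomial.coe_evalRingHom] at this
      rw [this, zero_mul]
    refine Polynomial.eq_zero_of_natDegree_lt_card_of_eval_eq_zero _
      (f := fun c => (f c : ℍ → ℂ) τ) ?_ (fun c => ?_) ?_
    · intro c d hcd
      by_contra hne
      refine hDτ ?_
      show (modHolToHolEval τ) D = 0
      rw [map_prod]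
      refine Finset.prod_eq_zero (Finset.mem_univ c) ?_
      rw [map_prod]
      exact Finset.prod_eq_zero (Finset.mem_erase.mpr ⟨Ne.symm hne, Finset.mem_univ d⟩)
        (by rw [map_sub]; exact sub_eq_zero.mpr hcd)
    · have h0 := congrFun (congrArg Subtype.val h) (c.out⁻¹ • τ)
      rw [evalJ_apply, jInv_smul] at h0
      exact h0
    · calc _ ≤ P.natDegree := Polynomial.natDegree_map_le
        _ < _ := by rwa [← Nat.card_eq_fintype_card, FLTA.Gamma0.card_cosets_Gamma0]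
  have h0 := (mul_eq_zero.mp hk).resolve_right hD
  rw [Polynomial.coeff_zero]
  apply Polynomial.funext
  intro z
  obtain ⟨τ, rfl⟩ := jInv_surjective z
  simpa using congrFun (congrArg Subtype.val h0) τ

/-- The interpolation numerators are permuted by `SL(2, ℤ)`. -/
theorem sum_interp_smul [Fintype (SL(2, ℤ) ⧸ Gamma0 N)] [DecidableEq (SL(2, ℤ) ⧸ Gamma0 N)]
    {F J : ℍ → ℂ} (hF : F ∈ ModHol N) (hJ : J ∈ ModHol N) (g : SL(2, ℤ)) (τ : ℍ) :
    ∑ c : SL(2, ℤ) ⧸ Gamma0 N, Polynomial.C ((conjFun N hF c : ℍ → ℂ) (g • τ)) *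
        ∏ d ∈ Finset.univ.erase c,
          (Polynomial.X - Polynomial.C ((conjFun N hJ d : ℍ → ℂ) (g • τ))) =
      ∑ c : SL(2, ℤ) ⧸ Gamma0 N, Polynomial.C ((conjFun N hF c : ℍ → ℂ) τ) *
        ∏ d ∈ Finset.univ.erase c,
          (Polynomial.X - Polynomial.C ((conjFun N hJ d : ℍ → ℂ) τ)) := by
  refine Fintype.sum_equiv (MulAction.toPerm g⁻¹) _ _ fun c => ?_
  rw [conjFun_smul N hF c g τ, MulAction.toPerm_apply]
  congr 1
  refine Finset.prod_equiv (MulAction.toPerm g⁻¹) (fun d => ?_) fun d _ => ?_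
  · simp
  · rw [conjFun_smul N hJ d g τ, MulAction.toPerm_apply]

/-- Lagrange interpolation: `ModHol N` times a fixed nonzero element lies in `ℂ[j, j_N]`. -/
theorem exists_mul_eq_evalJ :
    ∃ D : Polynomial (Polynomial ℂ), evalJ N (jAt N N dvd_rfl) D ≠ 0 ∧ ∀ F : ModHol N,
      ∃ Q : Polynomial (Polynomial ℂ), Q.natDegree < dedekindPsi N ∧
        F * evalJ N (jAt N N dvd_rfl) D = evalJ N (jAt N N dvd_rfl) Q := by
  have : Fintype (SL(2, ℤ) ⧸ Gamma0 N) := Fintype.ofFinite _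
  classical
  have hJ := (jAt N N dvd_rfl).2
  let f : SL(2, ℤ) ⧸ Gamma0 N → GrowthHol := conjFun N hJ
  let c1 : SL(2, ℤ) ⧸ Gamma0 N := QuotientGroup.mk 1
  have key : ∀ F : ModHol N, ∃ Q : Polynomial (Polynomial ℂ), Q.natDegree < dedekindPsi N ∧
      ∀ τ : ℍ, (evalJ N (jAt N N dvd_rfl) Q : ℍ → ℂ) τ =
        (F : ℍ → ℂ) τ * ∏ d ∈ Finset.univ.erase c1, ((f c1 : ℍ → ℂ) τ - (f d : ℍ → ℂ) τ) := by
    intro F
    set R : Polynomial GrowthHol := ∑ c : SL(2, ℤ) ⧸ Gamma0 N, Polynomial.C (conjFun N F.2 c) *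
      ∏ d ∈ Finset.univ.erase c, (Polynomial.X - Polynomial.C (f d))
    have hRτ : ∀ τ : ℍ, R.map (growthEval τ) = ∑ c : SL(2, ℤ) ⧸ Gamma0 N,
        Polynomial.C ((conjFun N F.2 c : ℍ → ℂ) τ) *
          ∏ d ∈ Finset.univ.erase c, (Polynomial.X - Polynomial.C ((f d : ℍ → ℂ) τ)) :=
      fun τ => by simp [R, Polynomial.map_sum, Polynomial.map_prod]
    obtain ⟨Q, hdeg, hQ⟩ := exists_map_eval_jInv_eq R fun g τ => by
      rw [hRτ, hRτ]
      exact sum_interp_smul N F.2 hJ g τ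
    have hpsi : 0 < dedekindPsi N := by
      rw [← FLTA.Gamma0.card_cosets_Gamma0]; exact Nat.card_pos
    have hR : R.natDegree ≤ dedekindPsi N - 1 := by
      refine Polynomial.natDegree_sum_le_of_forall_le _ _ fun c _ => ?_
      refine (Polynomial.natDegree_C_mul_le _ _).trans ?_
      refine (Polynomial.natDegree_prod_le _ _).trans ?_
      refine (Finset.sum_le_card_nsmul _ _ 1 fun d _ => Polynomial.natDegree_X_sub_C_le _).trans ?_
      simp [← FLTA.Gamma0.card_cosets_Gamma0, Nat.card_eq_fintype_card]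
    refine ⟨Q, by omega, fun τ => ?_⟩
    have h1 : ((jAt N N dvd_rfl : ModHol N) : ℍ → ℂ) τ = (f c1 : ℍ → ℂ) τ :=
      (conjFun_one N hJ τ).symm
    rw [evalJ_apply, hQ τ, hRτ, h1, Polynomial.eval_finsetSum,
      Finset.sum_eq_single c1 (fun c _ hc => ?_) (fun h => absurd (Finset.mem_univ _) h)]
    · simp [Polynomial.eval_prod, c1, conjFun_one N F.2 τ]
    · rw [Polynomial.eval_mul, Polynomial.eval_prod,
        Finset.prod_eq_zero (Finset.mem_erase.mpr ⟨Ne.symm hc, Finset.mem_univ c1⟩) (by simp),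
        mul_zero]
  obtain ⟨D, -, hD⟩ := key 1
  refine ⟨D, fun h0 => ?_, fun F => ?_⟩
  · let fH : SL(2, ℤ) ⧸ Gamma0 N → Hol := fun c => ⟨_, (f c).2.1⟩
    have hP : ∏ d ∈ Finset.univ.erase c1, (fH c1 - fH d) = 0 := by
      refine Subtype.ext (funext fun τ => ?_)
      have h2 := hD τ
      rw [h0] at h2
      show (modHolToHolEval τ) (∏ d ∈ Finset.univ.erase c1, (fH c1 - fH d)) = 0
      rw [map_prod]
      simpa [fH] using! h2.symm
    obtain ⟨d, hd, hd0⟩ := Finset.prod_eq_zero_iff.mp hP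
    exact conjFun_sub_ne_zero N (Finset.ne_of_mem_erase hd).symm hd0
  · obtain ⟨Q, hQd, hQ⟩ := key F
    refine ⟨Q, hQd, Subtype.ext (funext fun τ => ?_)⟩
    show (F : ℍ → ℂ) τ * (evalJ N (jAt N N dvd_rfl) D : ℍ → ℂ) τ = _
    rw [hQ τ, hD τ]
    simp

end FLTA.Bridge
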