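import Fermat.Agent.Bridge.ModHol
import Fermat.Agent.Bridge.Cosets
import Fermat.Prelude.Def_ModularCurve_ArithmeticGalois
import Fermat.Prelude.Def_GaloisRep_ComplexConjugation

/-!
# The function field of `X₀(N)` as a field of meromorphic functions on `ℍ`

For a field `L` with an embedding `ι : L →+* ℂ` (e.g. `ι = RingHom.id ℂ`, or
`complexEmbedding.toRingHom` for `ℚ̄`), `evMero ι N` maps
`laurentBaseChange L (modularFunctionFieldFull N)` to meromorphic functions on `ℍ`.
-/

set_option autoImplicit false

noncomputable section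

open scoped Manifold MatrixGroups Topology
open UpperHalfPlane hiding I
open Complex Filter CongruenceSubgroup ModularCurve IntermediateField

namespace FLTA.Bridge

variable (N : ℕ) [NeZero N]

instance instIsDomainModHol : IsDomain (ModHol N) :=
  (qexp_injective N).isDomain

/-- The field of modular functions for `Γ₀(N)`. -/
abbrev ModFrac : Type := FractionRing (ModHol N)

/-- The `q`-expansion of a modular function. -/
def qexpFrac : ModFrac N →+* LaurentSeries ℂ :=
  IsFractionRing.lift (g := (qexp N).toRingHom) (qexp_injective N)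

/-- The expansion of `f (g • τ)` in `exp (2 π i τ / N)`. -/
def qexpFracAt (g : SL(2, ℤ)) : ModFrac N →+* LaurentSeries ℂ :=
  IsFractionRing.lift (g := (qexpAt N g).toRingHom) (qexpAt_injective N g)

theorem qexpFrac_injective : Function.Injective (qexpFrac N) := RingHom.injective _

theorem modHolToHol_injective : Function.Injective (modHolToHol N) := by
  intro F G h
  exact Subtype.ext (congrArg (fun H : Hol => (H : ℍ → ℂ)) h)

/-- A modular function as a meromorphic function on `ℍ`. -/
def toMero : ModFrac N →+* Mero :=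
  IsFractionRing.map (A := ModHol N) (B := Hol) (j := (modHolToHol N).toRingHom)
    (modHolToHol_injective N)

/-- The function field of `X₀(N)` over `ℂ`. -/
abbrev fieldC : IntermediateField ℂ (LaurentSeries ℂ) :=
  laurentBaseChange ℂ (modularFunctionFieldFull N)

@[simp]
theorem qexpFrac_algebraMap (A : ModHol N) :
    qexpFrac N (algebraMap (ModHol N) (ModFrac N) A) = qexp N A := by
  rw [qexpFrac]
  exact IsFractionRing.lift_algebraMap _ A

theorem qexpFrac_div (A B : ModHol N) :
    qexpFrac N (algebraMap (ModHol N) (ModFrac N) A / algebraMap (ModHol N) (ModFrac N) B) =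
      qexp N A / qexp N B := by
  rw [map_div₀, qexpFrac_algebraMap, qexpFrac_algebraMap]

theorem qexp_jMod_mem_fieldC : qexp N (jMod N) ∈ fieldC N := by
  rw [qexp_jMod]
  have h := jqd_mem_full N (one_dvd N)
  rw [qExpand_one_apply] at h
  exact coeffEmb_mem_laurentBaseChange ℂ h

theorem qexp_jAt_mem_fieldC : qexp N (jAt N N dvd_rfl) ∈ fieldC N := by
  rw [qexp_jAt]
  exact coeffEmb_mem_laurentBaseChange ℂ (jqd_mem_full N dvd_rfl)

theorem qexp_evalJ_mem_fieldC (P : Polynomial (Polynomial ℂ)) :
    qexp N (evalJ N (jAt N N dvd_rfl) P) ∈ fieldC N := by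
  induction P using Polynomial.induction_on' with
  | add P Q hP hQ => rw [map_add, map_add]; exact add_mem hP hQ
  | monomial k p =>
    simp only [evalJ, Polynomial.coe_eval₂RingHom, Polynomial.eval₂_monomial, map_mul, map_pow]
    refine mul_mem ?_ (pow_mem (qexp_jAt_mem_fieldC N) k)
    induction p using Polynomial.induction_on' with
    | add p q hp hq => rw [map_add, map_add]; exact add_mem hp hq
    | monomial i c =>
      simp only [AlgHom.toRingHom_eq_coe, RingHom.coe_coe, Polynomial.aeval_monomial, map_mul,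
        map_pow, AlgHom.commutes]
      exact mul_mem ((fieldC N).algebraMap_mem c) (pow_mem (qexp_jMod_mem_fieldC N) i)

theorem qexp_mem_fieldC (A : ModHol N) : qexp N A ∈ fieldC N := by
  obtain ⟨D, hD, hQ⟩ := exists_mul_eq_evalJ N
  obtain ⟨Q, -, hAQ⟩ := hQ A
  have hD' : qexp N (evalJ N (jAt N N dvd_rfl) D) ≠ 0 := fun h =>
    hD ((map_eq_zero_iff _ (qexp_injective N)).mp h)
  rw [(eq_div_iff hD').mpr ((map_mul (qexp N) A _).symm.trans (congrArg (qexp N) hAQ))]
  exact div_mem (qexp_evalJ_mem_fieldC N Q) (qexp_evalJ_mem_fieldC N D)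

theorem qexpFrac_mem_fieldC (x : ModFrac N) : qexpFrac N x ∈ fieldC N := by
  obtain ⟨A, B, -, rfl⟩ := IsFractionRing.div_surjective (A := ModHol N) x
  rw [qexpFrac_div]
  exact div_mem (qexp_mem_fieldC N A) (qexp_mem_fieldC N B)

theorem fieldC_le_range {y : LaurentSeries ℂ} (hy : y ∈ fieldC N) :
    ∃ x, qexpFrac N x = y := by
  suffices h : y ∈ (qexpFrac N).fieldRange from RingHom.mem_fieldRange.mp h
  rw [mem_laurentBaseChange_iff] at hy
  refine Subfield.closure_le.mpr ?_ hy
  rintro z (⟨c, rfl⟩ | ⟨w, hw, rfl⟩)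
  · exact ⟨algebraMap (ModHol N) (ModFrac N) (algebraMap ℂ (ModHol N) c), by simp⟩
  · induction hw using IntermediateField.adjoin_induction with
    | mem u hu =>
      obtain ⟨d, hd0, hd, rfl⟩ := hu
      exact ⟨algebraMap (ModHol N) (ModFrac N) (jAt N d hd), by
        rw [qexpFrac_algebraMap, qexp_jAt]⟩
    | algebraMap q =>
      refine ⟨algebraMap (ModHol N) (ModFrac N) (algebraMap ℂ (ModHol N) q), ?_⟩
      rw [qexpFrac_algebraMap, AlgHom.commutes, algebraMap_apply_eq_single, coeffEmb,
        coeffMap_single, algebraMap_laurentSeries_eq_single]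
      simp
    | add u v _ _ hu hv => rw [map_add]; exact add_mem hu hv
    | inv u _ hu => rw [map_inv₀]; exact inv_mem hu
    | mul u v _ _ hu hv => rw [map_mul]; exact mul_mem hu hv

/-- Modular functions are the same as elements of the function field over `ℂ`. -/
def modFracEquiv : ModFrac N ≃+* fieldC N :=
  RingEquiv.ofBijective
    ((qexpFrac N).codRestrict (fieldC N).toSubalgebra.toSubring (qexpFrac_mem_fieldC N))
    ⟨fun _ _ h => qexpFrac_injective N (congrArg Subtype.val h),
      fun y => (fieldC_le_range N y.2).imp fun _ hx => Subtype.ext hx⟩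

variable {L : Type*} [Field L] [Algebra ℚ L] (ι : L →+* ℂ)

theorem coeffMap_mem_fieldC {x : LaurentSeries L}
    (hx : x ∈ laurentBaseChange L (modularFunctionFieldFull N)) :
    coeffMap ι x ∈ fieldC N := by
  rw [mem_laurentBaseChange_iff] at hx
  have hc : ∀ w : LaurentSeries ℚ, coeffMap ι (coeffEmb L w) = coeffEmb ℂ w := fun w => by
    rw [coeffEmb, coeffEmb, coeffMap_coeffMap]
    exact coeffMap_congr (Subsingleton.elim _ _) w
  induction hx using Subfield.closure_induction with
  | mem y hy =>
    rcases hy with ⟨a, rfl⟩ | ⟨w, hw, rfl⟩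
    · rw [algebraMap_laurentSeries_eq_single, coeffMap_single,
        ← algebraMap_laurentSeries_eq_single]
      exact (fieldC N).algebraMap_mem _
    · rw [hc]
      exact coeffEmb_mem_laurentBaseChange ℂ hw
  | one => simp
  | add u v _ _ hu hv => simpa using add_mem hu hv
  | neg u _ hu => simpa using neg_mem hu
  | inv u _ hu => simpa using inv_mem hu
  | mul u v _ _ hu hv => simpa using mul_mem hu hv

/-- Extension of constants to `ℂ`. -/
def toFieldC : laurentBaseChange L (modularFunctionFieldFull N) →+* fieldC N where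
  toFun x := ⟨coeffMap ι x, coeffMap_mem_fieldC N ι x.2⟩
  map_one' := Subtype.ext (map_one (coeffMap ι))
  map_mul' _ _ := Subtype.ext (map_mul (coeffMap ι) _ _)
  map_zero' := Subtype.ext (map_zero (coeffMap ι))
  map_add' _ _ := Subtype.ext (map_add (coeffMap ι) _ _)

/-- An element of the function field as a modular function. -/
def evFrac : laurentBaseChange L (modularFunctionFieldFull N) →+* ModFrac N :=
  (modFracEquiv N).symm.toRingHom.comp (toFieldC N ι)

theorem qexpFrac_evFrac (x : laurentBaseChange L (modularFunctionFieldFull N)) :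
    qexpFrac N (evFrac N ι x) = coeffMap ι (x : LaurentSeries L) :=
  congrArg Subtype.val ((modFracEquiv N).apply_symm_apply (toFieldC N ι x))

/-- An element of the function field as a meromorphic function on `ℍ`. -/
def evMero : laurentBaseChange L (modularFunctionFieldFull N) →+* Mero :=
  (toMero N).comp (evFrac N ι)

/-- Analytic order at a point of `ℍ`. -/
def ordF (τ : ℍ) (x : laurentBaseChange L (modularFunctionFieldFull N)) : ℤ :=
  meroOrd τ (evMero N ι x)

/-- Order at the cusp `g ∞`, in the parameter `exp (2 π i τ / N)`. -/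
def ordCusp (g : SL(2, ℤ)) (x : laurentBaseChange L (modularFunctionFieldFull N)) : ℤ :=
  (qexpFracAt N g (evFrac N ι x)).order

theorem exists_rep (x : laurentBaseChange L (modularFunctionFieldFull N)) :
    ∃ A B : ModHol N, B ≠ 0 ∧ coeffMap ι (x : LaurentSeries L) * qexp N B = qexp N A := by
  obtain ⟨A, B, hB, h⟩ := IsFractionRing.div_surjective (A := ModHol N) (evFrac N ι x)
  have hB' := nonZeroDivisors.ne_zero hB
  refine ⟨A, B, hB', ?_⟩
  rw [← qexpFrac_evFrac N ι x, ← h, qexpFrac_div]
  exact div_mul_cancel₀ _ fun h0 => hB' ((map_eq_zero_iff _ (qexp_injective N)).mp h0)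

theorem evMero_eq_of_rep {x : laurentBaseChange L (modularFunctionFieldFull N)} {A B : ModHol N}
    (hB : B ≠ 0) (h : coeffMap ι (x : LaurentSeries L) * qexp N B = qexp N A) :
    evMero N ι x =
      algebraMap Hol Mero (modHolToHol N A) / algebraMap Hol Mero (modHolToHol N B) := by
  have hB' : qexp N B ≠ 0 := fun h0 => hB ((map_eq_zero_iff _ (qexp_injective N)).mp h0)
  have h1 : evFrac N ι x =
      algebraMap (ModHol N) (ModFrac N) A / algebraMap (ModHol N) (ModFrac N) B := by
    apply qexpFrac_injective N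
    rw [qexpFrac_div, qexpFrac_evFrac, eq_div_iff hB', h]
  show toMero N (evFrac N ι x) = _
  rw [h1, map_div₀]
  simp [toMero, IsFractionRing.map]

theorem evMero_algebraMap (c : L) :
    evMero N ι (algebraMap L (laurentBaseChange L (modularFunctionFieldFull N)) c) =
      algebraMap ℂ Mero (ι c) := by
  rw [evMero_eq_of_rep N ι (A := algebraMap ℂ (ModHol N) (ι c)) (B := 1) one_ne_zero]
  · rw [map_one, map_one, div_one, AlgHom.commutes, ← IsScalarTower.algebraMap_apply]
  · rw [map_one, mul_one, AlgHom.commutes]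
    show coeffMap ι (algebraMap L (LaurentSeries L) c) = _
    rw [algebraMap_laurentSeries_eq_single, coeffMap_single,
      ← algebraMap_laurentSeries_eq_single]

/-- `j (d τ)` in the function field. -/
def jElt (L : Type*) [Field L] [Algebra ℚ L] {d : ℕ} [NeZero d] (hd : d ∣ N) :
    laurentBaseChange L (modularFunctionFieldFull N) :=
  ⟨coeffEmb L (qExpand ℚ d jq), coeffEmb_mem_laurentBaseChange L (jqd_mem_full N hd)⟩

theorem evMero_jElt {d : ℕ} [NeZero d] (hd : d ∣ N) :
    evMero N ι (jElt N L hd) = algebraMap Hol Mero (modHolToHol N (jAt N d hd)) := by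
  rw [evMero_eq_of_rep N ι (A := jAt N d hd) (B := 1) one_ne_zero]
  · rw [map_one, map_one, div_one]
  · rw [map_one, mul_one, qexp_jAt]
    show coeffMap ι (coeffEmb L (qExpand ℚ d jq)) = _
    rw [coeffEmb, coeffEmb, coeffMap_coeffMap]
    exact coeffMap_congr (Subsingleton.elim _ _) _

theorem meroSmul_evMero {γ : SL(2, ℤ)} (hγ : γ ∈ Gamma0 N)
    (x : laurentBaseChange L (modularFunctionFieldFull N)) :
    meroSmul (Matrix.SpecialLinearGroup.toGLPos
      (Matrix.SpecialLinearGroup.map (Int.castRingHom ℝ) γ)) (evMero N ι x) = evMero N ι x := by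
  obtain ⟨A, B, hB, h⟩ := exists_rep N ι x
  have hfix : ∀ F : ModHol N, holSmulEquiv (Matrix.SpecialLinearGroup.toGLPos
      (Matrix.SpecialLinearGroup.map (Int.castRingHom ℝ) γ)) (modHolToHol N F) =
      modHolToHol N F := fun F => by
    ext τ
    exact F.2.2.1 γ hγ τ
  rw [evMero_eq_of_rep N ι hB h, map_div₀, meroSmul_algebraMap, meroSmul_algebraMap, hfix, hfix]

/-! ### Membership -/

omit [Algebra ℚ L] in
/-- A functional `ℂ → L`, linear over `L`, taking the value `1` at a given nonzero number. -/
theorem exists_retraction {c : ℂ} (hc : c ≠ 0) :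
    ∃ π : ℂ →+ L, (∀ (a : L) (z : ℂ), π (ι a * z) = a * π z) ∧ π c = 1 := by
  letI := ι.toAlgebra
  have hinj : Function.Injective (LinearMap.toSpanSingleton L ℂ c) := smul_left_injective L hc
  obtain ⟨g, hg⟩ := LinearMap.exists_leftInverse_of_injective _ (LinearMap.ker_eq_bot.mpr hinj)
  refine ⟨g.toAddMonoidHom, fun a z => ?_, ?_⟩
  · show g (a • z) = _
    rw [map_smul]
    rfl
  · simpa using LinearMap.congr_fun hg 1

omit [Algebra ℚ L] in
/-- Coefficientwise retraction is linear over Laurent series with coefficients in `L`. -/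
theorem map_mul_coeffMap (π : ℂ →+ L) (hπ : ∀ (a : L) (z : ℂ), π (ι a * z) = a * π z)
    (x : LaurentSeries ℂ) (y : LaurentSeries L) :
    (x * coeffMap ι y).map π = x.map π * y := by
  ext k
  have hsub : (x.map π).support ⊆ x.support := fun i hi h0 => hi (by simp [h0])
  have hsub' : (coeffMap ι y).support ⊆ y.support := fun i hi h0 => hi (by simp [h0])
  rw [HahnSeries.map_coeff, HahnSeries.coeff_mul_right' y.isPWO_support hsub',
    HahnSeries.coeff_mul_left' x.isPWO_support hsub, map_sum]
  refine Finset.sum_congr rfl fun ij _ => ?_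
  rw [coeffMap_coeff, mul_comm, hπ, HahnSeries.map_coeff, mul_comm]

omit [Algebra ℚ L] in
theorem map_zero_series (π : ℂ →+ L) : (0 : LaurentSeries ℂ).map π = 0 := by
  ext k
  simp

omit [Algebra ℚ L] in
theorem map_add_series (π : ℂ →+ L) (x y : LaurentSeries ℂ) :
    (x + y).map π = x.map π + y.map π := by
  ext k
  simp

/-- `j` and `j (N τ)` as Laurent series over `L`. -/
def pairSeries (L : Type*) [Field L] [Algebra ℚ L] : Set (LaurentSeries L) :=
  {coeffEmb L jq, coeffEmb L (qExpand ℚ N jq)}

theorem coeffMap_coeffEmb_eq (w : LaurentSeries ℚ) :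
    coeffMap ι (coeffEmb L w) = coeffEmb ℂ w := by
  rw [coeffEmb, coeffEmb, coeffMap_coeffMap]
  exact coeffMap_congr (Subsingleton.elim _ _) w

theorem map_algebraMap_series (π : ℂ →+ L) (c : ℂ) :
    (algebraMap ℂ (LaurentSeries ℂ) c).map π = algebraMap L (LaurentSeries L) (π c) := by
  ext m
  rw [HahnSeries.map_coeff, algebraMap_laurentSeries_eq_single,
    algebraMap_laurentSeries_eq_single, HahnSeries.coeff_single, HahnSeries.coeff_single]
  split_ifs <;> simp

theorem map_qexp_evalJ_mem (π : ℂ →+ L) (hπ : ∀ (a : L) (z : ℂ), π (ι a * z) = a * π z)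
    (P : Polynomial (Polynomial ℂ)) :
    (qexp N (evalJ N (jAt N N dvd_rfl) P)).map π ∈
      Algebra.adjoin L (pairSeries N L) := by
  induction P using Polynomial.induction_on' with
  | add P Q hP hQ => rw [map_add, map_add, map_add_series]; exact add_mem hP hQ
  | monomial k p =>
    simp only [evalJ, Polynomial.coe_eval₂RingHom, Polynomial.eval₂_monomial, map_mul, map_pow]
    induction p using Polynomial.induction_on' with
    | add p q hp hq => rw [map_add, map_add, add_mul, map_add_series]; exact add_mem hp hq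
    | monomial i c =>
      simp only [AlgHom.toRingHom_eq_coe, RingHom.coe_coe, Polynomial.aeval_monomial, map_mul,
        map_pow, AlgHom.commutes, qexp_jMod, qexp_jAt, ← coeffMap_coeffEmb_eq ι]
      rw [mul_assoc, ← map_pow (coeffMap ι), ← map_pow (coeffMap ι), ← map_mul (coeffMap ι),
        map_mul_coeffMap ι π hπ]
      rw [map_algebraMap_series π c]
      have hj : coeffEmb L jq ∈ Algebra.adjoin L (pairSeries N L) :=
        Algebra.subset_adjoin (Or.inl rfl)
      have hjN : coeffEmb L (qExpand ℚ N jq) ∈ Algebra.adjoin L (pairSeries N L) :=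
        Algebra.subset_adjoin (Or.inr rfl)
      exact mul_mem (Subalgebra.algebraMap_mem _ _) (mul_mem (pow_mem hj i) (pow_mem hjN k))

/-- A series over `L` which is a modular function over `ℂ` lies in `L(j, j_N)`. -/
theorem mem_adjoin_pair_of_coeffMap_mem_fieldC {x : LaurentSeries L}
    (h : coeffMap ι x ∈ fieldC N) : x ∈ IntermediateField.adjoin L (pairSeries N L) := by
  obtain ⟨y, hy⟩ := fieldC_le_range N h
  obtain ⟨A, B, hB, rfl⟩ := IsFractionRing.div_surjective (A := ModHol N) y
  obtain ⟨D, hD, hQ⟩ := exists_mul_eq_evalJ N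
  obtain ⟨QA, -, hA⟩ := hQ A
  obtain ⟨QB, -, hB'⟩ := hQ B
  have hB0 : qexp N (evalJ N (jAt N N dvd_rfl) QB) ≠ 0 := by
    rw [← hB', map_mul]
    exact mul_ne_zero (fun h0 => nonZeroDivisors.ne_zero hB
      ((map_eq_zero_iff _ (qexp_injective N)).mp h0))
      fun h0 => hD ((map_eq_zero_iff _ (qexp_injective N)).mp h0)
  have heq : qexp N (evalJ N (jAt N N dvd_rfl) QB) * coeffMap ι x =
      qexp N (evalJ N (jAt N N dvd_rfl) QA) := by
    have hB1 : qexp N B ≠ 0 := fun h0 => nonZeroDivisors.ne_zero hB
      ((map_eq_zero_iff _ (qexp_injective N)).mp h0)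
    rw [← hy, qexpFrac_div, ← hA, ← hB', map_mul, map_mul]
    field_simp
  obtain ⟨k, hk⟩ : ∃ k, (qexp N (evalJ N (jAt N N dvd_rfl) QB)).coeff k ≠ 0 := by
    by_contra hc
    push Not at hc
    exact hB0 (HahnSeries.ext (funext fun k => by simpa using hc k))
  obtain ⟨π, hπ, hπ1⟩ := exists_retraction ι hk
  have hne : (qexp N (evalJ N (jAt N N dvd_rfl) QB)).map π ≠ 0 := fun h0 => by
    have := congrArg (fun z : LaurentSeries L => z.coeff k) h0
    simp only [HahnSeries.map_coeff, hπ1, HahnSeries.coeff_zero] at this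
    exact one_ne_zero this
  have h2 := congrArg (fun z : LaurentSeries ℂ => z.map π) heq
  simp only [map_mul_coeffMap ι π hπ] at h2
  rw [(eq_div_iff hne).mpr ((mul_comm _ _).trans h2)]
  exact div_mem (IntermediateField.algebra_adjoin_le_adjoin L _ (map_qexp_evalJ_mem N ι π hπ QA))
    (IntermediateField.algebra_adjoin_le_adjoin L _ (map_qexp_evalJ_mem N ι π hπ QB))

theorem adjoin_pair_le : IntermediateField.adjoin L (pairSeries N L) ≤
    laurentBaseChange L (modularFunctionFieldFull N) := by
  rw [IntermediateField.adjoin_le_iff]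
  rintro z (rfl | rfl)
  · have h := jqd_mem_full N (one_dvd N)
    rw [qExpand_one_apply] at h
    exact coeffEmb_mem_laurentBaseChange L h
  · exact coeffEmb_mem_laurentBaseChange L (jqd_mem_full N dvd_rfl)

theorem exists_qexp_eq_of_mem_adjoin {a : LaurentSeries L}
    (ha : a ∈ Algebra.adjoin L (pairSeries N L)) : ∃ A : ModHol N, coeffMap ι a = qexp N A := by
  induction ha using Algebra.adjoin_induction with
  | mem u hu =>
    rcases hu with rfl | rfl
    · exact ⟨jMod N, by rw [coeffMap_coeffEmb_eq ι, qexp_jMod]⟩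
    · exact ⟨jAt N N dvd_rfl, by rw [coeffMap_coeffEmb_eq ι, qexp_jAt]⟩
  | algebraMap c =>
    refine ⟨algebraMap ℂ (ModHol N) (ι c), ?_⟩
    rw [AlgHom.commutes, algebraMap_laurentSeries_eq_single, algebraMap_laurentSeries_eq_single,
      coeffMap_single]
  | add u v _ _ hu hv =>
    obtain ⟨A, hA⟩ := hu
    obtain ⟨B, hB⟩ := hv
    exact ⟨A + B, by rw [map_add, map_add, hA, hB]⟩
  | mul u v _ _ hu hv =>
    obtain ⟨A, hA⟩ := hu
    obtain ⟨B, hB⟩ := hv
    exact ⟨A * B, by rw [map_mul, map_mul, hA, hB]⟩

theorem qexp_aeval_jMod (p : Polynomial ℂ) :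
    qexp N (Polynomial.aeval (jMod N) p) = Polynomial.aeval (coeffEmb ℂ jq) p := by
  rw [← qexp_jMod N, ← Polynomial.aeval_algHom_apply]

theorem eval₂_jMod_ne_zero {p : Polynomial L} (hp : p ≠ 0) :
    Polynomial.eval₂ ((algebraMap ℂ (ModHol N)).comp ι) (jMod N) p ≠ 0 := by
  intro h0
  apply hp
  apply Polynomial.map_injective ι ι.injective
  rw [Polynomial.map_zero]
  apply Polynomial.funext
  intro z
  obtain ⟨τ, rfl⟩ := jInv_surjective z
  rw [← Polynomial.eval₂_map] at h0
  have h1 := congrArg (fun F : ModHol N => (F : ℍ → ℂ) τ) h0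
  rw [show Polynomial.eval₂ (algebraMap ℂ (ModHol N)) (jMod N) (p.map ι) =
    Polynomial.aeval (jMod N) (p.map ι) from rfl] at h1
  have h2 : (Polynomial.aeval (jMod N) (p.map ι) : ℍ → ℂ) τ = (p.map ι).eval (jInv τ) := by
    have := RingHom.congr_fun (show (modHolEval N τ).comp
        (Polynomial.aeval (jMod N) : Polynomial ℂ →ₐ[ℂ] ModHol N).toRingHom =
        Polynomial.evalRingHom (jInv τ) from
      Polynomial.ringHom_ext (fun c => by simp [modHolEval]) (by simp [modHolEval, jMod]))
      (p.map ι)
    exact this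
  simp only [h2] at h1
  simpa using h1

/-- A modular function all of whose coefficients lie in `L` is in the function field over `L`. -/
theorem mem_laurentBaseChange_of_rep {x : LaurentSeries L} {A B : ModHol N} (hB : B ≠ 0)
    (h : coeffMap ι x * qexp N B = qexp N A) :
    x ∈ laurentBaseChange L (modularFunctionFieldFull N) := by
  refine adjoin_pair_le N (mem_adjoin_pair_of_coeffMap_mem_fieldC N ι ?_)
  have hB' : qexp N B ≠ 0 := fun h0 => hB ((map_eq_zero_iff _ (qexp_injective N)).mp h0)
  rw [(eq_div_iff hB').mpr h]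
  exact div_mem (qexp_mem_fieldC N A) (qexp_mem_fieldC N B)

theorem mem_laurentBaseChange_iff_coeffMap_mem {x : LaurentSeries L} :
    x ∈ laurentBaseChange L (modularFunctionFieldFull N) ↔ coeffMap ι x ∈ fieldC N := by
  exact ⟨coeffMap_mem_fieldC N ι,
    fun h => adjoin_pair_le N (mem_adjoin_pair_of_coeffMap_mem_fieldC N ι h)⟩

/-- The denominator can be taken to be a polynomial in `j` with coefficients in `L`. -/
theorem exists_rep_aeval_jMod (x : laurentBaseChange L (modularFunctionFieldFull N)) :
    ∃ (A : ModHol N) (b : Polynomial L), b ≠ 0 ∧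
      coeffMap ι (x : LaurentSeries L) * qexp N (Polynomial.eval₂
          ((algebraMap ℂ (ModHol N)).comp ι) (jMod N) b) = qexp N A := by
  have hx : (x : LaurentSeries L) ∈ IntermediateField.adjoin L (pairSeries N L) :=
    mem_adjoin_pair_of_coeffMap_mem_fieldC N ι (coeffMap_mem_fieldC N ι x.2)
  rw [IntermediateField.mem_adjoin_iff_div] at hx
  obtain ⟨r, hr, s', hs', hxrs⟩ := hx
  obtain ⟨A, hA⟩ := exists_qexp_eq_of_mem_adjoin N ι hr
  rcases eq_or_ne s' 0 with rfl | hs0
  · refine ⟨0, 1, one_ne_zero, ?_⟩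
    rw [hxrs, div_zero, map_zero, zero_mul, map_zero]
  obtain ⟨B, hB⟩ := exists_qexp_eq_of_mem_adjoin N ι hs'
  obtain ⟨P, hPm, hPd, hP⟩ := exists_monic_aeval_eq_zero N B
  obtain ⟨π, hπ, hπ1⟩ := exists_retraction ι (c := 1) one_ne_zero
  have hπι : ∀ a, π (ι a) = a := fun a => by simpa [hπ1] using hπ a 1
  -- transport the equation to `L`
  let φ : Polynomial ℂ → Polynomial L := fun p =>
    ∑ i ∈ Finset.range (p.natDegree + 1), Polynomial.monomial i (π (p.coeff i))
  have hφc : ∀ p i, (φ p).coeff i = π (p.coeff i) := fun p i => by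
    simp only [φ, Polynomial.finsetSum_coeff, Polynomial.coeff_monomial, Finset.sum_ite_eq',
      Finset.mem_range]
    split_ifs with hi
    · rfl
    · rw [Polynomial.coeff_eq_zero_of_natDegree_lt (by omega), map_zero]
  have hφj : ∀ p : Polynomial ℂ, ∀ y : LaurentSeries L,
      (qexp N (Polynomial.aeval (jMod N) p) * coeffMap ι y).map π =
        Polynomial.aeval (coeffEmb L jq) (φ p) * y := by
    intro p y
    rw [map_mul_coeffMap ι π hπ]
    congr 1
    rw [qexp_aeval_jMod, Polynomial.aeval_eq_sum_range]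
    have hmap : ∀ (t : Finset ℕ) (f : ℕ → LaurentSeries ℂ),
        (∑ i ∈ t, f i).map π = ∑ i ∈ t, (f i).map π := fun t f => by
      induction t using Finset.cons_induction with
      | empty => simp [map_zero_series]
      | cons i t hi ih => rw [Finset.sum_cons, Finset.sum_cons, map_add_series, ih]
    rw [hmap]
    simp only [φ, map_sum, Polynomial.aeval_monomial]
    refine Finset.sum_congr rfl fun i _ => ?_
    rw [← coeffMap_coeffEmb_eq ι, ← map_pow, Algebra.smul_def, map_mul_coeffMap ι π hπ]
    congr 1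
    ext m
    rw [HahnSeries.map_coeff, algebraMap_laurentSeries_eq_single,
      algebraMap_laurentSeries_eq_single, HahnSeries.coeff_single, HahnSeries.coeff_single]
    split_ifs <;> simp
  let P' : Polynomial (Polynomial L) :=
    ∑ k ∈ Finset.range (P.natDegree + 1), Polynomial.monomial k (φ (P.coeff k))
  have hP'0 : P' ≠ 0 := by
    intro h0
    have := congrArg (fun q : Polynomial (Polynomial L) => (q.coeff P.natDegree).coeff 0) h0
    simp only [P', Polynomial.finsetSum_coeff, Polynomial.coeff_monomial, Finset.sum_ite_eq',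
      Finset.mem_range, Nat.lt_succ_self, if_true, hφc, hPm.coeff_natDegree,
      Polynomial.coeff_one_zero, Polynomial.coeff_zero, hπ1] at this
    exact one_ne_zero this
  have hP' : Polynomial.eval₂ (Polynomial.aeval (coeffEmb L jq)).toRingHom s' P' = 0 := by
    have h1 := congrArg (qexp N) hP
    rw [map_zero, evalJ, Polynomial.coe_eval₂RingHom, Polynomial.eval₂_eq_sum_range, map_sum]
      at h1
    have h2 := congrArg (fun z : LaurentSeries ℂ => z.map π) h1
    have hmap : ∀ (t : Finset ℕ) (f : ℕ → LaurentSeries ℂ),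
        (∑ i ∈ t, f i).map π = ∑ i ∈ t, (f i).map π := fun t f => by
      induction t using Finset.cons_induction with
      | empty => simp [map_zero_series]
      | cons i t hi ih => rw [Finset.sum_cons, Finset.sum_cons, map_add_series, ih]
    simp only [hmap, map_zero_series, map_mul, map_pow, ← hB, AlgHom.toRingHom_eq_coe,
      RingHom.coe_coe] at h2
    simp only [← map_pow, hφj] at h2
    rw [← h2]
    simp only [P', Polynomial.eval₂_finsetSum, Polynomial.eval₂_monomial, AlgHom.toRingHom_eq_coe,
      RingHom.coe_coe]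
  obtain ⟨q, hq⟩ : Polynomial.X ^ P'.natTrailingDegree ∣ P' :=
    Polynomial.X_pow_dvd_iff.mpr fun d hd => Polynomial.coeff_eq_zero_of_lt_natTrailingDegree hd
  have hq0 : q.coeff 0 ≠ 0 := by
    have h : P'.trailingCoeff ≠ 0 := Polynomial.trailingCoeff_nonzero_iff_nonzero.mpr hP'0
    rw [Polynomial.trailingCoeff] at h
    conv at h => enter [1, 1]; rw [hq]
    rwa [Polynomial.coeff_X_pow_mul', if_pos le_rfl, Nat.sub_self] at h
  have hqs : Polynomial.eval₂ (Polynomial.aeval (coeffEmb L jq)).toRingHom s' q = 0 := by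
    rw [hq, Polynomial.eval₂_mul, Polynomial.eval₂_X_pow] at hP'
    exact (mul_eq_zero.mp hP').resolve_left (pow_ne_zero _ hs0)
  rw [← Polynomial.X_mul_divX_add q, Polynomial.eval₂_add, Polynomial.eval₂_mul,
    Polynomial.eval₂_X, Polynomial.eval₂_C] at hqs
  set v := Polynomial.eval₂ (Polynomial.aeval (coeffEmb L jq)).toRingHom s' q.divX
  have hv : v ∈ Algebra.adjoin L (pairSeries N L) := by
    simp only [v, Polynomial.eval₂_eq_sum_range]
    refine Subalgebra.sum_mem _ fun k _ => mul_mem ?_ (pow_mem hs' k)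
    exact Algebra.adjoin_mono (Set.singleton_subset_iff.mpr (Set.mem_insert _ _))
      (Polynomial.aeval_mem_adjoin_singleton L _)
  obtain ⟨V, hV⟩ := exists_qexp_eq_of_mem_adjoin N ι hv
  refine ⟨-(A * V), q.coeff 0, hq0, ?_⟩
  have hb : qexp N (Polynomial.eval₂ ((algebraMap ℂ (ModHol N)).comp ι) (jMod N) (q.coeff 0)) =
      coeffMap ι (Polynomial.aeval (coeffEmb L jq) (q.coeff 0)) := by
    rw [Polynomial.aeval_def, Polynomial.hom_eval₂, ← Polynomial.eval₂_map]
    show qexp N (Polynomial.aeval (jMod N) ((q.coeff 0).map ι)) = _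
    rw [qexp_aeval_jMod, Polynomial.aeval_def, Polynomial.eval₂_map, coeffMap_coeffEmb_eq]
    congr 1
    ext c : 1
    simp only [RingHom.comp_apply, algebraMap_laurentSeries_eq_single, coeffMap_single]
  have hqs' : Polynomial.aeval (coeffEmb L jq) (q.coeff 0) = -(s' * v) := by
    rw [eq_neg_iff_add_eq_zero, add_comm]
    exact hqs
  rw [hb, hqs', map_neg (qexp N), map_mul (qexp N), ← hA, ← hV, ← map_mul (coeffMap ι),
    ← map_mul (coeffMap ι), ← map_neg (coeffMap ι), hxrs]
  congr 1
  field_simp

end FLTA.Bridge
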