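import Fermat.Agent.Bridge.Field
import Mathlib.Analysis.Polynomial.CauchyBound

/-!
# Functions of the function field without poles on `ℍ`
-/

set_option autoImplicit false

noncomputable section

open scoped Manifold MatrixGroups Topology
open UpperHalfPlane hiding I
open Complex Filter CongruenceSubgroup ModularCurve

namespace FLTA.Bridge

/-- A nonzero polynomial in `j` is eventually bounded below at `i∞`. -/
theorem eventually_norm_eval_jInv_ge {P : Polynomial ℂ} (hP : P ≠ 0) :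
    ∃ c : ℝ, 0 < c ∧ ∀ᶠ τ in atImInfty, c ≤ ‖P.eval (jInv τ)‖ := by
  rcases Nat.eq_zero_or_pos P.natDegree with h0 | hpos
  · refine ⟨‖P.coeff 0‖, ?_, Eventually.of_forall fun τ => ?_⟩
    · rw [Polynomial.eq_C_of_natDegree_eq_zero h0] at hP
      simpa using hP
    · rw [Polynomial.eq_C_of_natDegree_eq_zero h0]
      simp
  · refine ⟨1, one_pos, ?_⟩
    have hdeg : 0 < P.degree := Polynomial.natDegree_pos_iff_degree_pos.mp hpos
    have := P.tendsto_norm_atTop hdeg tendsto_norm_jInv_atImInfty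
    exact this.eventually_ge_atTop 1

/-- Dividing a modular function by a polynomial in `j` which divides it pointwise. -/
theorem exists_modHol_mul_eval_jInv_eq {N : ℕ} {A : ℍ → ℂ} (hA : A ∈ ModHol N) {P : Polynomial ℂ}
    (hP : P ≠ 0) (h : A = 0 ∨ ∀ τ, ordAt τ (fun z => P.eval (jInv z)) ≤ ordAt τ A) :
    ∃ Q ∈ ModHol N, (Q * fun z => P.eval (jInv z)) = A := by
  have hb : (fun z => P.eval (jInv z)) ∈ Hol := by
    rw [mem_hol_iff_differentiableOn]
    exact P.differentiable.comp_differentiableOn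
      (mem_hol_iff_differentiableOn.mp mdifferentiable_jInv)
  have hb0 : (fun z => P.eval (jInv z)) ≠ 0 := fun h0 => hP (Polynomial.funext fun z => by
    obtain ⟨τ, rfl⟩ := jInv_surjective z
    simpa using congrFun h0 τ)
  obtain ⟨Q, hQ, hQA⟩ := exists_mul_eq_of_ordAt_le hA.1 hb hb0 h
  refine ⟨Q, ⟨hQ, fun γ hγ τ => ?_, fun g => ?_⟩, hQA⟩
  · have hz : (⟨_, smul_mem_hol hQ γ⟩ - ⟨Q, hQ⟩ : Hol) * ⟨_, hb⟩ = 0 := by
      refine Subtype.ext (funext fun z => ?_)
      show (Q (γ • z) - Q z) * P.eval (jInv z) = 0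
      have h1 := congrFun hQA (γ • z)
      simp only [Pi.mul_apply, jInv_smul, hA.2.1 γ hγ z] at h1
      rw [sub_mul, h1, ← Pi.mul_apply Q (fun z => P.eval (jInv z)) z, congrFun hQA z, sub_self]
    have h2 := (mul_eq_zero.mp hz).resolve_right fun h0 => hb0 (congrArg Subtype.val h0)
    exact sub_eq_zero.mp (congrFun (congrArg (fun K : Hol => (K : ℍ → ℂ)) h2) τ)
  · obtain ⟨n, hn⟩ := hA.2.2 g
    obtain ⟨c, hc, hev⟩ := eventually_norm_eval_jInv_ge hP
    refine ⟨n, ?_⟩
    rw [IsBoundedAtImInfty, Filter.BoundedAtFilter, Asymptotics.isBigO_iff] at hn ⊢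
    obtain ⟨M, hM⟩ := hn
    refine ⟨M / c, ?_⟩
    filter_upwards [hM, hev] with τ hτ hτc
    have h1 := congrFun hQA (g • τ)
    simp only [Pi.mul_apply, jInv_smul] at h1
    simp only [← h1, Pi.one_apply, norm_one, mul_one, norm_mul] at hτ ⊢
    rw [le_div_iff₀ hc]
    calc _ ≤ ‖Function.Periodic.qParam 1 (τ : ℂ) ^ n‖ * ‖Q (g • τ)‖ * ‖P.eval (jInv τ)‖ :=
          mul_le_mul_of_nonneg_left hτc (by positivity)
      _ ≤ M := by linarith

variable (N : ℕ) [NeZero N] {L : Type*} [Field L] [Algebra ℚ L] (ι : L →+* ℂ)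

/-- A function with no pole on `ℍ` is given by a holomorphic modular function. -/
theorem exists_qexp_eq_of_ordF_nonneg {x : laurentBaseChange L (modularFunctionFieldFull N)}
    (hx : ∀ τ, 0 ≤ ordF N ι τ x) :
    ∃ A : ModHol N, coeffMap ι (x : LaurentSeries L) = qexp N A := by
  rcases eq_or_ne x 0 with rfl | hx0
  · exact ⟨0, by simp⟩
  obtain ⟨A, b, hb, h⟩ := exists_rep_aeval_jMod N ι x
  set B : ModHol N := Polynomial.eval₂ ((algebraMap ℂ (ModHol N)).comp ι) (jMod N) b
  have hB : B ≠ 0 := eval₂_jMod_ne_zero N ι hb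
  have hBP : (B : ℍ → ℂ) = fun z => (b.map ι).eval (jInv z) := by
    funext z
    show (modHolEval N z) B = _
    rw [Polynomial.hom_eval₂, Polynomial.eval_map]
    rfl
  have hA : A ≠ 0 := by
    rintro rfl
    rw [map_zero] at h
    rcases mul_eq_zero.mp h with h' | h'
    · exact hx0 (Subtype.ext ((map_eq_zero_iff _ (fun a c hac => HahnSeries.ext (funext fun k =>
        ι.injective (congrArg (fun z : LaurentSeries ℂ => z.coeff k) hac)))).mp h'))
    · exact hB ((map_eq_zero_iff _ (qexp_injective N)).mp h')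
  have hne : modHolToHol N A ≠ 0 := fun h0 => hA (modHolToHol_injective N (by rw [h0, map_zero]))
  have hne' : modHolToHol N B ≠ 0 := fun h0 => hB (modHolToHol_injective N (by rw [h0, map_zero]))
  obtain ⟨Q, hQ, hQA⟩ := exists_modHol_mul_eval_jInv_eq A.2 (P := b.map ι)
    ((Polynomial.map_ne_zero_iff ι.injective).mpr hb) (Or.inr fun τ => by
      have h2 := hx τ
      rw [ordF, evMero_eq_of_rep N ι hB h, meroOrd_div τ hne hne'] at h2
      rw [← hBP]
      change 0 ≤ (ordAt τ (A : ℍ → ℂ) : ℤ) - (ordAt τ (B : ℍ → ℂ) : ℤ) at h2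
      omega)
  refine ⟨⟨Q, hQ⟩, mul_right_cancel₀ (b := qexp N B)
    (fun h' => hB ((map_eq_zero_iff _ (qexp_injective N)).mp h')) ?_⟩
  rw [h, ← map_mul]
  refine congrArg (qexp N) (Subtype.ext ?_)
  show (A : ℍ → ℂ) = Q * (B : ℍ → ℂ)
  rw [hBP, hQA]

end FLTA.Bridge
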