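import Fermat.Agent.Bridge.PlacesFinite
import Fermat.Agent.GenusKahler.Embeddings
import Mathlib.Dynamics.PeriodicPts.Lemmas
import Mathlib.GroupTheory.GroupAction.Quotient

/-!
# The places of the function field of `X₀(N)` at the cusps
-/

set_option autoImplicit false
set_option linter.style.haveILetI false
set_option maxHeartbeats 400000

noncomputable section

open scoped Manifold MatrixGroups Topology
open UpperHalfPlane hiding I
open Complex Filter CongruenceSubgroup ModularCurve AlgebraicCurve IntermediateField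

namespace FLTA.Bridge

variable (N : ℕ) [NeZero N] {L : Type*} [Field L] [Algebra ℚ L] (ι : L →+* ℂ)

local notation "FN" => laurentBaseChange L (modularFunctionFieldFull N)

theorem isOrdFn_laurentOrder : IsOrdFn (HahnSeries.order : LaurentSeries ℂ → ℤ) :=
  ⟨HahnSeries.order_zero, fun _ _ hx hy => HahnSeries.order_mul hx hy,
    fun _ _ _ _ h => HahnSeries.min_order_le_order_add h⟩

theorem isOrdFn_ordCusp (g : SL(2, ℤ)) : IsOrdFn (ordCusp N ι g : FN → ℤ) := by
  set σ : FN →+* LaurentSeries ℂ := (qexpFracAt N g).comp (evFrac N ι)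
  have e : ∀ x : FN, ordCusp N ι g x = (σ x).order := fun _ => rfl
  have h := isOrdFn_laurentOrder
  refine ⟨?_, fun x y hx hy => ?_, fun x y hx hy hxy => ?_⟩
  · rw [e, map_zero, h.map_zero]
  · rw [e, e, e, map_mul]
    exact h.map_mul _ _ ((map_ne_zero σ).mpr hx) ((map_ne_zero σ).mpr hy)
  · rw [e, e, e, map_add]
    exact h.map_add _ _ ((map_ne_zero σ).mpr hx) ((map_ne_zero σ).mpr hy)
      (by rw [← map_add]; exact (map_ne_zero σ).mpr hxy)

theorem ordCusp_mul_left {γ : SL(2, ℤ)} (hγ : γ ∈ Gamma0 N) (g : SL(2, ℤ)) (x : FN) :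
    ordCusp N ι (γ * g) x = ordCusp N ι g x := by
  have h : qexpFracAt N (γ * g) = qexpFracAt N g := by
    refine IsLocalization.ringHom_ext (nonZeroDivisors (ModHol N)) (RingHom.ext fun A => ?_)
    simp only [RingHom.comp_apply, GenusKahler.qexpFracAt_algebraMap]
    have e : modHolToHolInfty N (γ * g) A = modHolToHolInfty N g A := by
      refine Subtype.ext (funext fun τ => ?_)
      show (A : ℍ → ℂ) ((γ * g) • τ) = (A : ℍ → ℂ) (g • τ)
      rw [mul_smul, A.2.2.1 γ hγ]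
    simp only [qexpAt, AlgHom.comp_apply]
    rw [e]
  rw [ordCusp, h]
  rfl

theorem exists_repr_mk (g : SL(2, ℤ)) :
    ∃ γ ∈ Gamma0 N,
      GenusKahler.repr N (QuotientGroup.mk g⁻¹ : SL(2, ℤ) ⧸ Gamma0 N) = γ * g := by
  obtain ⟨k, hk⟩ := QuotientGroup.mk_out_eq_mul (Gamma0 N) g⁻¹
  exact ⟨(k : SL(2, ℤ))⁻¹, inv_mem k.2, by rw [GenusKahler.repr, hk, mul_inv_rev, inv_inv]⟩

theorem ordCusp_repr_mk (g : SL(2, ℤ)) (x : FN) :
    ordCusp N ι (GenusKahler.repr N (QuotientGroup.mk g⁻¹ : SL(2, ℤ) ⧸ Gamma0 N)) x =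
      ordCusp N ι g x := by
  obtain ⟨γ, hγ, h⟩ := exists_repr_mk N g
  rw [h, ordCusp_mul_left N ι hγ]

theorem ordCusp_T_zpow_smul (k : ℤ) :
    ∀ (c : SL(2, ℤ) ⧸ Gamma0 N) (x : FN),
      ordCusp N ι (GenusKahler.repr N (ModularGroup.T ^ k • c)) x =
        ordCusp N ι (GenusKahler.repr N c) x := by
  induction k using Int.induction_on with
  | zero => simp
  | succ k ih =>
    intro c x
    rw [add_comm, zpow_add, zpow_one, mul_smul]
    exact (GenusKahler.order_atCusp_T_smul N ι _ x).trans (ih c x)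
  | pred k ih =>
    intro c x
    have h := GenusKahler.order_atCusp_T_smul N ι (ModularGroup.T ^ (-(k : ℤ) - 1) • c) x
    have e : ModularGroup.T • ModularGroup.T ^ (-(k : ℤ) - 1) • c
        = ModularGroup.T ^ (-(k : ℤ)) • c := by
      rw [← mul_smul, mul_self_zpow, sub_add_cancel]
    rw [e] at h
    exact h.symm.trans (ih c x)

theorem T_zpow_smul_mk_eq_iff (g : SL(2, ℤ)) (k : ℤ) :
    ModularGroup.T ^ k • (QuotientGroup.mk g⁻¹ : SL(2, ℤ) ⧸ Gamma0 N) = QuotientGroup.mk g⁻¹ ↔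
      (N : ℤ) ∣ k * (g.1 1 0) ^ 2 := by
  have h : ModularGroup.T ^ k • (QuotientGroup.mk g⁻¹ : SL(2, ℤ) ⧸ Gamma0 N) =
      QuotientGroup.mk (ModularGroup.T ^ k * g⁻¹) := rfl
  rw [h, QuotientGroup.eq, ← inv_mem_iff, Gamma0_mem,
    ZMod.intCast_zmod_eq_zero_iff_dvd]
  have e : ((ModularGroup.T ^ k * g⁻¹)⁻¹ * g⁻¹)⁻¹.1 1 0 = -(k * (g.1 1 0) ^ 2) := by
    rw [mul_inv_rev, inv_inv, inv_inv]
    simp [ModularGroup.coe_T_zpow, Matrix.mul_apply, Fin.sum_univ_two,
      Matrix.adjugate_fin_two]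
    ring
  rw [e, dvd_neg]

theorem cuspWidth_pos (g : SL(2, ℤ)) : 0 < cuspWidth N g := by
  rcases Nat.eq_zero_or_pos (cuspWidth N g) with h | h
  · have := cuspDiv_mul_cuspWidth N g
    rw [h, mul_zero] at this
    exact absurd this.symm (NeZero.ne N)
  · exact h

theorem minimalPeriod_T_mk (g : SL(2, ℤ)) :
    Function.minimalPeriod (ModularGroup.T • ·)
      (QuotientGroup.mk g⁻¹ : SL(2, ℤ) ⧸ Gamma0 N) = cuspWidth N g := by
  have key : ∀ k : ℕ, ModularGroup.T ^ k • (QuotientGroup.mk g⁻¹ : SL(2, ℤ) ⧸ Gamma0 N)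
      = QuotientGroup.mk g⁻¹ ↔ cuspWidth N g ∣ k := by
    intro k
    rw [← zpow_natCast, T_zpow_smul_mk_eq_iff, ← Int.natAbs_dvd_natAbs, Int.natAbs_mul,
      Int.natAbs_pow, Int.natAbs_natCast, Int.natAbs_natCast]
    have hd : 0 < Nat.gcd ((g.1 1 0).natAbs ^ 2) N :=
      Nat.gcd_pos_of_pos_right _ (Nat.pos_of_ne_zero (NeZero.ne N))
    obtain ⟨a, b, hab, ha, hb⟩ := Nat.exists_coprime ((g.1 1 0).natAbs ^ 2) N
    have hw : cuspWidth N g = b := by
      refine Nat.eq_of_mul_eq_mul_left hd ?_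
      have h := cuspDiv_mul_cuspWidth N g
      rw [cuspDiv] at h
      rw [h, mul_comm]
      exact hb
    rw [hw]
    conv_lhs => lhs; rw [hb]
    conv_lhs => rhs; rw [ha, ← mul_assoc]
    rw [Nat.mul_dvd_mul_iff_right hd, hab.symm.dvd_mul_right]
  refine Nat.dvd_antisymm ?_ ?_
  · exact MulAction.pow_smul_eq_iff_minimalPeriod_dvd.mp ((key _).mpr dvd_rfl)
  · exact (key _).mp (MulAction.pow_smul_eq_iff_minimalPeriod_dvd.mpr dvd_rfl)

theorem cuspDiv_eq_of_mk_eq {g h : SL(2, ℤ)}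
    (e : (QuotientGroup.mk g⁻¹ : SL(2, ℤ) ⧸ Gamma0 N) = QuotientGroup.mk h⁻¹) :
    cuspDiv N g = cuspDiv N h := by
  have hw : cuspWidth N g = cuspWidth N h := by
    rw [← minimalPeriod_T_mk, ← minimalPeriod_T_mk, e]
  refine Nat.eq_of_mul_eq_mul_right (cuspWidth_pos N g) ?_
  rw [cuspDiv_mul_cuspWidth, hw, cuspDiv_mul_cuspWidth]

theorem mk_inv_repr (c : SL(2, ℤ) ⧸ Gamma0 N) :
    (QuotientGroup.mk (GenusKahler.repr N c)⁻¹ : SL(2, ℤ) ⧸ Gamma0 N) = c := by
  rw [GenusKahler.repr, inv_inv]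
  exact QuotientGroup.out_eq' c

theorem cuspDiv_repr_mk (g : SL(2, ℤ)) :
    cuspDiv N (GenusKahler.repr N (QuotientGroup.mk g⁻¹ : SL(2, ℤ) ⧸ Gamma0 N)) = cuspDiv N g :=
  cuspDiv_eq_of_mk_eq N (mk_inv_repr N _)

theorem cuspDiv_dvd_ordCusp (g : SL(2, ℤ)) (x : FN) :
    (cuspDiv N g : ℤ) ∣ ordCusp N ι g x := by
  rcases eq_or_ne x 0 with rfl | hx
  · rw [(isOrdFn_ordCusp N ι g).map_zero]
    exact dvd_zero _
  obtain ⟨A, B, hA, hB, h⟩ := GenusKahler.exists_evFrac_eq N ι x hx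
  have hA' : qexpAt N g A ≠ 0 := fun h0 => hA (qexpAt_injective N g (by rw [h0, map_zero]))
  have hB' : qexpAt N g B ≠ 0 := fun h0 => hB (qexpAt_injective N g (by rw [h0, map_zero]))
  show (cuspDiv N g : ℤ) ∣ (qexpFracAt N g (evFrac N ι x)).order
  rw [h, map_div₀, GenusKahler.qexpFracAt_algebraMap, GenusKahler.qexpFracAt_algebraMap,
    div_eq_mul_inv, HahnSeries.order_mul hA' (inv_ne_zero hB'),
    isOrdFn_laurentOrder.map_inv, ← sub_eq_add_neg]
  exact dvd_sub (cuspDiv_dvd_order_qexpAt N g A) (cuspDiv_dvd_order_qexpAt N g B)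

theorem ordCusp_jF (g : SL(2, ℤ)) : ordCusp N ι g (jF N L) = -(N : ℤ) := by
  show (qexpFracAt N g (evFrac N ι (jF N L))).order = _
  rw [jF, GenusKahler.evFrac_jElt, GenusKahler.qexpFracAt_algebraMap, GenusKahler.jAt_one_eq,
    order_qexpAt_jMod]

theorem ordCusp_algebraMap (g : SL(2, ℤ)) (a : L) :
    ordCusp N ι g (algebraMap L FN a) = 0 := by
  show (qexpFracAt N g (evFrac N ι _)).order = 0
  rw [GenusKahler.evFrac_algebraMap, GenusKahler.qexpFracAt_algebraMap, AlgHom.commutes,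
    algebraMap_laurentSeries_eq_single]
  rcases eq_or_ne (ι a) 0 with h | h
  · simp [h]
  · exact HahnSeries.order_single h

theorem qexpAt_jMod_congr (g h : SL(2, ℤ)) : qexpAt N g (jMod N) = qexpAt N h (jMod N) := by
  have e : modHolToHolInfty N g (jMod N) = modHolToHolInfty N h (jMod N) :=
    Subtype.ext (funext fun τ => (jInv_smul g τ).trans (jInv_smul h τ).symm)
  simp only [qexpAt, AlgHom.comp_apply]
  rw [e]

theorem atCusp_congr {c c' : SL(2, ℤ) ⧸ Gamma0 N} (x : FN) (hx : x ∈ L⟮jF N L⟯) :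
    GenusKahler.atCusp N ι c x = GenusKahler.atCusp N ι c' x := by
  induction hx using IntermediateField.adjoin_induction with
  | mem y hy =>
    rw [Set.mem_singleton_iff] at hy
    rw [hy, GenusKahler.atCusp_jF, GenusKahler.atCusp_jF, qexpAt_jMod_congr]
  | algebraMap a => rw [GenusKahler.atCusp_algebraMap, GenusKahler.atCusp_algebraMap]
  | add x y _ _ hx hy => rw [map_add, map_add, hx, hy]
  | inv x _ hx => rw [map_inv₀, map_inv₀, hx]
  | mul x y _ _ hx hy => rw [map_mul, map_mul, hx, hy]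

variable [IsAlgClosed L]

/-- The poles of `j` are the cusps. -/
theorem exists_places_cusps :
    ∃ v : SL(2, ℤ) ⧸ Gamma0 N → Place L FN,
      (∀ c x, ordCusp N ι (GenusKahler.repr N c) x =
        cuspDiv N (GenusKahler.repr N c) * (v c).ord x) ∧
      (∀ c c', v c = v c' → ∃ k : ℤ, ModularGroup.T ^ k • c = c') ∧
      ∀ u : Place L FN, u.ord (jF N L) < 0 → ∃ c, v c = u := by
  classical
  haveI : CharZero L := charZero_of_injective_algebraMap (algebraMap ℚ L).injective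
  haveI : CharZero FN := charZero_of_injective_algebraMap (algebraMap L FN).injective
  haveI : (Gamma0 N).FiniteIndex := ⟨by
    rw [index_Gamma0_eq_dedekindPsi N]
    have h := finrank_adjoin_jF N L ι
    haveI := finite_adjoin_jF N L ι
    rw [← h]
    exact Module.finrank_pos.ne'⟩
  haveI : Fintype (SL(2, ℤ) ⧸ Gamma0 N) := Subgroup.fintypeQuotientOfFiniteIndex
  have ht : Transcendental L (jF N L)⁻¹ := fun h => transcendental_jF N L (by simpa using h.inv)
  have hadj : L⟮(jF N L)⁻¹⟯ = L⟮jF N L⟯ := by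
    apply le_antisymm <;> rw [adjoin_simple_le_iff]
    · exact inv_mem (mem_adjoin_simple_self L _)
    · simpa using inv_mem (mem_adjoin_simple_self L (jF N L)⁻¹)
  refine Exists.elim (exists_places_of_orbits isOrdFn_laurentOrder
    (fun c : SL(2, ℤ) ⧸ Gamma0 N => GenusKahler.atCusp N ι c) (GenusKahler.atCusp_injective N ι)
    ht ?_ ?_ (fun c a => ordCusp_algebraMap N ι _ a) (Nat.pos_of_ne_zero (NeZero.ne N)) ?_
    (fun c => cuspDiv N (GenusKahler.repr N c)) (fun c x => cuspDiv_dvd_ordCusp N ι _ x)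
    (fun c c' => c' ∈ MulAction.orbit (Subgroup.zpowers (ModularGroup.T : SL(2, ℤ))) c) ?_ ?_)
    fun v hv => ⟨v, fun c x => hv.1 c x, fun c c' h => ?_, fun u hu => hv.2.2.2 u ?_⟩
  · rw [← Nat.card_eq_fintype_card, ← Subgroup.index, index_Gamma0_eq_dedekindPsi, hadj,
      finrank_adjoin_jF N L ι]
  · intro c c' x
    exact atCusp_congr N ι (x : FN) (hadj ▸ x.2)
  · intro c
    show ordCusp N ι (GenusKahler.repr N c) (jF N L)⁻¹ = N
    rw [(isOrdFn_ordCusp N ι _).map_inv, ordCusp_jF, neg_neg]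
  · rintro c c' ⟨⟨_, k, rfl⟩, rfl⟩ x
    exact (ordCusp_T_zpow_smul N ι k c x).symm
  · intro c
    rw [show Nat.card {c' // c' ∈ MulAction.orbit (Subgroup.zpowers (ModularGroup.T : SL(2, ℤ))) c} =
        Function.minimalPeriod (ModularGroup.T • ·) c from
      (Nat.card_congr (MulAction.orbitZPowersEquiv _ c)).trans (Nat.card_zmod _)]
    conv_lhs => lhs; rw [← mk_inv_repr N c]
    rw [minimalPeriod_T_mk, mul_comm, cuspDiv_mul_cuspWidth]
  · obtain ⟨⟨_, k, rfl⟩, hk⟩ := hv.2.2.1 c c' h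
    exact ⟨k, hk⟩
  · rw [u.ord_inv]
    omega

end FLTA.Bridge

end
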