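import Fermat.Agent.Bridge.PlacesFinite
import Fermat.Agent.Bridge.PlacesCusp
import Fermat.Agent.Bridge.HolCriterion
import Fermat.Agent.Kummer.ConjHol

/-!
# Places of the function field of `X₀(N)` and points of `Γ₀(N) \ ℍ*`
-/

set_option autoImplicit false
set_option linter.style.haveILetI false
set_option synthInstance.maxHeartbeats 100000

noncomputable section

open scoped Manifold MatrixGroups Topology
open UpperHalfPlane hiding I
open Complex Filter CongruenceSubgroup ModularCurve AlgebraicCurve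

namespace FLTA.Bridge

theorem place_eq_of_mul_ord_eq {K F : Type*} [Field K] [Field F] [Algebra K F] {v w : Place K F}
    {d e : ℕ} (he : 0 < e) (h : ∀ x, (d : ℤ) * v.ord x = e * w.ord x) : v = w := by
  refine FLTA.Curves.place_eq_of_le fun x hx => ?_
  by_contra hcon
  have h1 := FLTA.Curves.ord_nonneg_of_mem _ hx
  have h2 := (FLTA.Curves.not_mem_iff_ord_neg _ x).mp hcon
  have h3 : (0 : ℤ) ≤ (d : ℤ) * v.ord x := mul_nonneg (Int.natCast_nonneg _) h1
  have h4 := h x
  have he' : (0 : ℤ) < e := by exact_mod_cast he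
  nlinarith

theorem cuspDiv_pos (N : ℕ) [NeZero N] (g : SL(2, ℤ)) : 0 < cuspDiv N g :=
  Nat.gcd_pos_of_pos_right _ (Nat.pos_of_ne_zero (NeZero.ne N))

/-- A point is defined over `L` when its `j`-invariant is. -/
def IsPointOver {L : Type*} [Field L] (ι : L →+* ℂ) (τ : ℍ) : Prop := jInv τ ∈ Set.range ι

theorem isPointOver_complexEmbedding_iff (τ : ℍ) :
    IsPointOver complexEmbedding.toRingHom τ ↔ IsAlgebraic ℚ (jInv τ) := by
  constructor
  · rintro ⟨a, ha⟩
    rw [← ha]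
    haveI : Algebra.IsAlgebraic ℚ (AlgebraicClosure ℚ) := AlgebraicClosure.isAlgebraic ℚ
    exact (Algebra.IsAlgebraic.isAlgebraic (R := ℚ) a).algHom complexEmbedding
  · intro h
    set p := minpoly ℚ (jInv τ)
    have hm : (p.map (algebraMap ℚ (AlgebraicClosure ℚ))).Monic :=
      (minpoly.monic h.isIntegral).map _
    have hz := minpoly.aeval ℚ (jInv τ)
    rw [Polynomial.aeval_def, ← Polynomial.eval_map,
      ← complexEmbedding.comp_algebraMap, ← Polynomial.map_map,
      (IsAlgClosed.splits _).eq_prod_roots_of_monic hm, Polynomial.map_multiset_prod,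
      Polynomial.eval_multiset_prod, Multiset.prod_eq_zero_iff] at hz
    simp only [Multiset.map_map, Multiset.mem_map, Function.comp_apply, Polynomial.map_sub,
      Polynomial.map_X, Polynomial.map_C, Polynomial.eval_sub, Polynomial.eval_X,
      Polynomial.eval_C] at hz
    obtain ⟨r, -, hr⟩ := hz
    exact ⟨r, (sub_eq_zero.mp hr).symm⟩

theorem isPointOver_smul {L : Type*} [Field L] (ι : L →+* ℂ) (g : SL(2, ℤ)) (τ : ℍ) :
    IsPointOver ι (g • τ) ↔ IsPointOver ι τ := by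
  rw [IsPointOver, IsPointOver, jInv_smul]

variable (N : ℕ) [NeZero N] {L : Type*} [Field L] [Algebra ℚ L] [IsAlgClosed L] (ι : L →+* ℂ)

local notation "FN" => laurentBaseChange L (modularFunctionFieldFull N)

omit [IsAlgClosed L] in
theorem jInv_eq_of_ordF_pos {τ : ℍ} {a : L}
    (h : 0 < ordF N ι τ (jF N L - algebraMap L FN a)) : jInv τ = ι a := by
  change 0 < meroOrd τ (evMero N ι (jF N L - algebraMap L FN a)) at h
  rw [map_sub, evMero_jF, evMero_algebraMap, IsScalarTower.algebraMap_apply ℂ Hol Mero,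
    ← map_sub, meroOrd_algebraMap_hol] at h
  by_contra hne
  set F : Hol := modHolToHol N (jMod N) - algebraMap ℂ Hol (ι a)
  have hv : (F : ℍ → ℂ) τ ≠ 0 := sub_ne_zero.mpr hne
  have := (ordAt_eq_zero_iff F.2 (fun h0 => hv (congrFun h0 τ)) τ).mpr hv
  omega

theorem ordF_eq_zero_of_not_isPointOver {τ : ℍ} (hτ : ¬ IsPointOver ι τ) (x : FN) :
    ordF N ι τ x = 0 := by
  haveI : CharZero L := charZero_of_injective_algebraMap (algebraMap ℚ L).injective
  have key : meroOrd τ (evMero N ι x) = 0 := by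
    by_contra hx
    obtain ⟨v, d, hd, hv⟩ := exists_place_of_embedding (isOrdFn_meroOrd τ) (evMero N ι)
      (fun c => ordF_algebraMap N ι τ c) hx
    -- the place has no zero or pole on polynomials in `j`
    have hj : ∀ a : L, v.ord (jF N L - algebraMap L FN a) ≤ 0 := by
      intro a
      by_contra hpos
      refine hτ ⟨a, (jInv_eq_of_ordF_pos N ι ?_).symm⟩
      show 0 < meroOrd τ (evMero N ι _)
      rw [hv]
      exact mul_pos (by exact_mod_cast hd) (not_le.mp hpos)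
    have hj0 : 0 ≤ v.ord (jF N L) := by
      have h1 : 0 ≤ meroOrd τ (evMero N ι (jF N L)) := by
        rw [evMero_jF, meroOrd_algebraMap_hol]
        positivity
      rw [hv] at h1
      exact nonneg_of_mul_nonneg_right h1 (by exact_mod_cast hd)
    obtain ⟨a, ha⟩ : ∃ a : L, 0 < v.ord (jF N L - algebraMap L FN a) := by
      haveI := FLTA.Curves.finite_residueField_of_isSepFunctionField (K := L) v
      have hb := IsAlgClosed.algebraMap_bijective_of_isIntegral (k := L) (K := v.ResidueField)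
      have hmem : jF N L ∈ v.toValuationSubring := by
        by_contra hm
        have := (FLTA.Curves.not_mem_iff_ord_neg v _).mp hm
        omega
      obtain ⟨a, ha⟩ := hb.2 (FLTA.Curves.residueMap v ⟨jF N L, hmem⟩)
      refine ⟨a, ?_⟩
      have h0 : FLTA.Curves.residueMap v (⟨jF N L, hmem⟩ - algebraMap L v.toValuationSubring a) = 0 := by
        rw [map_sub, sub_eq_zero, ← ha]
        rfl
      rcases (FLTA.Curves.residueMap_eq_zero_iff v _).mp h0 with h | h
      · exfalso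
        simp only [AddSubgroupClass.coe_sub, Place.coe_algebraMap, sub_eq_zero] at h
        exact transcendental_jF N L (h ▸ isAlgebraic_algebraMap a)
      · simpa using h
    exact absurd ha (not_lt.mpr (hj a))
  exact key

theorem exists_placeAt (τ : ℍ) (hτ : IsPointOver ι τ) :
    ∃ v : Place L FN, ∀ x, ordF N ι τ x = ellipticIndex N τ * v.ord x := by
  obtain ⟨a, ha⟩ := hτ
  obtain ⟨v, hv, -, -⟩ := exists_places_over N ι τ a ha
  obtain ⟨γ, hγ, h⟩ := exists_cosetPoint N 1 τ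
  rw [one_smul] at h
  refine ⟨v (QuotientGroup.mk 1⁻¹), fun x => ?_⟩
  have h2 := hv (QuotientGroup.mk 1⁻¹) x
  rwa [h, ordF_smul N ι hγ, ellipticIndex_smul hγ] at h2

/-- The place of a point of `ℍ` defined over `L`. -/
def placeAt (τ : ℍ) (hτ : IsPointOver ι τ) : Place L FN := (exists_placeAt N ι τ hτ).choose

theorem ordF_eq_mul_ord_placeAt (τ : ℍ) (hτ : IsPointOver ι τ) (x : FN) :
    ordF N ι τ x = ellipticIndex N τ * (placeAt N ι τ hτ).ord x :=
  (exists_placeAt N ι τ hτ).choose_spec x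

theorem exists_cuspPlace (g : SL(2, ℤ)) :
    ∃ v : Place L FN, ∀ x, ordCusp N ι g x = cuspDiv N g * v.ord x := by
  obtain ⟨v, hv, -, -⟩ := exists_places_cusps N ι
  refine ⟨v (QuotientGroup.mk g⁻¹), fun x => ?_⟩
  have h := hv (QuotientGroup.mk g⁻¹) x
  rwa [ordCusp_repr_mk, cuspDiv_repr_mk] at h

/-- The place at the cusp `g ∞`. -/
def cuspPlace (g : SL(2, ℤ)) : Place L FN := (exists_cuspPlace N ι g).choose

theorem ordCusp_eq_mul_ord_cuspPlace (g : SL(2, ℤ)) (x : FN) :
    ordCusp N ι g x = cuspDiv N g * (cuspPlace N ι g).ord x :=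
  (exists_cuspPlace N ι g).choose_spec x

theorem placeAt_eq_of_smul {τ τ' : ℍ} (hτ : IsPointOver ι τ) (hτ' : IsPointOver ι τ')
    {γ : SL(2, ℤ)} (hγ : γ ∈ Gamma0 N) (h : γ • τ = τ') :
    placeAt N ι τ hτ = placeAt N ι τ' hτ' := by
  refine place_eq_of_mul_ord_eq (d := ellipticIndex N τ) (ellipticIndex_pos N τ') fun x => ?_
  rw [← ordF_eq_mul_ord_placeAt, ← ordF_eq_mul_ord_placeAt, ← h, ordF_smul N ι hγ]

theorem placeAt_eq_iff {τ τ' : ℍ} (hτ : IsPointOver ι τ) (hτ' : IsPointOver ι τ') :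
    placeAt N ι τ hτ = placeAt N ι τ' hτ' ↔ ∃ γ ∈ Gamma0 N, γ • τ = τ' := by
  refine ⟨fun heq => ?_, fun ⟨γ, hγ, h⟩ => placeAt_eq_of_smul N ι hτ hτ' hγ h⟩
  obtain ⟨a, ha⟩ := hτ
  have hpos : 0 < ordF N ι τ (jF N L - algebraMap L FN a) := by
    rw [ordF_jF_sub N ι τ a ha]
    exact_mod_cast analyticOrderNatAt_jFun_sub_pos τ
  have hv : 0 < (placeAt N ι τ ⟨a, ha⟩).ord (jF N L - algebraMap L FN a) := by
    rw [ordF_eq_mul_ord_placeAt N ι τ ⟨a, ha⟩] at hpos
    exact pos_of_mul_pos_right hpos (Int.natCast_nonneg _)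
  have hpos' : 0 < ordF N ι τ' (jF N L - algebraMap L FN a) := by
    rw [ordF_eq_mul_ord_placeAt N ι τ' hτ', ← heq]
    exact mul_pos (by exact_mod_cast ellipticIndex_pos N τ') hv
  obtain ⟨g, hg⟩ := exists_smul_eq_of_jInv_eq (ha.symm.trans (jInv_eq_of_ordF_pos N ι hpos').symm)
  obtain ⟨v, hv1, hv2, -⟩ := exists_places_over N ι τ a ha
  obtain ⟨γ₁, hγ₁, h1⟩ := exists_cosetPoint N 1 τ
  obtain ⟨γ₂, hγ₂, h2⟩ := exists_cosetPoint N g τ
  rw [one_smul] at h1
  rw [hg] at h2
  have e : ∀ (c : SL(2, ℤ) ⧸ Gamma0 N) (σ : ℍ) (hσ : IsPointOver ι σ) (δ : SL(2, ℤ)),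
      δ ∈ Gamma0 N → cosetPoint N τ c = δ • σ → v c = placeAt N ι σ hσ := by
    intro c σ hσ δ hδ hcs
    refine place_eq_of_mul_ord_eq (d := ellipticIndex N (cosetPoint N τ c))
      (ellipticIndex_pos N σ) fun x => ?_
    rw [← hv1, ← ordF_eq_mul_ord_placeAt, hcs, ordF_smul N ι hδ]
  obtain ⟨γ, hγ, h⟩ := hv2 (QuotientGroup.mk 1⁻¹) (QuotientGroup.mk g⁻¹)
    ((e _ τ ⟨a, ha⟩ γ₁ hγ₁ h1).trans (heq.trans (e _ τ' hτ' γ₂ hγ₂ h2).symm))
  rw [h1, h2] at h
  refine ⟨γ₂⁻¹ * γ * γ₁, mul_mem (mul_mem (inv_mem hγ₂) hγ) hγ₁, ?_⟩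
  rw [mul_smul, mul_smul, h, inv_smul_smul]

theorem cuspPlace_eq_iff (g g' : SL(2, ℤ)) :
    cuspPlace N ι g = cuspPlace N ι g' ↔
      ∃ γ ∈ Gamma0 N, ∃ n : ℤ, g' = γ * g * ModularGroup.T ^ n := by
  constructor
  · intro heq
    obtain ⟨v, hv, hv2, -⟩ := exists_places_cusps N ι
    have e : ∀ h : SL(2, ℤ), v (QuotientGroup.mk h⁻¹) = cuspPlace N ι h := fun h =>
      place_eq_of_mul_ord_eq (d := cuspDiv N (GenusKahler.repr N (QuotientGroup.mk h⁻¹)))
        (cuspDiv_pos N h) fun x => by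
        rw [← hv, ← ordCusp_eq_mul_ord_cuspPlace, ordCusp_repr_mk]
    obtain ⟨k, hk⟩ := hv2 (QuotientGroup.mk g⁻¹) (QuotientGroup.mk g'⁻¹)
      (by rw [e, e, heq])
    have hk' : (ModularGroup.T ^ k * g⁻¹)⁻¹ * g'⁻¹ ∈ Gamma0 N := QuotientGroup.eq.mp hk
    refine ⟨_, inv_mem hk', -k, ?_⟩
    simp [mul_assoc]
  · rintro ⟨γ, hγ, n, rfl⟩
    refine place_eq_of_mul_ord_eq (d := cuspDiv N g)
      (cuspDiv_pos N (γ * g * ModularGroup.T ^ n)) fun x => ?_
    rw [← ordCusp_eq_mul_ord_cuspPlace, ← ordCusp_eq_mul_ord_cuspPlace, mul_assoc γ,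
      ordCusp_mul_left N ι hγ, ← ordCusp_repr_mk N ι (g * ModularGroup.T ^ n),
      show (QuotientGroup.mk (g * ModularGroup.T ^ n)⁻¹ : SL(2, ℤ) ⧸ Gamma0 N) =
        ModularGroup.T ^ (-n) • QuotientGroup.mk g⁻¹ by rw [mul_inv_rev, ← zpow_neg]; rfl,
      ordCusp_T_zpow_smul, ordCusp_repr_mk]

theorem ord_jF_nonneg_placeAt (τ : ℍ) (hτ : IsPointOver ι τ) :
    0 ≤ (placeAt N ι τ hτ).ord (jF N L) := by
  have h := ordF_eq_mul_ord_placeAt N ι τ hτ (jF N L)
  have h1 : 0 ≤ ordF N ι τ (jF N L) := by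
    show 0 ≤ meroOrd τ (evMero N ι (jF N L))
    rw [evMero_jF, meroOrd_algebraMap_hol]
    exact Int.natCast_nonneg _
  rw [h] at h1
  exact nonneg_of_mul_nonneg_right h1 (by exact_mod_cast ellipticIndex_pos N τ)

theorem ord_jF_cuspPlace (g : SL(2, ℤ)) :
    (cuspPlace N ι g).ord (jF N L) = -(cuspWidth N g : ℤ) := by
  have h := ordCusp_eq_mul_ord_cuspPlace N ι g (jF N L)
  rw [ordCusp_jF] at h
  have h2 : ((cuspDiv N g : ℤ)) * cuspWidth N g = N := by exact_mod_cast cuspDiv_mul_cuspWidth N g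
  refine mul_left_cancel₀ (a := (cuspDiv N g : ℤ)) (by exact_mod_cast (cuspDiv_pos N g).ne') ?_
  rw [← h, mul_neg, h2]

theorem placeAt_ne_cuspPlace (τ : ℍ) (hτ : IsPointOver ι τ) (g : SL(2, ℤ)) :
    placeAt N ι τ hτ ≠ cuspPlace N ι g := by
  intro h
  have h1 := ord_jF_nonneg_placeAt N ι τ hτ
  rw [h, ord_jF_cuspPlace] at h1
  have := cuspWidth_pos N g
  omega

/-- Every place comes from a point of `ℍ` or from a cusp. -/
theorem exists_eq_placeAt_or_cuspPlace (v : Place L FN) :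
    (∃ τ hτ, v = placeAt N ι τ hτ) ∨ ∃ g, v = cuspPlace N ι g := by
  haveI : CharZero L := charZero_of_injective_algebraMap (algebraMap ℚ L).injective
  by_cases hj : v.ord (jF N L) < 0
  · obtain ⟨w, hw, -, hw3⟩ := exists_places_cusps N ι
    obtain ⟨c, hc⟩ := hw3 v hj
    refine Or.inr ⟨GenusKahler.repr N c, ?_⟩
    rw [← hc]
    exact place_eq_of_mul_ord_eq (d := cuspDiv N (GenusKahler.repr N c))
      (cuspDiv_pos N (GenusKahler.repr N c)) fun x => by
      rw [← hw, ← ordCusp_eq_mul_ord_cuspPlace]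
  · obtain ⟨a, ha⟩ : ∃ a : L, 0 < v.ord (jF N L - algebraMap L FN a) := by
      haveI := FLTA.Curves.finite_residueField_of_isSepFunctionField (K := L) v
      have hb := IsAlgClosed.algebraMap_bijective_of_isIntegral (k := L) (K := v.ResidueField)
      have hmem : jF N L ∈ v.toValuationSubring := by
        by_contra hm
        exact hj ((FLTA.Curves.not_mem_iff_ord_neg v _).mp hm)
      obtain ⟨a, ha⟩ := hb.2 (FLTA.Curves.residueMap v ⟨jF N L, hmem⟩)
      refine ⟨a, ?_⟩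
      have h0 : FLTA.Curves.residueMap v (⟨jF N L, hmem⟩ - algebraMap L v.toValuationSubring a) = 0 := by
        rw [map_sub, sub_eq_zero, ← ha]
        rfl
      rcases (FLTA.Curves.residueMap_eq_zero_iff v _).mp h0 with h | h
      · exfalso
        simp only [AddSubgroupClass.coe_sub, Place.coe_algebraMap, sub_eq_zero] at h
        exact transcendental_jF N L (h ▸ isAlgebraic_algebraMap a)
      · simpa using h
    obtain ⟨τ, hτ⟩ := jInv_surjective (ι a)
    obtain ⟨w, hw, -, hw3⟩ := exists_places_over N ι τ a hτ.symm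
    obtain ⟨c, hc⟩ := hw3 v ha
    refine Or.inl ⟨cosetPoint N τ c, ⟨a, by rw [cosetPoint, jInv_smul, hτ]⟩, ?_⟩
    rw [← hc]
    exact place_eq_of_mul_ord_eq (d := ellipticIndex N (cosetPoint N τ c))
      (ellipticIndex_pos N (cosetPoint N τ c)) fun x =>
      (hw c x).symm.trans (ordF_eq_mul_ord_placeAt N ι _ _ x)

include ι in
theorem isSepFunctionField : FLTA.Curves.IsSepFunctionField L FN := by
  haveI : CharZero L := charZero_of_injective_algebraMap (algebraMap ℚ L).injective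
  infer_instance

omit [IsAlgClosed L] in
/-- A function with no pole on `ℍ` is given by a holomorphic modular function. -/
theorem exists_qexp_eq_of_forall_ordF_nonneg {x : FN} (hx : ∀ τ, 0 ≤ ordF N ι τ x) :
    ∃ A : ModHol N, coeffMap ι (x : LaurentSeries L) = qexp N A :=
  exists_qexp_eq_of_ordF_nonneg N ι hx

/-! ### Complex conjugation -/

/-- `τ ↦ - conj τ`. -/
def negConjTau (τ : ℍ) : ℍ :=
  ⟨-(starRingEnd ℂ (τ : ℂ)), by simpa using τ.im_pos⟩

theorem negConjTau_eq_negConj (τ : ℍ) : negConjTau τ = Kummer.negConj τ := rfl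

theorem ordF_complexConjugation
    (x : laurentBaseChange (AlgebraicClosure ℚ) (modularFunctionFieldFull N)) (τ : ℍ) :
    ordF N complexEmbedding.toRingHom τ
        (arithmeticGalois (modularFunctionFieldFull N) complexConjugation • x) =
      ordF N complexEmbedding.toRingHom (negConjTau τ) x :=
  Kummer.meroOrd_evMero_complexConjugation N x τ

end FLTA.Bridge
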