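import Fermat.Agent.Bridge.Hol
import Mathlib.NumberTheory.ModularForms.QExpansion
import Mathlib.RingTheory.LaurentSeries
import Fermat.Prelude.Def_ModularCurve_X0
import Fermat.Prelude.Def_ModularCurve_LaurentCoeff

/-!
# Laurent expansions at infinity of periodic holomorphic functions on `ℍ`

`HolInfty h` is the algebra of holomorphic `h`-periodic functions which are meromorphic at `i∞`,
and `expansion h` its Laurent expansion in `exp (2 π i τ / h)`, an injective algebra map.
-/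

set_option autoImplicit false

noncomputable section

open scoped Manifold MatrixGroups Topology Real
open UpperHalfPlane hiding I
open Complex Filter Function

namespace FLTA.Bridge

local notation "𝕢" => Function.Periodic.qParam

/-- At most exponential growth at `i∞`: `q ^ n * F` is bounded for some `n`. -/
def GrowthInfty (F : ℍ → ℂ) : Prop :=
  ∃ n : ℕ, IsBoundedAtImInfty (fun τ : ℍ => 𝕢 1 τ ^ n * F τ)

theorem GrowthInfty.const (c : ℂ) : GrowthInfty (fun _ => c) :=
  ⟨0, by simpa using! Filter.const_boundedAtFilter _ c⟩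

theorem isBoundedAtImInfty_qParam_pow (k : ℕ) :
    IsBoundedAtImInfty (fun τ : ℍ => 𝕢 1 τ ^ k) := by
  have h := ((qParam_tendsto_atImInfty (h := 1) one_pos).pow k).isBigO_one ℝ
  exact h

theorem GrowthInfty.mul {F G : ℍ → ℂ} (hF : GrowthInfty F) (hG : GrowthInfty G) :
    GrowthInfty (F * G) := by
  obtain ⟨n, hn⟩ := hF
  obtain ⟨m, hm⟩ := hG
  refine ⟨n + m, ?_⟩
  have h : (fun τ : ℍ => 𝕢 1 τ ^ (n + m) * (F * G) τ) =
      (fun τ : ℍ => 𝕢 1 τ ^ n * F τ) * fun τ : ℍ => 𝕢 1 τ ^ m * G τ := by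
    funext τ
    simp only [Pi.mul_apply, pow_add]
    ring
  rw [h]
  exact hn.mul hm

theorem GrowthInfty.add {F G : ℍ → ℂ} (hF : GrowthInfty F) (hG : GrowthInfty G) :
    GrowthInfty (F + G) := by
  obtain ⟨n, hn⟩ := hF
  obtain ⟨m, hm⟩ := hG
  refine ⟨n + m, ?_⟩
  have h : (fun τ : ℍ => 𝕢 1 τ ^ (n + m) * (F + G) τ) =
      ((fun τ : ℍ => 𝕢 1 τ ^ m) * fun τ : ℍ => 𝕢 1 τ ^ n * F τ) +
        (fun τ : ℍ => 𝕢 1 τ ^ n) * fun τ : ℍ => 𝕢 1 τ ^ m * G τ := by
    funext τ
    simp only [Pi.mul_apply, Pi.add_apply, pow_add]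
    ring
  rw [h]
  exact Filter.BoundedAtFilter.add ((isBoundedAtImInfty_qParam_pow m).mul hn)
    ((isBoundedAtImInfty_qParam_pow n).mul hm)

/-- Holomorphic, `h`-periodic functions on `ℍ` that are meromorphic at `i∞`. -/
def HolInfty (h : ℕ) [NeZero h] : Subalgebra ℂ (ℍ → ℂ) where
  carrier := {F | F ∈ Hol ∧ Periodic (F ∘ ofComplex) (h : ℂ) ∧ GrowthInfty F}
  mul_mem' ha hb := ⟨mul_mem ha.1 hb.1, ha.2.1.mul hb.2.1, ha.2.2.mul hb.2.2⟩
  add_mem' ha hb := ⟨add_mem ha.1 hb.1, ha.2.1.add hb.2.1, ha.2.2.add hb.2.2⟩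
  algebraMap_mem' c := ⟨Subalgebra.algebraMap_mem _ c, fun _ => rfl, GrowthInfty.const c⟩

theorem mem_holInfty_iff {h : ℕ} [NeZero h] {F : ℍ → ℂ} :
    F ∈ HolInfty h ↔ F ∈ Hol ∧ Periodic (F ∘ ofComplex) (h : ℂ) ∧ GrowthInfty F := Iff.rfl

open Classical in
/-- A bound for the order of pole at `i∞`. -/
def poleBound (F : ℍ → ℂ) : ℕ := if h : GrowthInfty F then Nat.find h else 0

/-- Laurent expansion at `i∞` in the parameter `exp (2 π i τ / h)`. -/
def expansionFun (h : ℕ) (F : ℍ → ℂ) : LaurentSeries ℂ :=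
  HahnSeries.single (-(poleBound F * h : ℕ) : ℤ) (1 : ℂ) *
    HahnSeries.ofPowerSeries ℤ ℂ
      (qExpansion (h : ℝ) (fun τ : ℍ => 𝕢 1 τ ^ poleBound F * F τ))

theorem isBounded_poleBound {F : ℍ → ℂ} (hF : GrowthInfty F) :
    IsBoundedAtImInfty (fun τ : ℍ => 𝕢 1 τ ^ poleBound F * F τ) := by
  classical
  rw [poleBound, dif_pos hF]
  exact Nat.find_spec hF

theorem poleBound_le {F : ℍ → ℂ} {n : ℕ}
    (hn : IsBoundedAtImInfty (fun τ : ℍ => 𝕢 1 τ ^ n * F τ)) : poleBound F ≤ n := by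
  classical
  rw [poleBound, dif_pos ⟨n, hn⟩]
  exact Nat.find_le hn

variable (h : ℕ) [NeZero h]

theorem natCast_period_pos : (0 : ℝ) < h := by
  exact_mod_cast Nat.pos_of_ne_zero (NeZero.ne h)

theorem qParam_one_eq_pow (τ : ℂ) : 𝕢 1 τ = 𝕢 (h : ℝ) τ ^ h := by
  simp only [Periodic.qParam, ← Complex.exp_nat_mul, ofReal_one, div_one, ofReal_natCast]
  congr 1
  field_simp [NeZero.ne h]

/-- Bounded members of `HolInfty h` have an analytic cusp function. -/
theorem analyticAt_cuspFunction {G : ℍ → ℂ} (hG : G ∈ HolInfty h) (hb : IsBoundedAtImInfty G) :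
    AnalyticAt ℂ (cuspFunction (h : ℝ) G) 0 :=
  analyticAt_cuspFunction_zero (natCast_period_pos h) (by simpa using hG.2.1) hG.1 hb

theorem hasSum_qExpansion' {G : ℍ → ℂ} (hG : G ∈ HolInfty h) (hb : IsBoundedAtImInfty G) (τ : ℍ) :
    HasSum (fun m : ℕ => (qExpansion (h : ℝ) G).coeff m * 𝕢 (h : ℝ) τ ^ m) (G τ) := by
  simpa [smul_eq_mul] using
    hasSum_qExpansion (natCast_period_pos h) (by simpa using hG.2.1) hG.1 hb τ

theorem qExpansion_eq_of_hasSum {G : ℍ → ℂ} (hG : G ∈ HolInfty h) (hb : IsBoundedAtImInfty G)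
    {P : PowerSeries ℂ}
    (hP : ∀ τ : ℍ, HasSum (fun m : ℕ => P.coeff m * 𝕢 (h : ℝ) τ ^ m) (G τ)) :
    qExpansion (h : ℝ) G = P := by
  ext m
  have h1 := hasFPowerSeriesOnBall_cuspFunction (natCast_period_pos h)
    (analyticAt_cuspFunction h hG hb) (c := fun m => P.coeff m)
    (fun τ => by simpa [smul_eq_mul] using hP τ)
  have h2 := hasFPowerSeriesOnBall_cuspFunction (natCast_period_pos h)
    (analyticAt_cuspFunction h hG hb) (c := fun m => (qExpansion (h : ℝ) G).coeff m)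
    (fun τ => by simpa [smul_eq_mul] using hasSum_qExpansion' h hG hb τ)
  simpa using congrArg (FormalMultilinearSeries.coeff · m)
    (h2.hasFPowerSeriesAt.eq_formalMultilinearSeries h1.hasFPowerSeriesAt)

theorem qParam_pow_mem_holInfty (k : ℕ) : (fun τ : ℍ => 𝕢 1 τ ^ k) ∈ HolInfty h := by
  refine ⟨?_, ?_, 0, by simpa using isBoundedAtImInfty_qParam_pow k⟩
  · rw [mem_hol_iff_differentiableOn]
    refine ((Periodic.differentiable_qParam (h := 1)).pow k).differentiableOn.congr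
      (fun z hz => ?_)
    simp [ofComplex_apply_of_im_pos hz]
  · intro w
    by_cases hw : 0 < w.im
    · have hw' : 0 < (w + (h : ℂ)).im := by simpa using hw
      simp only [comp_apply, ofComplex_apply_of_im_pos hw', ofComplex_apply_of_im_pos hw,
        Periodic.qParam, ofReal_one, div_one, mul_add, Complex.exp_add]
      have : Complex.exp (2 * π * I * h) = 1 := by
        rw [mul_comm]
        exact Complex.exp_nat_mul_two_pi_mul_I h
      rw [this, mul_one]
    · have hw' : (w + (h : ℂ)).im ≤ 0 := by simpa using not_lt.mp hw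
      simp only [comp_apply, ofComplex_apply_of_im_nonpos hw',
        ofComplex_apply_of_im_nonpos (not_lt.mp hw)]

theorem qExpansion_qParam_pow (k : ℕ) :
    qExpansion (h : ℝ) (fun τ : ℍ => 𝕢 1 τ ^ k) = PowerSeries.X ^ (k * h) := by
  refine qExpansion_eq_of_hasSum h (qParam_pow_mem_holInfty h k)
    (isBoundedAtImInfty_qParam_pow k) fun τ => ?_
  have h1 : (𝕢 1 τ : ℂ) ^ k = 𝕢 (h : ℝ) τ ^ (k * h) := by
    rw [qParam_one_eq_pow h, ← pow_mul, mul_comm]
  rw [h1]
  convert hasSum_ite_eq (k * h) (𝕢 (h : ℝ) τ ^ (k * h)) using 2 with m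
  simp only [PowerSeries.coeff_X_pow]
  split_ifs with hm <;> simp [hm]

theorem qExpansion_mul' {F G : ℍ → ℂ} (hF : F ∈ HolInfty h) (hFb : IsBoundedAtImInfty F)
    (hG : G ∈ HolInfty h) (hGb : IsBoundedAtImInfty G) :
    qExpansion (h : ℝ) (F * G) = qExpansion (h : ℝ) F * qExpansion (h : ℝ) G :=
  qExpansion_mul (analyticAt_cuspFunction h hF hFb) (analyticAt_cuspFunction h hG hGb)

theorem qParam_pow_mul_mem {F : ℍ → ℂ} (hF : F ∈ HolInfty h) (n : ℕ) :
    (fun τ : ℍ => 𝕢 1 τ ^ n * F τ) ∈ HolInfty h :=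
  mul_mem (qParam_pow_mem_holInfty h n) hF

theorem expansionFun_eq {F : ℍ → ℂ} (hF : F ∈ HolInfty h) {n : ℕ}
    (hn : IsBoundedAtImInfty (fun τ : ℍ => 𝕢 1 τ ^ n * F τ)) :
    expansionFun h F = HahnSeries.single (-(n * h : ℕ) : ℤ) (1 : ℂ) *
      HahnSeries.ofPowerSeries ℤ ℂ (qExpansion (h : ℝ) (fun τ : ℍ => 𝕢 1 τ ^ n * F τ)) := by
  obtain ⟨d, rfl⟩ := Nat.exists_eq_add_of_le (poleBound_le hn)
  have hb := isBounded_poleBound hF.2.2
  have h1 : (fun τ : ℍ => 𝕢 1 τ ^ (poleBound F + d) * F τ) =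
      (fun τ : ℍ => 𝕢 1 τ ^ d) * fun τ : ℍ => 𝕢 1 τ ^ poleBound F * F τ := by
    funext τ
    simp only [Pi.mul_apply, pow_add]
    ring
  rw [h1, qExpansion_mul' h (qParam_pow_mem_holInfty h d) (isBoundedAtImInfty_qParam_pow d)
    (qParam_pow_mul_mem h hF _) hb, qExpansion_qParam_pow, map_mul,
    HahnSeries.ofPowerSeries_X_pow, expansionFun, ← mul_assoc, HahnSeries.single_mul_single,
    one_mul]
  congr 2
  push_cast
  ring

theorem expansionFun_of_bounded {F : ℍ → ℂ} (hF : F ∈ HolInfty h) (hb : IsBoundedAtImInfty F) :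
    expansionFun h F = HahnSeries.ofPowerSeries ℤ ℂ (qExpansion (h : ℝ) F) := by
  rw [expansionFun_eq h hF (n := 0) (by simpa using hb)]
  simp

theorem expansionFun_mul {F G : ℍ → ℂ} (hF : F ∈ HolInfty h) (hG : G ∈ HolInfty h) :
    expansionFun h (F * G) = expansionFun h F * expansionFun h G := by
  have hFb := isBounded_poleBound hF.2.2
  have hGb := isBounded_poleBound hG.2.2
  have h1 : (fun τ : ℍ => 𝕢 1 τ ^ (poleBound F + poleBound G) * (F * G) τ) =
      (fun τ : ℍ => 𝕢 1 τ ^ poleBound F * F τ) * fun τ : ℍ => 𝕢 1 τ ^ poleBound G * G τ := by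
    funext τ
    simp only [Pi.mul_apply, pow_add]
    ring
  rw [expansionFun_eq h (mul_mem hF hG) (n := poleBound F + poleBound G)
      (by rw [h1]; exact hFb.mul hGb), h1,
    qExpansion_mul' h (qParam_pow_mul_mem h hF _) hFb (qParam_pow_mul_mem h hG _) hGb, map_mul,
    expansionFun, expansionFun]
  rw [mul_mul_mul_comm, HahnSeries.single_mul_single, one_mul]
  congr 2
  push_cast
  ring

theorem expansionFun_add {F G : ℍ → ℂ} (hF : F ∈ HolInfty h) (hG : G ∈ HolInfty h) :
    expansionFun h (F + G) = expansionFun h F + expansionFun h G := by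
  have hFb : IsBoundedAtImInfty (fun τ : ℍ => 𝕢 1 τ ^ (poleBound F + poleBound G) * F τ) := by
    have := (isBoundedAtImInfty_qParam_pow (poleBound G)).mul (isBounded_poleBound hF.2.2)
    refine Eq.subst (motive := IsBoundedAtImInfty) (funext fun τ => ?_) this
    simp only [Pi.mul_apply, pow_add]
    ring
  have hGb : IsBoundedAtImInfty (fun τ : ℍ => 𝕢 1 τ ^ (poleBound F + poleBound G) * G τ) := by
    have := (isBoundedAtImInfty_qParam_pow (poleBound F)).mul (isBounded_poleBound hG.2.2)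
    refine Eq.subst (motive := IsBoundedAtImInfty) (funext fun τ => ?_) this
    simp only [Pi.mul_apply, pow_add]
    ring
  have h1 : (fun τ : ℍ => 𝕢 1 τ ^ (poleBound F + poleBound G) * (F + G) τ) =
      (fun τ : ℍ => 𝕢 1 τ ^ (poleBound F + poleBound G) * F τ) +
        fun τ : ℍ => 𝕢 1 τ ^ (poleBound F + poleBound G) * G τ := by
    funext τ
    simp only [Pi.add_apply]
    ring
  rw [expansionFun_eq h (add_mem hF hG) (n := poleBound F + poleBound G)
      (by rw [h1]; exact Filter.BoundedAtFilter.add hFb hGb), h1,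
    qExpansion_add (analyticAt_cuspFunction h (qParam_pow_mul_mem h hF _) hFb)
      (analyticAt_cuspFunction h (qParam_pow_mul_mem h hG _) hGb), map_add, mul_add,
    ← expansionFun_eq h hF hFb, ← expansionFun_eq h hG hGb]

theorem expansionFun_const (c : ℂ) :
    expansionFun h (algebraMap ℂ (ℍ → ℂ) c) = algebraMap ℂ (LaurentSeries ℂ) c := by
  have hmem : algebraMap ℂ (ℍ → ℂ) c ∈ HolInfty h := Subalgebra.algebraMap_mem _ c
  have hb : IsBoundedAtImInfty (algebraMap ℂ (ℍ → ℂ) c) := Filter.const_boundedAtFilter _ c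
  rw [expansionFun_of_bounded h hmem hb,
    qExpansion_eq_of_hasSum h hmem hb (P := PowerSeries.C c) fun τ => ?_]
  · rw [ModularCurve.algebraMap_laurentSeries_eq_single, HahnSeries.ofPowerSeries_C]
    rfl
  · convert hasSum_ite_eq 0 c using 2 with m
    · rcases eq_or_ne m 0 with rfl | hm <;> simp [PowerSeries.coeff_C, *]
    · rfl

/-- The Laurent expansion at `i∞` as an algebra map. -/
def expansion : HolInfty h →ₐ[ℂ] LaurentSeries ℂ where
  toFun F := expansionFun h (F : ℍ → ℂ)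
  map_one' := by
    have := expansionFun_const h 1
    simpa using this
  map_mul' F G := expansionFun_mul h F.2 G.2
  map_zero' := by
    have := expansionFun_const h 0
    simpa using this
  map_add' F G := expansionFun_add h F.2 G.2
  commutes' c := expansionFun_const h c

theorem expansion_injective : Function.Injective (expansion h) := by
  rw [injective_iff_map_eq_zero]
  intro F hF
  have h1 : qExpansion (h : ℝ) (fun τ : ℍ => 𝕢 1 τ ^ poleBound (F : ℍ → ℂ) * (F : ℍ → ℂ) τ)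
      = 0 := by
    have h2 : expansionFun h (F : ℍ → ℂ) = 0 := hF
    rw [expansionFun, mul_eq_zero] at h2
    exact (map_eq_zero_iff _ HahnSeries.ofPowerSeries_injective).mp
      (h2.resolve_left (by simp))
  have h3 := qParam_pow_mul_mem h F.2 (poleBound (F : ℍ → ℂ))
  rw [qExpansion_eq_zero_iff (natCast_period_pos h) (by simpa using h3.2.1) h3.1
    (isBounded_poleBound F.2.2.2)] at h1
  ext τ
  simpa [Periodic.qParam_ne_zero] using congrFun h1 τ

theorem hasSum_expansion (F : HolInfty h) {n : ℕ}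
    (hn : IsBoundedAtImInfty (fun τ : ℍ => 𝕢 1 τ ^ n * (F : ℍ → ℂ) τ)) (τ : ℍ) :
    HasSum (fun m : ℕ => (expansion h F).coeff ((m : ℤ) - (n * h : ℕ)) * 𝕢 (h : ℝ) τ ^ m)
      (𝕢 1 τ ^ n * (F : ℍ → ℂ) τ) := by
  convert hasSum_qExpansion' h (qParam_pow_mul_mem h F.2 n) hn τ using 2 with m
  congr 1
  show (expansionFun h (F : ℍ → ℂ)).coeff _ = _
  rw [expansionFun_eq h F.2 hn, HahnSeries.coeff_single_mul, one_mul,
    show ((m : ℤ) - (n * h : ℕ) - -((n * h : ℕ) : ℤ)) = (m : ℤ) by ring,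
    HahnSeries.ofPowerSeries_apply_coeff]

theorem order_nonneg_of_forall_coeff {x : LaurentSeries ℂ} (hx : ∀ j < 0, x.coeff j = 0) :
    0 ≤ x.order := by
  by_contra hc
  rw [not_le] at hc
  have hne : x ≠ 0 := by
    rintro rfl
    simp at hc
  exact hne (HahnSeries.coeff_order_eq_zero.mp (hx _ hc))

theorem isBoundedAtImInfty_iff_order (F : HolInfty h) :
    IsBoundedAtImInfty (F : ℍ → ℂ) ↔ 0 ≤ (expansion h F).order := by
  constructor
  · intro hb
    refine order_nonneg_of_forall_coeff fun j hj => ?_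
    show (expansionFun h (F : ℍ → ℂ)).coeff j = 0
    rw [expansionFun_of_bounded h F.2 hb]
    exact ModularCurve.ofPowerSeries_coeff_of_neg _ hj
  · intro ho
    refine isBoundedAtImInfty_of_hasSum_qExpansion (natCast_period_pos h)
      (c := fun m : ℕ => (expansion h F).coeff (m : ℤ)) fun τ => ?_
    obtain ⟨n, hn⟩ := F.2.2.2
    have hs := hasSum_expansion h F hn τ
    rw [← hasSum_nat_add_iff' (n * h)] at hs
    have hzero : ∑ i ∈ Finset.range (n * h),
        (expansion h F).coeff ((i : ℤ) - (n * h : ℕ)) * 𝕢 (h : ℝ) τ ^ i = 0 := by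
      refine Finset.sum_eq_zero fun i hi => ?_
      rw [HahnSeries.coeff_eq_zero_of_lt_order, zero_mul]
      have := Finset.mem_range.mp hi
      omega
    rw [hzero, sub_zero, qParam_one_eq_pow h, ← pow_mul, mul_comm h n] at hs
    have hq : 𝕢 (h : ℝ) (τ : ℂ) ^ (n * h) ≠ 0 := pow_ne_zero _ (Periodic.qParam_ne_zero _)
    have hs' := hs.mul_left ((𝕢 (h : ℝ) (τ : ℂ) ^ (n * h))⁻¹)
    rw [inv_mul_cancel_left₀ hq] at hs'
    refine hs'.congr_fun fun m => ?_
    rw [show ((m + n * h : ℕ) : ℤ) - ((n * h : ℕ) : ℤ) = m by push_cast; ring, pow_add, smul_eq_mul]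
    field_simp

theorem tendsto_atImInfty_coeff_zero (F : HolInfty h) (hF : 0 ≤ (expansion h F).order) :
    Tendsto (F : ℍ → ℂ) atImInfty (𝓝 ((expansion h F).coeff 0)) := by
  have hb := (isBoundedAtImInfty_iff_order h F).mpr hF
  have ha := analyticAt_cuspFunction h F.2 hb
  have hc : (expansion h F).coeff 0 = (qExpansion (h : ℝ) (F : ℍ → ℂ)).coeff 0 := by
    show (expansionFun h (F : ℍ → ℂ)).coeff 0 = _
    rw [expansionFun_of_bounded h F.2 hb]
    exact HahnSeries.ofPowerSeries_apply_coeff _ 0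
  rw [hc, qExpansion_coeff]
  simp only [Nat.factorial_zero, Nat.cast_one, inv_one, one_mul, iteratedDeriv_zero]
  have hlim := ha.continuousAt.tendsto.comp
    (qParam_tendsto_atImInfty (natCast_period_pos h))
  refine hlim.congr fun τ => ?_
  exact eq_cuspFunction τ (natCast_period_pos h).ne' (by simpa using F.2.2.1)

theorem isZeroAtImInfty_iff_order (F : HolInfty h) :
    IsZeroAtImInfty (F : ℍ → ℂ) ↔ F = 0 ∨ 0 < (expansion h F).order := by
  constructor
  · intro hz
    by_cases hF : F = 0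
    · exact Or.inl hF
    refine Or.inr ?_
    have ho := (isBoundedAtImInfty_iff_order h F).mp hz.isBoundedAtImInfty
    have hc : (expansion h F).coeff 0 = 0 :=
      tendsto_nhds_unique (tendsto_atImInfty_coeff_zero h F ho) hz
    refine lt_of_le_of_ne ho fun h0 => ?_
    have hne : expansion h F ≠ 0 := fun h' => hF ((injective_iff_map_eq_zero _).mp
      (expansion_injective h) F h')
    exact hne (HahnSeries.coeff_order_eq_zero.mp (h0 ▸ hc))
  · rintro (rfl | ho)
    · exact zero_zeroAtFilter _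
    · have := tendsto_atImInfty_coeff_zero h F ho.le
      rwa [HahnSeries.coeff_eq_zero_of_lt_order ho] at this

/-- Changing the period `h` to `h * k` substitutes `q ↦ q ^ k`. -/
theorem expansionFun_mul_period (k : ℕ) [NeZero k] {F : ℍ → ℂ} (hF : F ∈ HolInfty h) :
    expansionFun (h * k) F = ModularCurve.qExpand ℂ k (expansionFun h F) := by
  have hn := isBounded_poleBound hF.2.2
  set n := poleBound F
  have hFk : F ∈ HolInfty (h * k) := ⟨hF.1, by
    simpa [Nat.cast_mul, mul_comm] using hF.2.1.nat_mul k, hF.2.2⟩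
  let G : HolInfty h := ⟨F, hF⟩
  have hG : qExpansion ((h * k : ℕ) : ℝ) (fun τ : ℍ => 𝕢 1 τ ^ n * F τ) = PowerSeries.mk fun m =>
      if k ∣ m then (qExpansion (h : ℝ) (fun τ : ℍ => 𝕢 1 τ ^ n * F τ)).coeff (m / k) else 0 := by
    refine qExpansion_eq_of_hasSum (h * k) (qParam_pow_mul_mem (h * k) hFk n) hn fun τ => ?_
    have hs := hasSum_qExpansion' h (qParam_pow_mul_mem h hF n) hn τ
    have hinj : Function.Injective fun m : ℕ => m * k :=
      mul_left_injective₀ (NeZero.ne k)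
    rw [← hinj.hasSum_iff (f := fun m : ℕ => (PowerSeries.mk fun m =>
      if k ∣ m then (qExpansion (h : ℝ) (fun τ : ℍ => 𝕢 1 τ ^ n * F τ)).coeff (m / k) else 0).coeff m
        * 𝕢 ((h * k : ℕ) : ℝ) τ ^ m) (fun m hm => ?_)]
    · convert hs using 2 with m
      simp only [comp_apply, PowerSeries.coeff_mk, dvd_mul_left, if_true,
        Nat.mul_div_cancel _ (Nat.pos_of_ne_zero (NeZero.ne k))]
      rw [mul_comm m k, pow_mul]
      congr 2
      simp only [Periodic.qParam, ← Complex.exp_nat_mul, ofReal_natCast, Nat.cast_mul]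
      congr 1
      push_cast
      field_simp [NeZero.ne k, NeZero.ne h]
    · rw [PowerSeries.coeff_mk, if_neg, zero_mul]
      exact fun hd => hm ⟨m / k, Nat.div_mul_cancel hd⟩
  rw [expansionFun_eq (h * k) hFk hn, hG, expansionFun, map_mul, ModularCurve.qExpand_single]
  congr 1
  · rw [show ((-((n * (h * k) : ℕ) : ℤ)) : ℤ) = (k : ℤ) * -((n * h : ℕ) : ℤ) by push_cast; ring]
  ext j
  by_cases hkj : (k : ℤ) ∣ j
  · obtain ⟨i, rfl⟩ := hkj
    rw [ModularCurve.qExpand_coeff_mul]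
    rcases lt_or_ge i 0 with hi | hi
    · rw [ModularCurve.ofPowerSeries_coeff_of_neg _ hi,
        ModularCurve.ofPowerSeries_coeff_of_neg _
          (mul_neg_of_pos_of_neg (by exact_mod_cast Nat.pos_of_ne_zero (NeZero.ne k)) hi)]
    · lift i to ℕ using hi
      rw [← Nat.cast_mul, HahnSeries.ofPowerSeries_apply_coeff,
        HahnSeries.ofPowerSeries_apply_coeff, PowerSeries.coeff_mk, if_pos (dvd_mul_right k i),
        Nat.mul_div_cancel_left _ (Nat.pos_of_ne_zero (NeZero.ne k))]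
  · rw [ModularCurve.qExpand_coeff_of_not_dvd k _ hkj]
    rcases lt_or_ge j 0 with hj | hj
    · exact ModularCurve.ofPowerSeries_coeff_of_neg _ hj
    · lift j to ℕ using hj
      rw [HahnSeries.ofPowerSeries_apply_coeff, PowerSeries.coeff_mk, if_neg]
      exact fun hd => hkj (Int.natCast_dvd_natCast.mpr hd)

/-- Translation multiplies the `m`-th coefficient by `exp (2 π i m t / h)`. -/
theorem coeff_expansion_translate {F : ℍ → ℂ} (hF : F ∈ HolInfty h) (t : ℝ) (m : ℤ) :
    (expansionFun h (fun τ : ℍ => F (t +ᵥ τ))).coeff m =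
      Complex.exp (2 * π * I * m * t / h) * (expansionFun h F).coeff m := by
  have hn := isBounded_poleBound hF.2.2
  set n := poleBound F
  set e : ℂ := Complex.exp (2 * π * I * t / h)
  have he : e ≠ 0 := Complex.exp_ne_zero _
  have hq : ∀ σ : ℍ, 𝕢 (h : ℝ) ((t +ᵥ σ : ℍ) : ℂ) = e * 𝕢 (h : ℝ) (σ : ℂ) := fun σ => by
    simp only [Periodic.qParam, e, ← Complex.exp_add, coe_vadd, ofReal_natCast]
    congr 1
    field_simp [NeZero.ne h]
  set Ft : ℍ → ℂ := fun σ => F (t +ᵥ σ)
  have hmem : Ft ∈ HolInfty h := by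
    refine ⟨?_, ?_, ?_⟩
    · rw [mem_hol_iff_differentiableOn]
      have h1 := mem_hol_iff_differentiableOn.mp hF.1
      refine DifferentiableOn.congr (f := (F ∘ ofComplex) ∘ fun z : ℂ => (t : ℂ) + z) ?_ ?_
      · exact h1.comp (by fun_prop) (fun z hz => by simpa using hz)
      · intro z hz
        have hz' : 0 < ((t : ℂ) + z).im := by simpa using hz
        simp only [comp_apply, Ft, ofComplex_apply_of_im_pos hz, ofComplex_apply_of_im_pos hz']
        congr 1
    · intro w
      by_cases hw : 0 < w.im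
      · have hw' : 0 < (w + (h : ℂ)).im := by simpa using hw
        have hwt : 0 < ((t : ℂ) + w).im := by simpa using hw
        have hwt' : 0 < ((t : ℂ) + w + (h : ℂ)).im := by simpa using hw
        have hp := hF.2.1 ((t : ℂ) + w)
        simp only [comp_apply, ofComplex_apply_of_im_pos hw', ofComplex_apply_of_im_pos hw,
          ofComplex_apply_of_im_pos hwt, ofComplex_apply_of_im_pos hwt'] at hp ⊢
        convert hp using 2 <;>
          (apply UpperHalfPlane.ext; simp [add_assoc])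
      · have hw' : (w + (h : ℂ)).im ≤ 0 := by simpa using not_lt.mp hw
        simp only [comp_apply, ofComplex_apply_of_im_nonpos hw',
          ofComplex_apply_of_im_nonpos (not_lt.mp hw)]
    · refine ⟨n, ?_⟩
      rw [isBoundedAtImInfty_iff] at hn ⊢
      obtain ⟨M, A, hMA⟩ := hn
      refine ⟨M, A, fun σ hσ => ?_⟩
      have := hMA (t +ᵥ σ) (by simpa using hσ)
      simpa [Ft, Periodic.norm_qParam] using this
  have hnt : IsBoundedAtImInfty (fun σ : ℍ => 𝕢 1 σ ^ n * Ft σ) := by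
    rw [isBoundedAtImInfty_iff] at hn ⊢
    obtain ⟨M, A, hMA⟩ := hn
    refine ⟨M, A, fun σ hσ => ?_⟩
    have := hMA (t +ᵥ σ) (by simpa using hσ)
    simpa [Ft, Periodic.norm_qParam] using this
  have hQ : qExpansion (h : ℝ) (fun σ : ℍ => 𝕢 1 σ ^ n * Ft σ) = PowerSeries.mk fun i =>
      e ^ ((i : ℤ) - (n * h : ℕ)) * (qExpansion (h : ℝ) (fun τ : ℍ => 𝕢 1 τ ^ n * F τ)).coeff i := by
    refine qExpansion_eq_of_hasSum h (qParam_pow_mul_mem h hmem n) hnt fun σ => ?_
    have hs := (hasSum_qExpansion' h (qParam_pow_mul_mem h hF n) hn (t +ᵥ σ)).mul_left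
      ((e ^ (n * h))⁻¹)
    have hv : (e ^ (n * h))⁻¹ * (𝕢 1 ((t +ᵥ σ : ℍ) : ℂ) ^ n * F (t +ᵥ σ)) =
        𝕢 1 (σ : ℂ) ^ n * Ft σ := by
      rw [qParam_one_eq_pow h, qParam_one_eq_pow h (σ : ℂ), hq σ, mul_pow, mul_pow, ← pow_mul,
        ← pow_mul, mul_comm h n]
      field_simp
      simp [Ft]
    rw [hv] at hs
    refine hs.congr_fun fun i => ?_
    rw [PowerSeries.coeff_mk, hq σ, mul_pow, zpow_sub₀ he, zpow_natCast, zpow_natCast]
    ring
  rw [expansionFun_eq h hmem hnt, hQ, expansionFun, HahnSeries.coeff_single_mul, one_mul,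
    HahnSeries.coeff_single_mul, one_mul, sub_neg_eq_add]
  rcases lt_or_ge (m + (n * h : ℕ)) 0 with hneg | hpos
  · rw [ModularCurve.ofPowerSeries_coeff_of_neg _ hneg,
      ModularCurve.ofPowerSeries_coeff_of_neg _ hneg, mul_zero]
  · obtain ⟨i, hi⟩ := Int.eq_ofNat_of_zero_le hpos
    rw [hi, HahnSeries.ofPowerSeries_apply_coeff, HahnSeries.ofPowerSeries_apply_coeff,
      PowerSeries.coeff_mk, show (i : ℤ) - (n * h : ℕ) = m by omega]
    congr 1
    rw [← Complex.exp_int_mul]
    congr 1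
    field_simp

end FLTA.Bridge
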