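import Mathlib.Analysis.Complex.UpperHalfPlane.Manifold
import Mathlib.Analysis.Analytic.Order
import Mathlib.Analysis.Analytic.Uniqueness
import Mathlib.Analysis.Complex.CauchyIntegral
import Mathlib.RingTheory.Localization.FractionRing

/-!
# Holomorphic and meromorphic functions on the upper half plane

`Hol` is the `ℂ`-algebra of holomorphic functions on `ℍ`, an integral domain; `Mero` is its
fraction field, on which `GL(2, ℝ)⁺` acts and which carries the order at every point.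
-/

set_option autoImplicit false

noncomputable section

open scoped Manifold MatrixGroups Topology
open UpperHalfPlane hiding I
open Complex Filter

namespace FLTA.Bridge

/-- The algebra of holomorphic functions on the upper half plane. -/
def Hol : Subalgebra ℂ (ℍ → ℂ) where
  carrier := {F | MDifferentiable 𝓘(ℂ) 𝓘(ℂ) F}
  mul_mem' ha hb := by
    rw [Set.mem_ofPred_eq, UpperHalfPlane.mdifferentiable_iff] at ha hb ⊢
    exact ha.mul hb
  add_mem' ha hb := by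
    rw [Set.mem_ofPred_eq, UpperHalfPlane.mdifferentiable_iff] at ha hb ⊢
    exact ha.add hb
  algebraMap_mem' c := by
    rw [Set.mem_ofPred_eq, UpperHalfPlane.mdifferentiable_iff]
    exact differentiableOn_const c

theorem mem_hol_iff {F : ℍ → ℂ} : F ∈ Hol ↔ MDifferentiable 𝓘(ℂ) 𝓘(ℂ) F := Iff.rfl

theorem mem_hol_iff_differentiableOn {F : ℍ → ℂ} :
    F ∈ Hol ↔ DifferentiableOn ℂ (F ∘ ofComplex) {z | 0 < z.im} :=
  UpperHalfPlane.mdifferentiable_iff

theorem analyticAt_of_mem_hol {F : ℍ → ℂ} (hF : F ∈ Hol) (τ : ℍ) :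
    AnalyticAt ℂ (F ∘ ofComplex) (τ : ℂ) :=
  (mem_hol_iff_differentiableOn.mp hF).analyticAt (isOpen_upperHalfPlaneSet.mem_nhds τ.im_pos)

/-- Order of vanishing of a function on `ℍ` at a point. -/
def ordAt (τ : ℍ) (F : ℍ → ℂ) : ℕ := analyticOrderNatAt (F ∘ ofComplex) (τ : ℂ)

/-- Identity theorem: a holomorphic function which vanishes identically near a point is zero. -/
theorem eq_zero_of_eventually_zero {F : ℍ → ℂ} (hF : F ∈ Hol) {τ : ℍ}
    (h : (F ∘ ofComplex) =ᶠ[𝓝 (τ : ℂ)] 0) : F = 0 := by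
  have h2 : AnalyticOnNhd ℂ (F ∘ ofComplex) {z : ℂ | 0 < z.im} :=
    (mem_hol_iff_differentiableOn.mp hF).analyticOnNhd isOpen_upperHalfPlaneSet
  funext σ
  have h3 := h2.eqOn_zero_of_preconnected_of_eventuallyEq_zero
    (Convex.isPreconnected (convex_halfSpace_im_gt 0)) τ.im_pos h σ.im_pos
  simpa using h3

theorem analyticOrderAt_ne_top {F : ℍ → ℂ} (hF : F ∈ Hol) (h0 : F ≠ 0) (τ : ℍ) :
    analyticOrderAt (F ∘ ofComplex) (τ : ℂ) ≠ ⊤ := by
  intro h
  exact h0 (eq_zero_of_eventually_zero hF (analyticOrderAt_eq_top.mp h))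

instance instIsDomainHol : IsDomain Hol := by
  have : Nontrivial Hol := ⟨⟨0, 1, fun h => by
    have := congrArg (fun F : Hol => (F : ℍ → ℂ) UpperHalfPlane.I) h
    exact zero_ne_one this⟩⟩
  have : NoZeroDivisors Hol := ⟨fun {F G} h => by
    by_contra hc
    rw [not_or] at hc
    obtain ⟨hF, hG⟩ := hc
    have hF' : (F : ℍ → ℂ) ≠ 0 := fun h' => hF (Subtype.ext h')
    have hG' : (G : ℍ → ℂ) ≠ 0 := fun h' => hG (Subtype.ext h')
    have hmul := analyticOrderAt_mul (analyticAt_of_mem_hol F.2 UpperHalfPlane.I)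
      (analyticAt_of_mem_hol G.2 UpperHalfPlane.I)
    have htop : analyticOrderAt (((F : ℍ → ℂ) ∘ ofComplex) * ((G : ℍ → ℂ) ∘ ofComplex))
        (UpperHalfPlane.I : ℂ) = ⊤ := by
      refine analyticOrderAt_eq_top.mpr (Eventually.of_forall fun z => ?_)
      have := congrArg (fun K : Hol => (K : ℍ → ℂ) (ofComplex z)) h
      simpa using this
    rw [hmul, ENat.add_eq_top] at htop
    rcases htop with h1 | h1
    · exact analyticOrderAt_ne_top F.2 hF' _ h1
    · exact analyticOrderAt_ne_top G.2 hG' _ h1⟩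
  exact NoZeroDivisors.to_isDomain _

theorem ordAt_mul {F G : ℍ → ℂ} (hF : F ∈ Hol) (hG : G ∈ Hol) (hF0 : F ≠ 0) (hG0 : G ≠ 0)
    (τ : ℍ) : ordAt τ (F * G) = ordAt τ F + ordAt τ G := by
  exact analyticOrderNatAt_mul (analyticAt_of_mem_hol hF τ) (analyticAt_of_mem_hol hG τ)
    (analyticOrderAt_ne_top hF hF0 τ) (analyticOrderAt_ne_top hG hG0 τ)

theorem ordAt_eq_zero_iff {F : ℍ → ℂ} (hF : F ∈ Hol) (hF0 : F ≠ 0) (τ : ℍ) :
    ordAt τ F = 0 ↔ F τ ≠ 0 := by
  have h := (analyticAt_of_mem_hol hF τ).analyticOrderAt_eq_zero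
  rw [← Nat.cast_analyticOrderNatAt (analyticOrderAt_ne_top hF hF0 τ)] at h
  simp only [Nat.cast_eq_zero, Function.comp_apply, ofComplex_apply] at h
  exact h

theorem ordAt_add_le {F G : ℍ → ℂ} (hF : F ∈ Hol) (hG : G ∈ Hol) (hF0 : F ≠ 0) (hG0 : G ≠ 0)
    (h : F + G ≠ 0) (τ : ℍ) : min (ordAt τ F) (ordAt τ G) ≤ ordAt τ (F + G) := by
  have h1 := le_analyticOrderAt_add (f := F ∘ ofComplex) (g := G ∘ ofComplex) (z₀ := (τ : ℂ))
  rw [← Nat.cast_analyticOrderNatAt (analyticOrderAt_ne_top hF hF0 τ),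
    ← Nat.cast_analyticOrderNatAt (analyticOrderAt_ne_top hG hG0 τ)] at h1
  have h2 : analyticOrderAt ((F + G) ∘ ofComplex) (τ : ℂ) ≠ ⊤ :=
    analyticOrderAt_ne_top (add_mem hF hG) h τ
  have h3 : ((F + G) ∘ ofComplex) = F ∘ ofComplex + G ∘ ofComplex := rfl
  rw [h3] at h2
  rw [← Nat.cast_analyticOrderNatAt h2] at h1
  unfold ordAt
  rw [h3]
  rw [min_le_iff] at h1 ⊢
  exact_mod_cast h1

/-- Division of holomorphic functions when the zeros of the divisor are dominated. -/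
theorem exists_mul_eq_of_ordAt_le {A B : ℍ → ℂ} (hA : A ∈ Hol) (hB : B ∈ Hol) (hB0 : B ≠ 0)
    (h : A = 0 ∨ ∀ τ, ordAt τ B ≤ ordAt τ A) : ∃ Q ∈ Hol, Q * B = A := by
  rcases h with rfl | h
  · exact ⟨0, zero_mem _, zero_mul B⟩
  have hloc : ∀ τ : ℍ, ∃ u : ℂ → ℂ, AnalyticAt ℂ u (τ : ℂ) ∧
      (fun z => u z * (B ∘ ofComplex) z) =ᶠ[𝓝 (τ : ℂ)] (A ∘ ofComplex) := by
    intro τ
    rcases eq_or_ne A 0 with rfl | hA0
    · exact ⟨0, analyticAt_const, by simp [Function.comp_def]⟩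
    obtain ⟨a, ha, -, hAa⟩ := (analyticAt_of_mem_hol hA τ).analyticOrderAt_ne_top.mp
      (analyticOrderAt_ne_top hA hA0 τ)
    obtain ⟨b, hb, hb0, hBb⟩ := (analyticAt_of_mem_hol hB τ).analyticOrderAt_ne_top.mp
      (analyticOrderAt_ne_top hB hB0 τ)
    refine ⟨fun z => (z - τ) ^ (ordAt τ A - ordAt τ B) * (a z / b z), ?_, ?_⟩
    · exact ((analyticAt_id.sub analyticAt_const).pow _).mul (ha.div hb hb0)
    · filter_upwards [hAa, hBb, hb.continuousAt.eventually_ne hb0] with z hz1 hz2 hz3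
      rw [hz1, hz2, smul_eq_mul, smul_eq_mul]
      show (z - (τ : ℂ)) ^ (ordAt τ A - ordAt τ B) * (a z / b z) *
        ((z - (τ : ℂ)) ^ ordAt τ B * b z) = (z - (τ : ℂ)) ^ ordAt τ A * a z
      conv_rhs => rw [← Nat.sub_add_cancel (h τ), pow_add]
      field_simp
  choose u hu huA using hloc
  refine ⟨fun τ => u τ (τ : ℂ), ?_, ?_⟩
  · rw [mem_hol_iff_differentiableOn]
    intro z hz
    obtain ⟨τ, rfl⟩ : ∃ τ : ℍ, (τ : ℂ) = z := ⟨⟨z, hz⟩, rfl⟩
    refine (DifferentiableAt.congr_of_eventuallyEq (hu τ).differentiableAt ?_).differentiableWithinAt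
    filter_upwards [(huA τ).eventually_nhds, (hu τ).eventually_analyticAt,
      isOpen_upperHalfPlaneSet.mem_nhds hz] with w hw hw' hwim
    obtain ⟨σ, rfl⟩ : ∃ σ : ℍ, (σ : ℂ) = w := ⟨⟨w, hwim⟩, rfl⟩
    simp only [Function.comp_apply, ofComplex_apply]
    by_contra hne
    have hd : AnalyticAt ℂ (fun x => u σ x - u τ x) (σ : ℂ) := (hu σ).sub hw'
    have htop : analyticOrderAt ((fun x => u σ x - u τ x) * (B ∘ ofComplex)) (σ : ℂ) = ⊤ := by
      rw [analyticOrderAt_eq_top]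
      filter_upwards [huA σ, hw] with x hx hx'
      simp only [Pi.mul_apply, sub_mul, hx, hx', sub_self]
    rw [analyticOrderAt_mul hd (analyticAt_of_mem_hol hB σ), ENat.add_eq_top] at htop
    rcases htop with h1 | h1
    · exact hne (sub_eq_zero.mp (analyticOrderAt_eq_top.mp h1).self_of_nhds)
    · exact analyticOrderAt_ne_top hB hB0 σ h1
  · funext τ
    simpa using (huA τ).self_of_nhds

theorem comp_smul_mem_hol {F : ℍ → ℂ} (hF : F ∈ Hol) (g : GL(2, ℝ)⁺) :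
    (fun τ : ℍ => F ((g : GL (Fin 2) ℝ) • τ)) ∈ Hol :=
  hF.comp (mdifferentiable_smul g.2)

/-- Composition with the action of an element of `GL(2, ℝ)⁺`. -/
def holSmulEquiv (g : GL(2, ℝ)⁺) : Hol ≃ₐ[ℂ] Hol where
  toFun F := ⟨fun τ => (F : ℍ → ℂ) ((g : GL (Fin 2) ℝ) • τ), comp_smul_mem_hol F.2 g⟩
  invFun F := ⟨fun τ => (F : ℍ → ℂ) (((g⁻¹ : GL(2, ℝ)⁺) : GL (Fin 2) ℝ) • τ),
    comp_smul_mem_hol F.2 g⁻¹⟩
  left_inv F := by ext τ; simp
  right_inv F := by ext τ; simp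
  map_mul' _ _ := rfl
  map_add' _ _ := rfl
  commutes' _ := rfl

@[simp]
theorem coe_holSmulEquiv (g : GL(2, ℝ)⁺) (F : Hol) (τ : ℍ) :
    (holSmulEquiv g F : ℍ → ℂ) τ = (F : ℍ → ℂ) ((g : GL (Fin 2) ℝ) • τ) := rfl

theorem ordAt_comp_smul {F : ℍ → ℂ} (hF : F ∈ Hol) (g : GL(2, ℝ)⁺) (τ : ℍ) :
    ordAt τ (fun z : ℍ => F ((g : GL (Fin 2) ℝ) • z)) = ordAt ((g : GL (Fin 2) ℝ) • τ) F := by
  unfold ordAt analyticOrderNatAt
  have h : ((fun z : ℍ => F ((g : GL (Fin 2) ℝ) • z)) ∘ ofComplex) =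
      (F ∘ ofComplex) ∘ (fun z : ℂ => (((g : GL (Fin 2) ℝ) • ofComplex z : ℍ) : ℂ)) := by
    funext z
    simp
  rw [h, analyticOrderAt_comp_of_deriv_ne_zero (analyticAt_smul g.2 τ) (deriv_smul_ne_zero g.2 τ)]
  simp

/-- The field of meromorphic functions on `ℍ` (ratios of holomorphic functions). -/
abbrev Mero : Type := FractionRing Hol

/-- Precomposition with `g`, as an automorphism of the field of meromorphic functions. -/
def meroSmul (g : GL(2, ℝ)⁺) : Mero ≃ₐ[ℂ] Mero :=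
  IsFractionRing.fieldEquivOfAlgEquiv ℂ Mero Mero (holSmulEquiv g)

@[simp]
theorem meroSmul_algebraMap (g : GL(2, ℝ)⁺) (F : Hol) :
    meroSmul g (algebraMap Hol Mero F) = algebraMap Hol Mero (holSmulEquiv g F) := by
  simp [meroSmul]

theorem meroSmul_mul (g h : GL(2, ℝ)⁺) (x : Mero) :
    meroSmul (g * h) x = meroSmul h (meroSmul g x) := by
  obtain ⟨A, B, hB, rfl⟩ := IsFractionRing.div_surjective (A := Hol) x
  simp only [map_div₀, meroSmul_algebraMap]
  congr 2 <;> (ext τ; simp [mul_smul])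

open Classical in
/-- Order of a meromorphic function at a point (zero for the zero function). -/
def meroOrd (τ : ℍ) (x : Mero) : ℤ :=
  if x = 0 then 0 else
    (ordAt τ ((IsLocalization.sec (nonZeroDivisors Hol) x).1 : ℍ → ℂ) : ℤ) -
      (ordAt τ (((IsLocalization.sec (nonZeroDivisors Hol) x).2 : Hol) : ℍ → ℂ) : ℤ)

theorem meroOrd_div (τ : ℍ) {A B : Hol} (hA : A ≠ 0) (hB : B ≠ 0) :
    meroOrd τ (algebraMap Hol Mero A / algebraMap Hol Mero B) =
      (ordAt τ (A : ℍ → ℂ) : ℤ) - ordAt τ (B : ℍ → ℂ) := by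
  have hne : algebraMap Hol Mero A / algebraMap Hol Mero B ≠ 0 := by simp [hA, hB]
  rw [meroOrd, if_neg hne]
  set p := IsLocalization.sec (nonZeroDivisors Hol) (algebraMap Hol Mero A / algebraMap Hol Mero B)
  have hp : algebraMap Hol Mero A / algebraMap Hol Mero B * algebraMap Hol Mero (p.2 : Hol) =
      algebraMap Hol Mero p.1 := IsLocalization.sec_spec _ _
  have hp2 : (p.2 : Hol) ≠ 0 := nonZeroDivisors.coe_ne_zero _
  have heq : A * (p.2 : Hol) = p.1 * B := by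
    apply IsFractionRing.injective Hol Mero
    rw [map_mul, map_mul, ← hp]
    field_simp [show algebraMap Hol Mero B ≠ 0 by simpa using hB]
  have hp1 : p.1 ≠ 0 := by
    intro h0
    rw [h0, zero_mul] at heq
    exact mul_ne_zero hA hp2 heq
  have hc : ∀ {K : Hol}, K ≠ 0 → (K : ℍ → ℂ) ≠ 0 := fun hK h' => hK (Subtype.ext h')
  have h := congrArg (fun K : Hol => ordAt τ (K : ℍ → ℂ)) heq
  simp only [MulMemClass.coe_mul] at h
  rw [ordAt_mul A.2 (p.2 : Hol).2 (hc hA) (hc hp2), ordAt_mul p.1.2 B.2 (hc hp1) (hc hB)] at h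
  omega

theorem meroOrd_mul (τ : ℍ) {x y : Mero} (hx : x ≠ 0) (hy : y ≠ 0) :
    meroOrd τ (x * y) = meroOrd τ x + meroOrd τ y := by
  obtain ⟨A, B, hB, rfl⟩ := IsFractionRing.div_surjective (A := Hol) x
  obtain ⟨C, D, hD, rfl⟩ := IsFractionRing.div_surjective (A := Hol) y
  have hA : A ≠ 0 := fun h => hx (by simp [h])
  have hC : C ≠ 0 := fun h => hy (by simp [h])
  have hB' : B ≠ 0 := nonZeroDivisors.ne_zero hB
  have hD' : D ≠ 0 := nonZeroDivisors.ne_zero hD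
  have hc : ∀ {K : Hol}, K ≠ 0 → (K : ℍ → ℂ) ≠ 0 := fun hK h' => hK (Subtype.ext h')
  rw [div_mul_div_comm, ← map_mul, ← map_mul,
    meroOrd_div τ (mul_ne_zero hA hC) (mul_ne_zero hB' hD'), meroOrd_div τ hA hB',
    meroOrd_div τ hC hD', MulMemClass.coe_mul, MulMemClass.coe_mul,
    ordAt_mul A.2 C.2 (hc hA) (hc hC), ordAt_mul B.2 D.2 (hc hB') (hc hD')]
  push_cast
  ring

theorem meroOrd_add (τ : ℍ) {x y : Mero} (hx : x ≠ 0) (hy : y ≠ 0) (hxy : x + y ≠ 0) :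
    min (meroOrd τ x) (meroOrd τ y) ≤ meroOrd τ (x + y) := by
  obtain ⟨A, B, hB, rfl⟩ := IsFractionRing.div_surjective (A := Hol) x
  obtain ⟨C, D, hD, rfl⟩ := IsFractionRing.div_surjective (A := Hol) y
  have hA : A ≠ 0 := fun h => hx (by simp [h])
  have hC : C ≠ 0 := fun h => hy (by simp [h])
  have hB' : B ≠ 0 := nonZeroDivisors.ne_zero hB
  have hD' : D ≠ 0 := nonZeroDivisors.ne_zero hD
  have hc : ∀ {K : Hol}, K ≠ 0 → (K : ℍ → ℂ) ≠ 0 := fun hK h' => hK (Subtype.ext h')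
  have hsum : algebraMap Hol Mero A / algebraMap Hol Mero B +
      algebraMap Hol Mero C / algebraMap Hol Mero D =
      algebraMap Hol Mero (A * D + B * C) / algebraMap Hol Mero (B * D) := by
    rw [div_add_div _ _ (by simpa using hB') (by simpa using hD'), map_add, map_mul, map_mul,
      map_mul]
  rw [hsum] at hxy ⊢
  have hS : A * D + B * C ≠ 0 := fun h => hxy (by rw [h, map_zero, zero_div])
  have hmin := ordAt_add_le (A * D).2 (B * C).2 (hc (mul_ne_zero hA hD'))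
    (hc (mul_ne_zero hB' hC)) (fun h => hS (Subtype.ext h)) τ
  rw [meroOrd_div τ hS (mul_ne_zero hB' hD'), meroOrd_div τ hA hB', meroOrd_div τ hC hD']
  simp only [MulMemClass.coe_mul, AddMemClass.coe_add] at hmin ⊢
  rw [ordAt_mul A.2 D.2 (hc hA) (hc hD'), ordAt_mul B.2 C.2 (hc hB') (hc hC)] at hmin
  rw [ordAt_mul B.2 D.2 (hc hB') (hc hD')]
  omega

theorem meroOrd_algebraMap_const (τ : ℍ) (c : ℂ) : meroOrd τ (algebraMap ℂ Mero c) = 0 := by
  rcases eq_or_ne c 0 with rfl | hc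
  · simp [meroOrd]
  have h1 : algebraMap ℂ Mero c =
      algebraMap Hol Mero (algebraMap ℂ Hol c) / algebraMap Hol Mero 1 := by
    rw [map_one, div_one, ← IsScalarTower.algebraMap_apply]
  have hne : algebraMap ℂ Hol c ≠ 0 := by simpa using hc
  rw [h1, meroOrd_div τ hne one_ne_zero]
  have e1 : ordAt τ ((algebraMap ℂ Hol c : Hol) : ℍ → ℂ) = 0 :=
    (ordAt_eq_zero_iff (algebraMap ℂ Hol c).2 (fun h => hne (Subtype.ext h)) τ).mpr hc
  have e2 : ordAt τ ((1 : Hol) : ℍ → ℂ) = 0 :=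
    (ordAt_eq_zero_iff (1 : Hol).2 (fun h => one_ne_zero (Subtype.ext h)) τ).mpr one_ne_zero
  rw [e1, e2]
  simp

theorem meroOrd_meroSmul (τ : ℍ) (g : GL(2, ℝ)⁺) (x : Mero) :
    meroOrd τ (meroSmul g x) = meroOrd ((g : GL (Fin 2) ℝ) • τ) x := by
  rcases eq_or_ne x 0 with rfl | hx
  · simp [meroOrd]
  obtain ⟨A, B, hB, rfl⟩ := IsFractionRing.div_surjective (A := Hol) x
  have hA : A ≠ 0 := fun h => hx (by simp [h])
  have hB' : B ≠ 0 := nonZeroDivisors.ne_zero hB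
  have hA' : holSmulEquiv g A ≠ 0 := by simpa using hA
  have hB'' : holSmulEquiv g B ≠ 0 := by simpa using hB'
  rw [map_div₀, meroSmul_algebraMap, meroSmul_algebraMap, meroOrd_div τ hA' hB'',
    meroOrd_div _ hA hB', ← ordAt_comp_smul A.2, ← ordAt_comp_smul B.2]
  rfl

/-- A meromorphic function without poles is holomorphic. -/
theorem exists_algebraMap_eq_of_meroOrd_nonneg {x : Mero} (h : ∀ τ, 0 ≤ meroOrd τ x) :
    ∃ F : Hol, algebraMap Hol Mero F = x := by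
  rcases eq_or_ne x 0 with rfl | hx
  · exact ⟨0, map_zero _⟩
  obtain ⟨A, B, hB, rfl⟩ := IsFractionRing.div_surjective (A := Hol) x
  have hA : A ≠ 0 := fun h => hx (by simp [h])
  have hB' : B ≠ 0 := nonZeroDivisors.ne_zero hB
  obtain ⟨Q, hQ, hQB⟩ := exists_mul_eq_of_ordAt_le A.2 B.2 (fun h => hB' (Subtype.ext h))
    (Or.inr fun τ => by
      have := h τ
      rw [meroOrd_div τ hA hB'] at this
      omega)
  refine ⟨⟨Q, hQ⟩, ?_⟩
  rw [eq_div_iff (by simpa using hB'), ← map_mul]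
  exact congrArg _ (Subtype.ext hQB)

end FLTA.Bridge
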