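import Fermat.Agent.Bridge.Cosets
import Fermat.Prelude.Def_ModularCurve_LaurentCoeff

/-!
# Relations between `j (τ)` and `j (d τ)` over a subfield of `ℂ`

The analytic facts of `Bridge/Cosets` are moved to a field `L ⊆ ℂ` by applying an `L`-linear
functional `ℂ → L` to the coefficients of the `q`-expansions.
-/

set_option autoImplicit false

noncomputable section

open scoped Manifold MatrixGroups Topology Polynomial
open UpperHalfPlane hiding I
open Complex Filter CongruenceSubgroup ModularCurve

namespace FLTA.Bridge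

variable (N : ℕ) [NeZero N]

/-- `j (d τ)` as a Laurent series over `L`. -/
def jSer (L : Type*) [Field L] [Algebra ℚ L] (d : ℕ) [NeZero d] : LaurentSeries L :=
  coeffEmb L (qExpand ℚ d jq)

/-- Evaluation of a polynomial in two variables at `(j (τ), j (N τ))`, as Laurent series. -/
def evalSer (L : Type*) [Field L] [Algebra ℚ L] :
    Polynomial (Polynomial L) →+* LaurentSeries L :=
  Polynomial.eval₂RingHom (Polynomial.eval₂RingHom (algebraMap L (LaurentSeries L)) (jSer L 1))
    (jSer L N)

variable {N}

theorem qexp_evalJ (P : Polynomial (Polynomial ℂ)) :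
    qexp N (evalJ N (jAt N N dvd_rfl) P) = evalSer N ℂ P := by
  have h : (qexp N).toRingHom.comp (evalJ N (jAt N N dvd_rfl)) = evalSer N ℂ := by
    refine Polynomial.ringHom_ext (fun p => ?_) ?_
    · have h' : (qexp N).toRingHom.comp
          (Polynomial.aeval (jMod N) : Polynomial ℂ →ₐ[ℂ] ModHol N).toRingHom =
          Polynomial.eval₂RingHom (algebraMap ℂ (LaurentSeries ℂ)) (jSer ℂ 1) := by
        refine Polynomial.ringHom_ext (fun c => ?_) ?_
        · simp
        · simp [jSer, qexp_jMod, qExpand_one_apply]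
      have := RingHom.congr_fun h' p
      simpa [evalJ, evalSer] using this
    · simp [evalJ, evalSer, qexp_jAt, jSer]
  exact RingHom.congr_fun h P

variable {L : Type*} [Field L] [Algebra ℚ L] (ι : L →+* ℂ)

theorem coeffMap_jSer (d : ℕ) [NeZero d] : coeffMap ι (jSer L d) = jSer ℂ d := by
  rw [jSer, jSer, coeffEmb, coeffEmb, coeffMap_coeffMap]
  exact coeffMap_congr (Subsingleton.elim _ _) _

omit [Algebra ℚ L] in
theorem coeffMap_algebraMap_series (c : L) :
    coeffMap ι (algebraMap L (LaurentSeries L) c) = algebraMap ℂ (LaurentSeries ℂ) (ι c) := by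
  rw [algebraMap_laurentSeries_eq_single, algebraMap_laurentSeries_eq_single, coeffMap_single]

theorem coeffMap_evalSer (P : Polynomial (Polynomial L)) :
    coeffMap ι (evalSer N L P) = evalSer N ℂ (P.map (Polynomial.mapRingHom ι)) := by
  have h : (coeffMap ι).comp (evalSer N L) =
      (evalSer N ℂ).comp (Polynomial.mapRingHom (Polynomial.mapRingHom ι)) := by
    refine Polynomial.ringHom_ext (fun p => ?_) ?_
    · have h' : (coeffMap ι).comp
          (Polynomial.eval₂RingHom (algebraMap L (LaurentSeries L)) (jSer L 1)) =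
          (Polynomial.eval₂RingHom (algebraMap ℂ (LaurentSeries ℂ)) (jSer ℂ 1)).comp
            (Polynomial.mapRingHom ι) := by
        refine Polynomial.ringHom_ext (fun c => ?_) ?_
        · simp [coeffMap_algebraMap_series]
        · simp [coeffMap_jSer]
      have := RingHom.congr_fun h' p
      simpa [evalSer] using this
    · simp [evalSer, coeffMap_jSer]
  exact RingHom.congr_fun h P

/-- No relation of degree `< ψ(N)` in `j (N τ)` over `L[j]`. -/
theorem eq_zero_of_evalSer_eq_zero {P : Polynomial (Polynomial L)}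
    (hdeg : P.natDegree < dedekindPsi N) (ι : L →+* ℂ) (h : evalSer N L P = 0) : P = 0 := by
  have h1 : evalJ N (jAt N N dvd_rfl) (P.map (Polynomial.mapRingHom ι)) = 0 := by
    apply qexp_injective N
    rw [map_zero, qexp_evalJ, ← coeffMap_evalSer, h, map_zero]
  have h2 := eq_zero_of_evalJ_jAt_eq_zero N (lt_of_le_of_lt Polynomial.natDegree_map_le hdeg) h1
  exact (Polynomial.map_eq_zero_iff
    (Polynomial.map_injective ι ι.injective)).mp h2

section Functional

variable (r : ℂ →+ L) (hr : ∀ (a : L) (c : ℂ), r (ι a * c) = a * r c)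

/-- Apply a functional to all coefficients. -/
def serMap : LaurentSeries ℂ →+ LaurentSeries L where
  toFun z := z.map r
  map_zero' := by ext k; simp
  map_add' x y := by ext k; simp

omit [Algebra ℚ L] in
theorem serMap_coeff (z : LaurentSeries ℂ) (k : ℤ) : (serMap r z).coeff k = r (z.coeff k) := rfl

/-- Apply a functional to the coefficients of a polynomial. -/
def polyMap (P : Polynomial (Polynomial ℂ)) : Polynomial (Polynomial L) :=
  P.sum fun b p => Polynomial.monomial b (p.sum fun a c => Polynomial.monomial a (r c))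

omit [Algebra ℚ L] in
theorem coeff_coeff_polyMap (P : Polynomial (Polynomial ℂ)) (b a : ℕ) :
    ((polyMap r P).coeff b).coeff a = r ((P.coeff b).coeff a) := by
  classical
  simp only [polyMap, Polynomial.sum_def, Polynomial.finsetSum_coeff, Polynomial.coeff_monomial,
    Finset.sum_ite_eq', Polynomial.mem_support_iff]
  by_cases hb : P.coeff b = 0
  · simp [hb]
  · simp only [if_pos hb, Polynomial.finsetSum_coeff, Polynomial.coeff_monomial,
      Finset.sum_ite_eq', Polynomial.mem_support_iff]
    by_cases ha : (P.coeff b).coeff a = 0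
    · simp [ha]
    · simp [ha]

omit [Algebra ℚ L] in
theorem polyMap_add (P Q : Polynomial (Polynomial ℂ)) :
    polyMap r (P + Q) = polyMap r P + polyMap r Q := by
  ext b a
  simp [coeff_coeff_polyMap]

omit [Algebra ℚ L] in
theorem polyMap_monomial (b a : ℕ) (c : ℂ) :
    polyMap r (Polynomial.monomial b (Polynomial.monomial a c)) =
      Polynomial.monomial b (Polynomial.monomial a (r c)) := by
  ext b' a'
  rw [coeff_coeff_polyMap, Polynomial.coeff_monomial, Polynomial.coeff_monomial]
  split_ifs
  · rw [Polynomial.coeff_monomial, Polynomial.coeff_monomial]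
    split_ifs <;> simp
  · simp

omit [Algebra ℚ L] in
theorem natDegree_polyMap_le (P : Polynomial (Polynomial ℂ)) :
    (polyMap r P).natDegree ≤ P.natDegree := by
  refine Polynomial.natDegree_le_iff_coeff_eq_zero.mpr fun b hb => ?_
  ext a
  rw [coeff_coeff_polyMap, Polynomial.coeff_eq_zero_of_natDegree_lt hb]
  simp

omit [Algebra ℚ L] in
include hr in
theorem serMap_coeffMap_mul (y : LaurentSeries L) (c : ℂ) :
    serMap r (coeffMap ι y * algebraMap ℂ (LaurentSeries ℂ) c) =
      y * algebraMap L (LaurentSeries L) (r c) := by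
  ext k
  rw [serMap_coeff, algebraMap_laurentSeries_eq_single, algebraMap_laurentSeries_eq_single,
    HahnSeries.coeff_mul_single_zero, HahnSeries.coeff_mul_single_zero, coeffMap_coeff, hr]

include hr in
theorem serMap_mul_evalSer (x : LaurentSeries L) (P : Polynomial (Polynomial ℂ)) :
    serMap r (coeffMap ι x * evalSer N ℂ P) = x * evalSer N L (polyMap r P) := by
  induction P using Polynomial.induction_on' with
  | add P Q hP hQ => rw [map_add, mul_add, map_add, hP, hQ, polyMap_add, map_add, mul_add]
  | monomial b p =>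
    induction p using Polynomial.induction_on' with
    | add p q hp hq =>
      rw [map_add, map_add, mul_add, map_add, hp, hq, polyMap_add, map_add, mul_add]
    | monomial a c =>
      rw [polyMap_monomial]
      simp only [evalSer, Polynomial.coe_eval₂RingHom, Polynomial.eval₂_monomial]
      rw [show coeffMap ι x * (algebraMap ℂ (LaurentSeries ℂ) c * jSer ℂ 1 ^ a * jSer ℂ N ^ b) =
          coeffMap ι (x * (jSer L 1 ^ a * jSer L N ^ b)) * algebraMap ℂ (LaurentSeries ℂ) c by
        simp only [map_mul, map_pow, coeffMap_jSer]; ring]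
      rw [serMap_coeffMap_mul ι r hr]
      ring

end Functional

omit [Algebra ℚ L] in
/-- A functional `ℂ → L` sending a given nonzero number to `1`. -/
theorem exists_functional {c₀ : ℂ} (hc : c₀ ≠ 0) :
    ∃ r : ℂ →+ L, (∀ (a : L) (c : ℂ), r (ι a * c) = a * r c) ∧ r c₀ = 1 := by
  let _ : Algebra L ℂ := ι.toAlgebra
  obtain ⟨f, hf⟩ := Module.Projective.exists_dual_ne_zero L hc
  refine ⟨((f c₀)⁻¹ • f).toAddMonoidHom, fun a c => ?_, inv_mul_cancel₀ hf⟩
  show (f c₀)⁻¹ * f (ι a * c) = a * ((f c₀)⁻¹ * f c)
  rw [show ι a * c = a • c from rfl, map_smul, smul_eq_mul]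
  ring

/-- A monic relation of degree `ψ(N)` between `j` and `j (N τ)` over `L`. -/
theorem exists_monic_evalSer_eq_zero (ι : L →+* ℂ) :
    ∃ P : Polynomial (Polynomial L),
      P.Monic ∧ P.natDegree = dedekindPsi N ∧ evalSer N L P = 0 := by
  obtain ⟨P, hm, hd, hP⟩ := exists_monic_aeval_eq_zero N (jAt N N dvd_rfl)
  obtain ⟨r, hr, hr1⟩ := exists_functional ι (one_ne_zero (α := ℂ))
  have hlead : (polyMap r P).coeff (dedekindPsi N) = 1 := by
    ext a
    rw [coeff_coeff_polyMap, ← hd, hm.coeff_natDegree, Polynomial.coeff_one, Polynomial.coeff_one]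
    split_ifs
    · exact hr1
    · exact map_zero r
  have hle : (polyMap r P).natDegree ≤ dedekindPsi N := hd ▸ natDegree_polyMap_le r P
  refine ⟨polyMap r P, Polynomial.monic_of_natDegree_le_of_coeff_eq_one _ hle hlead,
    le_antisymm hle (Polynomial.le_natDegree_of_ne_zero (by simp [hlead])), ?_⟩
  have h := serMap_mul_evalSer (N := N) ι r hr 1 P
  rwa [← qexp_evalJ, hP, map_zero, mul_zero, map_zero, one_mul, eq_comm] at h

/-- `j (d τ)` is a quotient of polynomials in `j` and `j (N τ)` over `L`. -/
theorem exists_jSer_mul_evalSer (ι : L →+* ℂ) {d : ℕ} [NeZero d] (hd : d ∣ N) :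
    ∃ D Q : Polynomial (Polynomial L),
      evalSer N L D ≠ 0 ∧ jSer L d * evalSer N L D = evalSer N L Q := by
  obtain ⟨D₀, hD₀, hF⟩ := exists_mul_eq_evalJ N
  obtain ⟨D, hDdeg, hD⟩ := hF 1
  obtain ⟨Q, -, hQ⟩ := hF (jAt N d hd)
  rw [one_mul] at hD
  rw [hD] at hD₀ hQ
  have hD0 : D ≠ 0 := by
    rintro rfl
    exact hD₀ (map_zero _)
  obtain ⟨b, hb⟩ : ∃ b, D.coeff b ≠ 0 :=
    ⟨D.natDegree, Polynomial.leadingCoeff_ne_zero.mpr hD0⟩
  obtain ⟨a, ha⟩ : ∃ a, (D.coeff b).coeff a ≠ 0 :=
    ⟨(D.coeff b).natDegree, Polynomial.leadingCoeff_ne_zero.mpr hb⟩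
  obtain ⟨r, hr, hr1⟩ := exists_functional ι ha
  refine ⟨polyMap r D, polyMap r Q, fun h => ?_, ?_⟩
  · have h1 := eq_zero_of_evalSer_eq_zero ((natDegree_polyMap_le r D).trans_lt hDdeg) ι h
    have h2 := coeff_coeff_polyMap r D b a
    rw [h1, hr1] at h2
    simp at h2
  · have h := congrArg (fun z => serMap r (qexp N z)) hQ
    simp only [map_mul, qexp_evalJ, qexp_jAt] at h
    rw [show coeffEmb ℂ (qExpand ℚ d jq) = coeffMap ι (jSer L d) from (coeffMap_jSer ι d).symm,
      serMap_mul_evalSer ι r hr] at h
    rw [h]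
    have h1 := serMap_mul_evalSer (N := N) ι r hr 1 Q
    rwa [map_one, one_mul, one_mul] at h1

/-- `j` is transcendental over the constants. -/
theorem transcendental_jSer_one (L : Type*) [Field L] [Algebra ℚ L] :
    Transcendental L (jSer L 1) := by
  rintro ⟨p, hp0, hp⟩
  refine hp0 (Polynomial.leadingCoeff_eq_zero.mp ?_)
  have h := congrArg (fun z : LaurentSeries L => z.coeff (-(p.natDegree : ℤ))) hp
  rw [Polynomial.aeval_eq_sum_range] at h
  simp only [HahnSeries.coeff_sum, Algebra.smul_def, algebraMap_laurentSeries_eq_single,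
    HahnSeries.coeff_single_zero_mul, jSer, qExpand_one_apply, ← map_pow, coeffEmb_coeff,
    HahnSeries.coeff_zero] at h
  rw [Finset.sum_eq_single p.natDegree (fun k hk hkn => ?_) (fun h' => absurd (by simp) h')] at h
  · simpa [coeff_jq_pow_self] using h
  · rw [coeff_jq_pow_of_lt (by
      have := Nat.lt_succ_iff.mp (Finset.mem_range.mp hk)
      omega), map_zero, mul_zero]

end FLTA.Bridge
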