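import Fermat.Agent.Bridge.Field
import Fermat.Agent.Bridge.Cosets
import Fermat.Agent.Bridge.DegreeCore
import Fermat.Prelude.Def_AlgebraicCurve_IsCurveOver

/-!
# The degree of the `j`-line map of `X₀(N)` and the action of the cosets
-/

set_option autoImplicit false

noncomputable section

open scoped Manifold MatrixGroups Topology Polynomial
open UpperHalfPlane hiding I
open Complex Filter CongruenceSubgroup ModularCurve IntermediateField

namespace FLTA.Bridge

set_option synthInstance.maxHeartbeats 200000

variable (N : ℕ) [NeZero N]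

variable (L : Type*) [Field L] [Algebra ℚ L] (ι : L →+* ℂ)

local notation "FN" => laurentBaseChange L (modularFunctionFieldFull N)

/-- `j` in the function field. -/
abbrev jF : laurentBaseChange L (modularFunctionFieldFull N) := jElt N L (one_dvd N)

/-- `j (N τ)` in the function field. -/
abbrev jNF : laurentBaseChange L (modularFunctionFieldFull N) := jElt N L (dvd_refl N)

omit [NeZero N] in
theorem transcendental_jF : Transcendental L (jF N L) := fun h =>
  transcendental_jSer_one L (h.algHom (laurentBaseChange L (modularFunctionFieldFull N)).val)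

theorem evalSer_mem {M : IntermediateField L (LaurentSeries L)} (h1 : jSer L 1 ∈ M)
    (hN : jSer L N ∈ M) (P : Polynomial (Polynomial L)) : evalSer N L P ∈ M := by
  induction P using Polynomial.induction_on' with
  | add P Q hP hQ => rw [map_add]; exact add_mem hP hQ
  | monomial b p =>
    simp only [evalSer, Polynomial.coe_eval₂RingHom, Polynomial.eval₂_monomial]
    refine mul_mem ?_ (pow_mem hN b)
    induction p using Polynomial.induction_on' with
    | add p q hp hq => rw [Polynomial.eval₂_add]; exact add_mem hp hq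
    | monomial a c =>
      rw [Polynomial.eval₂_monomial]
      exact mul_mem (M.algebraMap_mem c) (pow_mem h1 a)

include ι in
theorem laurentBaseChange_le_adjoin :
    laurentBaseChange L (modularFunctionFieldFull N) ≤
      IntermediateField.adjoin L {jSer L 1, jSer L N} := by
  intro x hx
  have h := mem_adjoin_pair_of_coeffMap_mem_fieldC N ι (coeffMap_mem_fieldC N ι hx)
  rwa [pairSeries, show coeffEmb L jq = jSer L 1 by rw [jSer, qExpand_one_apply]] at h

include ι in
theorem adjoin_jF_jNF_eq_top :
    IntermediateField.adjoin L {jF N L, jNF N L} =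
      (⊤ : IntermediateField L (laurentBaseChange L (modularFunctionFieldFull N))) := by
  apply IntermediateField.lift_injective
  rw [IntermediateField.lift_adjoin, IntermediateField.lift_top, Set.image_pair]
  refine le_antisymm ?_ (laurentBaseChange_le_adjoin N L ι)
  rw [IntermediateField.adjoin_le_iff]
  rintro _ (rfl | rfl)
  exacts [(jF N L).2, (jNF N L).2]

theorem natDegree_minpoly_of_relation {L E : Type*} [Field L] [Field E] [Algebra L E] {g x : E}
    {n : ℕ} {ev : Polynomial (Polynomial L) →+* E}
    (hev : ∀ P, ev P = Polynomial.eval₂ (Polynomial.aeval g : Polynomial L →ₐ[L] E).toRingHom x P)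
    (hex : ∃ P : Polynomial (Polynomial L), P.Monic ∧ P.natDegree = n ∧ ev P = 0)
    (hno : ∀ P : Polynomial (Polynomial L), P.natDegree < n → ev P = 0 → P = 0) :
    IsIntegral L⟮g⟯ x ∧ (minpoly L⟮g⟯ x).natDegree = n := by
  classical
  let g' : L⟮g⟯ := ⟨g, IntermediateField.mem_adjoin_simple_self L _⟩
  let φ : Polynomial L →ₐ[L] L⟮g⟯ := Polynomial.aeval g'
  have hval : ∀ q : Polynomial L, ((φ q : L⟮g⟯) : E) = Polynomial.aeval g q := fun q =>
    (Polynomial.aeval_algHom_apply L⟮g⟯.val g' q).symm
  have hcomp : ∀ P : Polynomial (Polynomial L),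
      Polynomial.aeval x (P.map φ.toRingHom) = ev P := by
    intro P
    rw [Polynomial.aeval_def, Polynomial.eval₂_map, hev]
    congr 1
    exact RingHom.ext fun q => hval q
  obtain ⟨P, hm, hd, hP⟩ := hex
  have hm' : (P.map φ.toRingHom).Monic := hm.map _
  have h0 : Polynomial.aeval x (P.map φ.toRingHom) = 0 := (hcomp P).trans hP
  have hint : IsIntegral L⟮g⟯ x := ⟨_, hm', h0⟩
  refine ⟨hint, le_antisymm ?_ ?_⟩
  · refine (Polynomial.natDegree_le_natDegree (minpoly.min L⟮g⟯ _ hm' h0)).trans ?_
    rw [hm.natDegree_map, hd]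
  -- no smaller relation: clear denominators
  by_contra hlt
  push Not at hlt
  set m := minpoly L⟮g⟯ x
  have hrep : ∀ c : L⟮g⟯, ∃ r s : Polynomial L, φ s ≠ 0 ∧ c * φ s = φ r := by
    intro c
    obtain ⟨r, s, hrs⟩ := (IntermediateField.mem_adjoin_simple_iff L _).mp c.2
    by_cases hs : Polynomial.aeval g s = 0
    · refine ⟨0, 1, by simp, Subtype.ext ?_⟩
      simp [hrs, hs]
    · refine ⟨r, s, fun h => hs (by rw [← hval, h]; rfl), Subtype.ext ?_⟩
      show (c : E) * (φ s : E) = (φ r : E)
      rw [hval, hval, hrs, div_mul_cancel₀ _ hs]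
  choose r s hs hrs using hrep
  let k := m.natDegree
  let S : Polynomial L := ∏ b ∈ Finset.range (k + 1), s (m.coeff b)
  let R : Polynomial (Polynomial L) := ∑ b ∈ Finset.range (k + 1),
    Polynomial.monomial b (r (m.coeff b) *
      ∏ b' ∈ (Finset.range (k + 1)).erase b, s (m.coeff b'))
  have hmap : R.map φ.toRingHom = Polynomial.C (φ S) * m := by
    conv_rhs => rw [Polynomial.as_sum_range' m (k + 1) (Nat.lt_succ_self k), Finset.mul_sum]
    rw [Polynomial.map_sum]
    refine Finset.sum_congr rfl fun b hb => ?_
    rw [Polynomial.map_monomial, Polynomial.C_mul_monomial, AlgHom.toRingHom_eq_coe,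
      RingHom.coe_coe, map_mul, ← hrs]
    congr 1
    rw [show S = _ from (Finset.mul_prod_erase _ (fun b => s (m.coeff b)) hb).symm, map_mul]
    ring
  have hR0 : R = 0 := by
    refine hno R ?_ ?_
    · refine lt_of_le_of_lt (Polynomial.natDegree_sum_le_of_forall_le _ _ fun b hb => ?_) hlt
      exact (Polynomial.natDegree_monomial_le _).trans (Nat.lt_succ_iff.mp (Finset.mem_range.mp hb))
    · rw [← hcomp, hmap, map_mul, minpoly.aeval, mul_zero]
  rw [hR0, Polynomial.map_zero] at hmap
  rcases mul_eq_zero.mp hmap.symm with hS | hm0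
  · rw [Polynomial.C_eq_zero, map_prod] at hS
    obtain ⟨b, -, hb⟩ := Finset.prod_eq_zero_iff.mp hS
    exact hs _ hb
  · exact minpoly.ne_zero hint hm0

include ι in
theorem minpoly_jNF :
    IsIntegral L⟮jF N L⟯ (jNF N L) ∧
      (minpoly L⟮jF N L⟯ (jNF N L)).natDegree = dedekindPsi N := by
  let ev : Polynomial (Polynomial L) →+* laurentBaseChange L (modularFunctionFieldFull N) :=
    Polynomial.eval₂RingHom (Polynomial.aeval (jF N L) : Polynomial L →ₐ[L] _).toRingHom (jNF N L)
  have hev : ∀ P, ((ev P : laurentBaseChange L (modularFunctionFieldFull N)) : LaurentSeries L) =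
      evalSer N L P := by
    intro P
    have h : (laurentBaseChange L (modularFunctionFieldFull N)).val.toRingHom.comp ev =
        evalSer N L := by
      refine Polynomial.ringHom_ext (fun p => ?_) ?_
      · simp only [evalSer, ev, RingHom.comp_apply, Polynomial.coe_eval₂RingHom, Polynomial.eval₂_C,
          AlgHom.toRingHom_eq_coe, RingHom.coe_coe]
        exact (Polynomial.aeval_algHom_apply
          (laurentBaseChange L (modularFunctionFieldFull N)).val (jF N L) p).symm
      · simp [evalSer, ev, jNF, jElt, jSer]
    exact RingHom.congr_fun h P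
  refine natDegree_minpoly_of_relation (ev := ev) (fun P => rfl) ?_ ?_
  · obtain ⟨P, hm, hd, hP⟩ := exists_monic_evalSer_eq_zero (N := N) ι
    exact ⟨P, hm, hd, Subtype.ext ((hev P).trans hP)⟩
  · intro P hd h
    refine eq_zero_of_evalSer_eq_zero hd ι ?_
    rw [← hev, h]
    rfl

include ι in
theorem adjoin_simple_jNF_eq_top :
    IntermediateField.adjoin L⟮jF N L⟯ {jNF N L} =
      (⊤ : IntermediateField L⟮jF N L⟯ (laurentBaseChange L (modularFunctionFieldFull N))) := by
  apply IntermediateField.restrictScalars_injective L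
  rw [IntermediateField.adjoin_adjoin_left, Set.singleton_union, IntermediateField.restrictScalars_top]
  exact adjoin_jF_jNF_eq_top N L ι

include ι in
theorem finrank_adjoin_jF :
    Module.finrank L⟮jF N L⟯ (laurentBaseChange L (modularFunctionFieldFull N)) =
      dedekindPsi N := by
  obtain ⟨hint, hdeg⟩ := minpoly_jNF N L ι
  rw [← hdeg, ← IntermediateField.adjoin.finrank hint, adjoin_simple_jNF_eq_top N L ι,
    IntermediateField.finrank_top']

include ι in
theorem finite_adjoin_jF :
    Module.Finite L⟮jF N L⟯ (laurentBaseChange L (modularFunctionFieldFull N)) := by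
  have h := finrank_adjoin_jF N L ι
  refine Module.finite_of_finrank_pos ?_
  rw [h, ← index_Gamma0_eq_dedekindPsi]
  exact Nat.pos_of_ne_zero Subgroup.FiniteIndex.index_ne_zero

end FLTA.Bridge
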