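import Mathlib.NumberTheory.ModularForms.LevelOne.GradedRing
import Mathlib.Analysis.Complex.CauchyIntegral

/-!
# The modular invariant `j = E₄³ / Δ` on the upper half plane
-/

set_option autoImplicit false

noncomputable section

open UpperHalfPlane ModularForm EisensteinSeries Function
open scoped MatrixGroups Manifold Topology

namespace FLTA.Bridge

/-- The modular invariant `j` as a function on the upper half plane. -/
def jInv (τ : ℍ) : ℂ := E₄ τ ^ 3 / ModularForm.discriminant τ

/-- The modular invariant as a function on `ℂ` (junk outside the upper half plane). -/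
def jFun : ℂ → ℂ := jInv ∘ ofComplex

@[simp] theorem jFun_coe (τ : ℍ) : jFun (τ : ℂ) = jInv τ := by
  simp [jFun, ofComplex_apply]

theorem mdifferentiable_jInv : MDiff jInv := by
  rw [UpperHalfPlane.mdifferentiable_iff]
  have h4 := UpperHalfPlane.mdifferentiable_iff.mp (ModularFormClass.holo E₄)
  have hD := UpperHalfPlane.mdifferentiable_iff.mp (ModularFormClass.holo CuspForm.discriminant)
  exact (h4.pow 3).div hD fun z _ => ModularForm.discriminant_ne_zero _

theorem analyticOnNhd_jFun : AnalyticOnNhd ℂ jFun upperHalfPlaneSet :=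
  (UpperHalfPlane.mdifferentiable_iff.mp mdifferentiable_jInv).analyticOnNhd
    isOpen_upperHalfPlaneSet

theorem analyticAt_jFun {z : ℂ} (hz : 0 < z.im) : AnalyticAt ℂ jFun z :=
  analyticOnNhd_jFun z hz

theorem jInv_smul (g : SL(2, ℤ)) (τ : ℍ) : jInv (g • τ) = jInv τ := by
  have h4 : (⇑E₄) ∣[(4 : ℤ)] g = ⇑E₄ := SlashInvariantFormClass.slash_action_eq E₄ _ ⟨g, rfl⟩
  have hD : (⇑CuspForm.discriminant) ∣[(12 : ℤ)] g = ⇑CuspForm.discriminant :=
    SlashInvariantFormClass.slash_action_eq CuspForm.discriminant _ ⟨g, rfl⟩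
  have h4' := congrFun h4 τ
  have hD' := congrFun hD τ
  rw [SL_slash_apply] at h4' hD'
  rw [CuspForm.coe_discriminant] at hD'
  simp only [jInv, ← h4', ← hD']
  rw [mul_pow, ← zpow_natCast (denom _ _ ^ (-4 : ℤ)) 3, ← zpow_mul]
  norm_num
  rw [mul_div_mul_right]
  exact inv_ne_zero (pow_ne_zero _ (denom_ne_zero _ τ))

theorem periodic_jFun : Periodic jFun 1 := by
  intro z
  by_cases hz : 0 < z.im
  · have h1 : 0 < (z + 1).im := by simpa using hz
    simp only [jFun, comp_apply, ofComplex_apply_of_im_pos hz, ofComplex_apply_of_im_pos h1]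
    rw [← jInv_smul ModularGroup.T ⟨z, hz⟩]
    congr 1
    rw [UpperHalfPlane.modular_T_smul]
    ext1
    simp [UpperHalfPlane.coe_vadd]
    ring
  · have h1 : ¬ 0 < (z + 1).im := by simpa using hz
    simp only [not_lt] at hz h1
    simp [jFun, ofComplex_apply_of_im_nonpos hz, ofComplex_apply_of_im_nonpos h1]

end FLTA.Bridge
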