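import Fermat.Agent.Bridge.JBasic
import Mathlib.Analysis.SpecialFunctions.Elliptic.Weierstrass
import Mathlib.Analysis.Complex.Polynomial.Basic

/-!
# `j` separates `SL(2, ℤ)`-orbits

If two lattices have equal invariants `g₂, g₃`, their `℘`-functions agree near `0` (compare the
differential equations), hence everywhere, hence the lattices have the same poles, so are equal.
-/

set_option autoImplicit false

noncomputable section

open UpperHalfPlane ModularForm EisensteinSeries Function Filter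
open scoped MatrixGroups Manifold Topology PeriodPair

namespace FLTA.Bridge

/-- Two lattices with the same `g₂` and `g₃` have `℘`-functions agreeing near the origin. -/
theorem weierstrassP_eventuallyEq_of_invariants_eq (L L' : PeriodPair) (h₂ : L.g₂ = L'.g₂)
    (h₃ : L.g₃ = L'.g₃) : ℘[L] =ᶠ[𝓝[≠] (0 : ℂ)] ℘[L'] := by
  set a := ℘[L - (0 : ℂ)] with ha_def
  set b := ℘[L' - (0 : ℂ)] with hb_def
  set a' := ℘'[L - (0 : ℂ)] with ha'_def
  set b' := ℘'[L' - (0 : ℂ)] with hb'_def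
  have haA : AnalyticAt ℂ a 0 := L.analyticAt_weierstrassPExcept 0
  have hbA : AnalyticAt ℂ b 0 := L'.analyticAt_weierstrassPExcept 0
  have ha'A : AnalyticAt ℂ a' 0 := L.analyticAt_derivWeierstrassPExcept 0
  have hb'A : AnalyticAt ℂ b' 0 := L'.analyticAt_derivWeierstrassPExcept 0
  have hnear : ∀ᶠ z in 𝓝[≠] (0 : ℂ), z ∉ L.lattice ∧ z ∉ L'.lattice ∧ z ≠ 0 := by
    filter_upwards [self_mem_nhdsWithin,
      mem_nhdsWithin_of_mem_nhds (L.compl_lattice_sdiff_singleton_mem_nhds 0),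
      mem_nhdsWithin_of_mem_nhds (L'.compl_lattice_sdiff_singleton_mem_nhds 0)] with z hz h h'
    exact ⟨by simp_all, by simp_all, hz⟩
  have hP : ∀ᶠ z in 𝓝[≠] (0 : ℂ), ℘[L] z = a z + 1 / z ^ 2 ∧ ℘[L'] z = b z + 1 / z ^ 2
      ∧ ℘'[L] z = a' z - 2 / z ^ 3 ∧ ℘'[L'] z = b' z - 2 / z ^ 3 := by
    filter_upwards with z
    refine ⟨?_, ?_, ?_, ?_⟩
    · rw [← L.weierstrassPExcept_add 0 z]; simp [ha_def]
    · rw [← L'.weierstrassPExcept_add 0 z]; simp [hb_def]
    · rw [← L.derivWeierstrassPExcept_sub 0 z]; simp [ha'_def]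
    · rw [← L'.derivWeierstrassPExcept_sub 0 z]; simp [hb'_def]
  have hu : (fun z => a z - b z) =ᶠ[𝓝 (0 : ℂ)] 0 := by
    by_contra hne
    have huA : AnalyticAt ℂ (fun z => a z - b z) 0 := haA.sub hbA
    have htop : analyticOrderAt (fun z => a z - b z) 0 ≠ ⊤ := fun h =>
      hne (analyticOrderAt_eq_top.mp h)
    obtain ⟨n, hn⟩ := ENat.ne_top_iff_exists.mp htop
    obtain ⟨v, hvA, hv0, hv⟩ := (huA.analyticOrderAt_eq_natCast).mp hn.symm
    simp only [sub_zero, smul_eq_mul] at hv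
    have hderiv : ∀ᶠ z in 𝓝[≠] (0 : ℂ),
        z * (a' z - b' z) = z ^ n * (n * v z + z * deriv v z) := by
      have h1 : ∀ᶠ z in 𝓝 (0 : ℂ), deriv (fun z => a z - b z) z = a' z - b' z := by
        filter_upwards [L.compl_lattice_sdiff_singleton_mem_nhds 0,
          L'.compl_lattice_sdiff_singleton_mem_nhds 0] with z hz hz'
        have e := L.eqOn_deriv_weierstrassPExcept_derivWeierstrassPExcept 0 hz
        have e' := L'.eqOn_deriv_weierstrassPExcept_derivWeierstrassPExcept 0 hz'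
        rw [deriv_fun_sub (L.analyticOnNhd_weierstrassPExcept 0 z hz).differentiableAt
          (L'.analyticOnNhd_weierstrassPExcept 0 z hz').differentiableAt, e, e']
      have h2 := Filter.EventuallyEq.deriv hv
      filter_upwards [nhdsWithin_le_nhds h1, nhdsWithin_le_nhds h2,
        nhdsWithin_le_nhds hvA.eventually_analyticAt] with z e1 e2 e3
      rw [← e1, e2, deriv_fun_mul (by fun_prop) e3.differentiableAt, deriv_pow_field]
      rcases n with _ | m
      · simp
      · push_cast [Nat.add_sub_cancel, pow_succ]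
        ring
    set A : ℂ → ℂ := fun z => z ^ 3 * (a' z + b' z) - 4 with hA_def
    set B : ℂ → ℂ := fun z => 4 * ((z ^ 2 * a z + 1) ^ 2 + (z ^ 2 * a z + 1) * (z ^ 2 * b z + 1)
      + (z ^ 2 * b z + 1) ^ 2) - L.g₂ * z ^ 4 with hB_def
    have key : ∀ᶠ z in 𝓝[≠] (0 : ℂ), (n * v z + z * deriv v z) * A z = v z * B z := by
      filter_upwards [hnear, hP, hderiv, nhdsWithin_le_nhds hv] with z hz hp hd hvz
      obtain ⟨p1, p2, p3, p4⟩ := hp
      have hz0 : z ≠ 0 := hz.2.2
      have e1 := L.derivWeierstrassP_sq z hz.1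
      have e2 := L'.derivWeierstrassP_sq z hz.2.1
      rw [p1, p3] at e1
      rw [p2, p4, ← h₂, ← h₃] at e2
      simp only [hA_def, hB_def]
      refine mul_left_cancel₀ (pow_ne_zero n hz0) ?_
      rw [← mul_assoc (z ^ n), ← mul_assoc (z ^ n), ← hd, ← hvz]
      have h3 : (a' z - 2 / z ^ 3) * z ^ 3 = a' z * z ^ 3 - 2 := by field_simp
      have h4 : (b' z - 2 / z ^ 3) * z ^ 3 = b' z * z ^ 3 - 2 := by field_simp
      have h5 : (a z + 1 / z ^ 2) * z ^ 2 = z ^ 2 * a z + 1 := by field_simp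
      have h6 : (b z + 1 / z ^ 2) * z ^ 2 = z ^ 2 * b z + 1 := by field_simp
      rw [← h5, ← h6]
      linear_combination (z ^ 4) * e1 - (z ^ 4) * e2 - (z * (a' z - b' z)) * (h3 + h4)
    have hl : Tendsto (fun z => (n * v z + z * deriv v z) * A z) (𝓝[≠] 0)
        (𝓝 ((n * v 0 + 0 * deriv v 0) * A 0)) := by
      apply Tendsto.mono_left _ nhdsWithin_le_nhds
      have := hvA.deriv
      exact (show AnalyticAt ℂ (fun z => (n * v z + z * deriv v z) * A z) 0 by
        simp only [hA_def]; fun_prop).continuousAt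
    have hr : Tendsto (fun z => v z * B z) (𝓝[≠] 0) (𝓝 (v 0 * B 0)) := by
      apply Tendsto.mono_left _ nhdsWithin_le_nhds
      exact (show AnalyticAt ℂ (fun z => v z * B z) 0 by
        simp only [hB_def]; fun_prop).continuousAt
    have heq := tendsto_nhds_unique (hl.congr' key) hr
    simp [hA_def, hB_def] at heq
    have : ((n : ℂ) + 3) * v 0 = 0 := by linear_combination (-1 / 4 : ℂ) * heq
    rcases mul_eq_zero.mp this with h | h
    · exact absurd h (by exact_mod_cast Nat.succ_ne_zero (n + 2))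
    · exact hv0 h
  filter_upwards [hP, nhdsWithin_le_nhds hu] with z hp hz
  rw [hp.1, hp.2.1, sub_eq_zero.mp hz]

/-- Two lattices with the same `g₂` and `g₃` are equal. -/
theorem lattice_le_of_invariants_eq (L L' : PeriodPair) (h₂ : L.g₂ = L'.g₂)
    (h₃ : L.g₃ = L'.g₃) : L.lattice ≤ L'.lattice := by
  intro l hl
  by_contra hl'
  have hmero : MeromorphicOn (℘[L] - ℘[L']) Set.univ :=
    ((L.meromorphic_weierstrassP).sub L'.meromorphic_weierstrassP).meromorphicOn
  have h0 : meromorphicOrderAt (℘[L] - ℘[L']) 0 = ⊤ := by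
    rw [meromorphicOrderAt_eq_top_iff]
    filter_upwards [weierstrassP_eventuallyEq_of_invariants_eq L L' h₂ h₃] with z hz
    simp [hz]
  have hall : meromorphicOrderAt (℘[L] - ℘[L']) l = ⊤ := by
    by_contra h
    exact hmero.meromorphicOrderAt_ne_top_of_isPreconnected
      isPreconnected_univ (Set.mem_univ l) (Set.mem_univ 0) h h0
  rw [meromorphicOrderAt_eq_top_iff] at hall
  have heq : ℘[L] =ᶠ[𝓝[≠] l] ℘[L'] := hall.mono fun z hz => sub_eq_zero.mp hz
  have h2 := meromorphicOrderAt_congr heq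
  rw [L.order_weierstrassP l hl] at h2
  have h3 := (L'.analyticOnNhd_weierstrassP l hl').meromorphicOrderAt_nonneg
  rw [← h2] at h3
  exact absurd h3 (by decide)

/-- The period pair `(1, τ)`. -/
def periodPairOf (τ : ℍ) : PeriodPair where
  ω₁ := 1
  ω₂ := τ
  indep := by
    rw [LinearIndependent.pair_iff]
    intro s t h
    have him := congrArg Complex.im h
    simp [τ.im_pos.ne'] at him
    subst him
    simpa using h

/-- A scaled period pair. -/
def scalePair (c : ℂ) (hc : c ≠ 0) (L : PeriodPair) : PeriodPair where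
  ω₁ := c * L.ω₁
  ω₂ := c * L.ω₂
  indep := by
    rw [LinearIndependent.pair_iff]
    intro s t h
    apply LinearIndependent.pair_iff.mp L.indep s t
    rw [← mul_smul_comm, ← mul_smul_comm, ← mul_add] at h
    exact (mul_eq_zero.mp h).resolve_left hc

theorem coe_latticeEquivProd_symm (L : PeriodPair) (v : ℤ × ℤ) :
    ((L.latticeEquivProd.symm.toEquiv v : L.lattice) : ℂ) = v.1 * L.ω₁ + v.2 * L.ω₂ :=
  L.latticeEquiv_symm_apply v

theorem G_periodPairOf (τ : ℍ) (k : ℕ) (hk : 3 ≤ k) :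
    (periodPairOf τ).G k = 2 * riemannZeta k * ModularForm.E hk τ := by
  have h1 : (periodPairOf τ).G k = ∑' v : Fin 2 → ℤ, eisSummand k v τ := by
    rw [PeriodPair.G, ← ((periodPairOf τ).latticeEquivProd.symm.toEquiv).tsum_eq,
      ← (finTwoArrowEquiv ℤ).tsum_eq, ← (Equiv.arrowCongr (Equiv.swap (0 : Fin 2) 1)
        (Equiv.refl ℤ)).tsum_eq]
    refine tsum_congr fun v => ?_
    rw [coe_latticeEquivProd_symm]
    simp [periodPairOf, eisSummand, add_comm]
  rw [h1, tsum_eisSummand_eq_riemannZeta_mul_eisensteinSeries hk τ,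
    show ModularForm.E hk τ = (1 / 2 : ℂ) • eisensteinSeriesSIF (N := 1) 0 k τ from rfl]
  simp [eisensteinSeriesSIF_apply]
  ring

theorem mem_lattice_scalePair {c : ℂ} {hc : c ≠ 0} {L : PeriodPair} {x : ℂ} :
    x ∈ (scalePair c hc L).lattice ↔ ∃ l ∈ L.lattice, c * l = x := by
  simp only [PeriodPair.mem_lattice, scalePair]
  constructor
  · rintro ⟨m, n, rfl⟩
    exact ⟨_, ⟨m, n, rfl⟩, by ring⟩
  · rintro ⟨_, ⟨m, n, rfl⟩, rfl⟩
    exact ⟨m, n, by ring⟩

theorem G_scalePair (c : ℂ) (hc : c ≠ 0) (L : PeriodPair) (k : ℕ) :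
    (scalePair c hc L).G k = (c ^ k)⁻¹ * L.G k := by
  rw [PeriodPair.G, PeriodPair.G, ← tsum_mul_left,
    ← ((scalePair c hc L).latticeEquivProd.symm.toEquiv).tsum_eq,
    ← (L.latticeEquivProd.symm.toEquiv).tsum_eq]
  refine tsum_congr fun v => ?_
  rw [coe_latticeEquivProd_symm, coe_latticeEquivProd_symm]
  simp only [scalePair]
  rw [← mul_inv, ← mul_pow]
  congr 2
  ring

theorem exists_scale_of_jInv_eq {τ τ' : ℍ} (h : jInv τ = jInv τ') :
    ∃ c : ℂ, c ≠ 0 ∧ (c ^ 4)⁻¹ * E₄ τ' = E₄ τ ∧ (c ^ 6)⁻¹ * E₆ τ' = E₆ τ := by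
  have hD := ModularForm.discriminant_ne_zero τ
  have hD' := ModularForm.discriminant_ne_zero τ'
  simp only [jInv] at h
  rw [div_eq_div_iff hD hD'] at h
  have e := ModularForm.discriminant_eq_E₄_cube_sub_E₆_sq τ
  have e' := ModularForm.discriminant_eq_E₄_cube_sub_E₆_sq τ'
  have h6 : E₄ τ ^ 3 * E₆ τ' ^ 2 = E₄ τ' ^ 3 * E₆ τ ^ 2 := by
    rw [e, e'] at h
    linear_combination -1728 * h
  by_cases h4 : E₄ τ = 0
  · have h4' : E₄ τ' = 0 := by
      simpa [h4, hD] using h.symm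
    have h6τ : E₆ τ ≠ 0 := by
      intro h0
      apply hD
      simp [e, h4, h0]
    have h6τ' : E₆ τ' ≠ 0 := by
      intro h0
      apply hD'
      simp [e', h4', h0]
    obtain ⟨c, hc⟩ := IsAlgClosed.exists_pow_nat_eq (E₆ τ' / E₆ τ) (by norm_num : 0 < 6)
    have hc0 : c ≠ 0 := by
      rintro rfl
      rw [zero_pow (by norm_num : 6 ≠ 0)] at hc
      exact div_ne_zero h6τ' h6τ hc.symm
    refine ⟨c, hc0, by simp [h4, h4'], ?_⟩
    rw [hc]
    field_simp
  · have h4' : E₄ τ' ≠ 0 := fun h0 => h4 (by simpa [h0, hD'] using h)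
    obtain ⟨c, hc⟩ := IsAlgClosed.exists_pow_nat_eq (E₄ τ' / E₄ τ) (by norm_num : 0 < 4)
    have hc0 : c ≠ 0 := by
      rintro rfl
      rw [zero_pow (by norm_num : 4 ≠ 0)] at hc
      exact div_ne_zero h4' h4 hc.symm
    rw [eq_div_iff h4] at hc
    have hsq : E₆ τ' ^ 2 = (c ^ 6 * E₆ τ) ^ 2 := by
      refine mul_left_cancel₀ (pow_ne_zero 3 h4) ?_
      rw [h6, ← hc]
      ring
    have hc4 : (c ^ 4)⁻¹ * E₄ τ' = E₄ τ := by
      rw [← hc]
      field_simp
    rcases eq_or_eq_neg_of_sq_eq_sq _ _ hsq with h' | h'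
    · refine ⟨c, hc0, hc4, ?_⟩
      rw [h']
      field_simp
    · refine ⟨Complex.I * c, mul_ne_zero Complex.I_ne_zero hc0, ?_, ?_⟩
      · rw [mul_pow, Complex.I_pow_four, one_mul]
        exact hc4
      · rw [h', mul_pow, show (Complex.I : ℂ) ^ 6 = -1 by
          rw [show (6 : ℕ) = 4 + 2 from rfl, pow_add, Complex.I_pow_four, Complex.I_sq, one_mul]]
        field_simp

theorem exists_smul_eq_of_jInv_eq {τ τ' : ℍ} (h : jInv τ = jInv τ') :
    ∃ g : SL(2, ℤ), g • τ = τ' := by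
  obtain ⟨c, hc, h4, h6⟩ := exists_scale_of_jInv_eq h
  set L := periodPairOf τ
  set L' := scalePair c hc (periodPairOf τ') with hL'
  have h₂ : L.g₂ = L'.g₂ := by
    rw [PeriodPair.g₂, PeriodPair.g₂, G_scalePair, G_periodPairOf τ 4 (by norm_num),
      G_periodPairOf τ' 4 (by norm_num), ← h4]
    ring
  have h₃ : L.g₃ = L'.g₃ := by
    rw [PeriodPair.g₃, PeriodPair.g₃, G_scalePair, G_periodPairOf τ 6 (by norm_num),
      G_periodPairOf τ' 6 (by norm_num), ← h6]
    ring
  have hle : L.lattice ≤ L'.lattice := lattice_le_of_invariants_eq L L' h₂ h₃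
  have hge : L'.lattice ≤ L.lattice := lattice_le_of_invariants_eq L' L h₂.symm h₃.symm
  obtain ⟨s, r, hr⟩ := PeriodPair.mem_lattice.mp
    (hge (mem_lattice_scalePair.mpr ⟨1, (periodPairOf τ').ω₁_mem_lattice, mul_one c⟩))
  obtain ⟨q, p, hp⟩ := PeriodPair.mem_lattice.mp
    (hge (mem_lattice_scalePair.mpr ⟨(τ' : ℂ), (periodPairOf τ').ω₂_mem_lattice, rfl⟩))
  obtain ⟨l, hl, hl1⟩ := mem_lattice_scalePair.mp (hle L.ω₁_mem_lattice)
  obtain ⟨b, a, hab⟩ := PeriodPair.mem_lattice.mp hl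
  obtain ⟨m, hm, hm1⟩ := mem_lattice_scalePair.mp (hle L.ω₂_mem_lattice)
  obtain ⟨b', a', hab'⟩ := PeriodPair.mem_lattice.mp hm
  simp only [L, periodPairOf, mul_one] at hr hp hab hab' hl1 hm1
  have e1 : ((a * p + b * r : ℤ) : ℂ) * τ + ((a * q + b * s - 1 : ℤ) : ℂ) = 0 := by
    push_cast
    linear_combination hl1 + (a : ℂ) * hp + (b : ℂ) * hr + c * hab
  have e2 : ((a' * p + b' * r - 1 : ℤ) : ℂ) * τ + ((a' * q + b' * s : ℤ) : ℂ) = 0 := by
    push_cast
    linear_combination hm1 + (a' : ℂ) * hp + (b' : ℂ) * hr + c * hab'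
  have hind : ∀ x y : ℤ, (x : ℂ) * τ + (y : ℂ) = 0 → x = 0 ∧ y = 0 := by
    intro x y hxy
    have := LinearIndependent.pair_iff.mp (periodPairOf τ).indep (y : ℝ) (x : ℝ) (by
      simp only [periodPairOf, Complex.real_smul, Complex.ofReal_intCast, mul_one]
      linear_combination hxy)
    exact ⟨by exact_mod_cast this.2, by exact_mod_cast this.1⟩
  obtain ⟨f1, f2⟩ := hind _ _ e1
  obtain ⟨f3, f4⟩ := hind _ _ e2
  have hdet1 : (a' * b - b' * a) * (p * s - q * r) = 1 := by
    linear_combination (a' * q + b' * s) * -f1 + (a' * p + b' * r) * f2 + f3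
  have hden : (r : ℂ) * τ + s = c := by linear_combination hr
  have hτ' : (τ' : ℂ) = ((p : ℂ) * τ + q) / ((r : ℂ) * τ + s) := by
    rw [hden, eq_div_iff hc]
    linear_combination -hp
  have hdet : p * s - q * r = 1 := by
    rcases Int.eq_one_or_neg_one_of_mul_eq_one
      (show (p * s - q * r) * (a' * b - b' * a) = 1 by rw [mul_comm]; exact hdet1) with h1 | h1
    · exact h1
    · exfalso
      have him := τ'.im_pos
      rw [← UpperHalfPlane.coe_im, hτ', Complex.div_im] at him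
      simp only [Complex.add_re, Complex.add_im, Complex.mul_re, Complex.mul_im, Complex.intCast_re,
        Complex.intCast_im, zero_mul, mul_zero, add_zero, sub_zero] at him
      rw [← sub_div] at him
      have hpos : 0 < Complex.normSq ((r : ℂ) * τ + s) := by
        rw [hden]
        exact Complex.normSq_pos.mpr hc
      rw [lt_div_iff₀ hpos, zero_mul] at him
      have h1' : (p : ℝ) * s - q * r = -1 := by exact_mod_cast h1
      have h2 : ((p : ℝ) * s - q * r) * (τ : ℂ).im < 0 := by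
        rw [h1']
        have : 0 < (τ : ℂ).im := τ.im_pos
        linarith
      linarith
  refine ⟨⟨!![p, q; r, s], by rw [Matrix.det_fin_two_of]; exact hdet⟩, ?_⟩
  ext1
  rw [hτ', coe_specialLinearGroup_apply]
  simp

theorem jInv_eq_jInv_iff {τ τ' : ℍ} :
    jInv τ = jInv τ' ↔ ∃ g : SL(2, ℤ), g • τ = τ' :=
  ⟨exists_smul_eq_of_jInv_eq, fun ⟨g, hg⟩ => by rw [← hg, jInv_smul]⟩

end FLTA.Bridge
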