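import Fermat.Agent.Bridge.JExpansion
import Mathlib.Analysis.Analytic.Order

/-!
# Surjectivity of `j` and non-constancy
-/

set_option autoImplicit false

noncomputable section

open UpperHalfPlane ModularForm EisensteinSeries Function Filter
open scoped MatrixGroups Manifold Topology

namespace FLTA.Bridge

theorem inv_jInv_sub_mul_discriminant_slash (c : ℂ) (g : SL(2, ℤ)) :
    (fun τ => ((jInv τ - c) * ModularForm.discriminant τ)⁻¹) ∣[(-12 : ℤ)] g
      = fun τ => ((jInv τ - c) * ModularForm.discriminant τ)⁻¹ := by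
  funext τ
  have h : (⇑CuspForm.discriminant) ∣[(12 : ℤ)] g = ⇑CuspForm.discriminant :=
    SlashInvariantFormClass.slash_action_eq CuspForm.discriminant _ ⟨g, rfl⟩
  have hD := congrFun h τ
  rw [SL_slash_apply, CuspForm.coe_discriminant] at hD
  rw [SL_slash_apply]
  simp only [jInv_smul, ← hD, mul_inv, zpow_neg, inv_inv]
  ring

/-- If `j` omits the value `c`, this is a nonzero modular form of weight `-12`. -/
def omittedValueForm (c : ℂ) (hc : ∀ τ : ℍ, jInv τ ≠ c) : ModularForm 𝒮ℒ (-12) where
  toFun τ := ((jInv τ - c) * ModularForm.discriminant τ)⁻¹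
  slash_action_eq' := by
    rintro _ ⟨g, rfl⟩
    exact inv_jInv_sub_mul_discriminant_slash c g
  holo' := by
    rw [UpperHalfPlane.mdifferentiable_iff]
    have h := UpperHalfPlane.mdifferentiable_iff.mp mdifferentiable_jInv
    have hD := UpperHalfPlane.mdifferentiable_iff.mp (ModularFormClass.holo CuspForm.discriminant)
    exact ((h.sub_const c).mul hD).inv fun z _ =>
      mul_ne_zero (sub_ne_zero.mpr (hc _)) (ModularForm.discriminant_ne_zero _)
  bdd_at_cusps' {d} hd := by
    rw [Subgroup.IsArithmetic.isCusp_iff_isCusp_SL2Z] at hd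
    rw [OnePoint.isBoundedAt_iff_forall_SL2Z hd]
    intro γ _
    have hq := UpperHalfPlane.qParam_tendsto_atImInfty (h := (1 : ℝ)) one_pos
    have he : Tendsto eulerFun atImInfty (𝓝 1) := by
      have := analyticAt_eulerProd.continuousAt.tendsto.comp hq
      rwa [eulerProd_zero] at this
    have h1 := ((tendsto_qMulJ_atImInfty.sub (hq.const_mul c)).mul (he.pow 24)).inv₀ (by simp)
    have h2 : Tendsto (fun τ => ((jInv τ - c) * ModularForm.discriminant τ)⁻¹) atImInfty
        (𝓝 ((((1 : ℂ) - c * 0) * 1 ^ 24)⁻¹)) := by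
      refine h1.congr fun τ => ?_
      rw [discriminant_eq_qFun_mul]
      simp only [qMulJ, qFun]
      ring_nf
    rw [inv_jInv_sub_mul_discriminant_slash c γ]
    exact h2.isBigO_one ℝ

theorem jInv_surjective : Function.Surjective jInv := by
  intro c
  by_contra h
  simp only [not_exists] at h
  have := congrFun (ModularFormClass.levelOne_neg_weight_eq_zero (by norm_num)
    (omittedValueForm c h)) UpperHalfPlane.I
  exact inv_ne_zero (mul_ne_zero (sub_ne_zero.mpr (h _)) (ModularForm.discriminant_ne_zero _)) this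

theorem jFun_not_eventually_const (τ : ℍ) (c : ℂ) :
    ¬ ∀ᶠ z in 𝓝 (τ : ℂ), jFun z = c := by
  intro h
  have hpre : IsPreconnected upperHalfPlaneSet := (convex_halfSpace_im_gt 0).isPreconnected
  have key := analyticOnNhd_jFun.eqOn_of_preconnected_of_eventuallyEq analyticOnNhd_const hpre
    τ.im_pos h
  obtain ⟨τ', hτ'⟩ := jInv_surjective (c + 1)
  have := key τ'.im_pos
  simp only [jFun_coe, hτ'] at this
  simp at this

theorem analyticOrderAt_jFun_sub_ne_top (τ : ℍ) (c : ℂ) :
    analyticOrderAt (fun z => jFun z - c) (τ : ℂ) ≠ ⊤ := by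
  rw [ne_eq, analyticOrderAt_eq_top]
  intro h
  exact jFun_not_eventually_const τ c (h.mono fun z hz => sub_eq_zero.mp hz)

end FLTA.Bridge
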