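import Fermat.Agent.Bridge.JInjective
import Fermat.Agent.Bridge.JSurjective
import Mathlib.NumberTheory.ModularForms.ProperlyDiscontinuous
import Mathlib.Analysis.Calculus.InverseFunctionTheorem.Analytic
import Mathlib.Analysis.SpecialFunctions.Complex.LogDeriv
import Mathlib.RingTheory.RootsOfUnity.Complex

/-!
# The multiplicity of `j` at a point is half the order of the stabiliser
-/

set_option autoImplicit false

noncomputable section

open UpperHalfPlane ModularForm EisensteinSeries Function Filter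
open scoped MatrixGroups Manifold Topology

namespace FLTA.Bridge

theorem mapGL_injective_SL2Z :
    Function.Injective (Matrix.SpecialLinearGroup.mapGL ℝ : SL(2, ℤ) → GL (Fin 2) ℝ) :=
  Matrix.SpecialLinearGroup.mapGL_injective

theorem finite_setOf_smul_inter (K L : Set ℍ) (hK : IsCompact K) (hL : IsCompact L) :
    {g : SL(2, ℤ) | ∃ z ∈ K, g • z ∈ L}.Finite := by
  have h := (Subgroup.properlyDiscontinuousSMul_iff _).mp properlyDiscontinuousSL2ZRange hK hL
  refine (h.preimage mapGL_injective_SL2Z.injOn).subset ?_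
  rintro g ⟨z, hz, hgz⟩
  exact ⟨⟨g, rfl⟩, g • z, ⟨z, hz, rfl⟩, hgz⟩

theorem finite_stabilizer (τ : ℍ) : Finite (MulAction.stabilizer SL(2, ℤ) τ) := by
  have h := finite_setOf_smul_inter {τ} {τ} isCompact_singleton isCompact_singleton
  refine (h.subset fun g hg => ?_).to_subtype
  exact ⟨τ, rfl, by simpa using hg⟩

theorem continuous_smul_SL2Z (g : SL(2, ℤ)) : Continuous fun z : ℍ => g • z :=
  continuous_const_smul (Matrix.SpecialLinearGroup.mapGL ℝ g : GL (Fin 2) ℝ)

/-- Near `τ` only elements of the stabiliser identify points. -/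
theorem exists_nhds_smul_eq_self (τ : ℍ) :
    ∃ U ∈ 𝓝 τ, ∀ g : SL(2, ℤ), ∀ z ∈ U, g • z ∈ U → g • τ = τ := by
  obtain ⟨U, hU, h⟩ := ProperlyDiscontinuousSMul.exists_nhds_image_smul_eq_self
    (Matrix.SpecialLinearGroup.mapGL ℝ : SL(2, ℤ) →* GL (Fin 2) ℝ).range τ
  exact ⟨U, hU, fun g z hz hgz => h ⟨_, g, rfl⟩ ⟨g • z, ⟨z, hz, rfl⟩, hgz⟩⟩

theorem finite_fixedPoints (g : SL(2, ℤ)) (h1 : g ≠ 1) (h2 : g ≠ -1) :
    {z : ℍ | g • z = z}.Finite := by
  obtain ⟨a, b, c, d, hdet, rfl⟩ : ∃ a b c d : ℤ, ∃ h : a * d - b * c = 1,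
      g = ⟨!![a, b; c, d], by rw [Matrix.det_fin_two_of]; exact h⟩ :=
    ⟨g 0 0, g 0 1, g 1 0, g 1 1, by
      have := g.2
      rw [Matrix.det_fin_two] at this
      exact this, Subtype.ext (Matrix.eta_fin_two _)⟩
  set P : Polynomial ℂ := Polynomial.C (c : ℂ) * Polynomial.X ^ 2
    + Polynomial.C ((d : ℂ) - a) * Polynomial.X + Polynomial.C (-(b : ℂ)) with hP
  have hP0 : P ≠ 0 := by
    intro h0
    have e0 := congrArg (Polynomial.eval (0 : ℂ)) h0
    have e1 := congrArg (Polynomial.eval (1 : ℂ)) h0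
    have e2 := congrArg (Polynomial.eval (-1 : ℂ)) h0
    simp [hP] at e0 e1 e2
    have hb : b = 0 := by exact_mod_cast e0
    have hc : c = 0 := by
      have h : ((c : ℤ) : ℂ) = 0 := by
        subst hb
        push_cast at e1 e2
        linear_combination (1 / 2 : ℂ) * e1 + (1 / 2 : ℂ) * e2
      exact_mod_cast h
    subst hb hc
    have hda : d = a := by
      push_cast at e1
      have h : (d : ℂ) = (a : ℂ) := by linear_combination e1
      exact_mod_cast h
    subst hda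
    rcases Int.eq_one_or_neg_one_of_mul_eq_one (show d * d = 1 by linarith) with rfl | rfl
    · exact h1 (Subtype.ext (by simp [Matrix.one_fin_two]))
    · exact h2 (Subtype.ext (by simp [Matrix.one_fin_two]))
  have hfin : {z : ℂ | P.IsRoot z}.Finite := Polynomial.finite_setOf_isRoot hP0
  refine (hfin.preimage (f := ((↑) : ℍ → ℂ)) (fun x _ y _ h => UpperHalfPlane.ext h)).subset fun z hz => ?_
  have hz' := congrArg (fun w : ℍ => (w : ℂ)) hz
  rw [coe_specialLinearGroup_apply] at hz'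
  simp at hz'
  have hden : (c : ℂ) * z + d ≠ 0 := by
    intro h0
    rw [h0, div_zero] at hz'
    exact z.ne_zero hz'.symm
  rw [div_eq_iff hden] at hz'
  show P.IsRoot (z : ℂ)
  simp [hP, Polynomial.IsRoot]
  linear_combination -hz'

theorem jFun_sub_eventually_eq_pow (τ : ℍ) :
    ∃ (n : ℕ) (ψ : ℂ → ℂ), analyticOrderAt (fun z => jFun z - jInv τ) (τ : ℂ) = n ∧ 0 < n ∧
      AnalyticAt ℂ ψ (τ : ℂ) ∧ ψ τ = 0 ∧ deriv ψ (τ : ℂ) ≠ 0 ∧
      ∀ᶠ z in 𝓝 (τ : ℂ), jFun z - jInv τ = ψ z ^ n := by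
  obtain ⟨n, hn⟩ := ENat.ne_top_iff_exists.mp (analyticOrderAt_jFun_sub_ne_top τ (jInv τ))
  have hA : AnalyticAt ℂ (fun z => jFun z - jInv τ) (τ : ℂ) :=
    (analyticAt_jFun τ.im_pos).sub analyticAt_const
  have hn0 : 0 < n := by
    rw [pos_iff_ne_zero]
    rintro rfl
    exact (hA.analyticOrderAt_eq_zero.mp hn.symm) (by simp)
  obtain ⟨v, hvA, hv0, hv⟩ := hA.analyticOrderAt_eq_natCast.mp hn.symm
  obtain ⟨w, hw⟩ := IsAlgClosed.exists_pow_nat_eq (v τ) hn0
  set r : ℂ → ℂ := fun z => w * Complex.exp (Complex.log (v z / v τ) / n) with hr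
  have hrA : AnalyticAt ℂ r (τ : ℂ) := by
    refine analyticAt_const.mul ((AnalyticAt.div_const ?_).cexp)
    exact (hvA.div_const).clog (by simp [hv0, Complex.one_mem_slitPlane])
  refine ⟨n, fun z => (z - τ) * r z, hn.symm, hn0, (analyticAt_id.sub analyticAt_const).mul hrA,
    by simp, ?_, ?_⟩
  · rw [deriv_fun_mul (by fun_prop) hrA.differentiableAt]
    have hw0 : w ≠ 0 := by
      rintro rfl
      exact hv0 (by rw [← hw, zero_pow hn0.ne'])
    simp [hr, hv0, hw0]
  · filter_upwards [hv, hvA.continuousAt.eventually_ne hv0] with z hz hz0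
    rw [hz, hr, smul_eq_mul, mul_pow, mul_pow, ← Complex.exp_nat_mul,
      mul_div_cancel₀ _ (by exact_mod_cast hn0.ne'), Complex.exp_log (div_ne_zero hz0 hv0), hw,
      mul_div_cancel₀ _ hv0]

theorem analyticOrderAt_jFun_sub_aux (τ : ℍ) :
    ∃ n : ℕ, analyticOrderAt (fun z => jFun z - jInv τ) (τ : ℂ) = n ∧
      2 * n = Nat.card (MulAction.stabilizer SL(2, ℤ) τ) := by
  obtain ⟨n, ψ, hord, hn0, hψA, hψ0, hψd, hψ⟩ := jFun_sub_eventually_eq_pow τ
  refine ⟨n, hord, ?_⟩
  set S := MulAction.stabilizer SL(2, ℤ) τ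
  haveI : Finite S := finite_stabilizer τ
  set hst := hψA.hasStrictDerivAt.hasStrictFDerivAt_equiv hψd
  set e := hst.toOpenPartialHomeomorph ψ with he
  have hcoe : (e : ℂ → ℂ) = ψ := hst.toOpenPartialHomeomorph_coe
  have hsrc : (τ : ℂ) ∈ e.source := hst.mem_toOpenPartialHomeomorph_source
  have hτtgt : (0 : ℂ) ∈ e.target := by
    have := e.map_source hsrc
    rwa [hcoe, hψ0] at this
  obtain ⟨U₀, hU₀, hU₀'⟩ := exists_nhds_smul_eq_self τ
  -- neighbourhood where everything holds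
  set U : Set ℍ := U₀ ∩ {z | (z : ℂ) ∈ e.source ∧ jFun z - jInv τ = ψ z ^ n} with hUdef
  have hU : U ∈ 𝓝 τ := inter_mem hU₀ (UpperHalfPlane.continuous_coe.continuousAt
    (Filter.inter_mem (e.open_source.mem_nhds hsrc) hψ))
  -- exceptional points
  set B : Set ℍ := (⋃ g ∈ {g : SL(2, ℤ) | g ∈ S ∧ g ≠ 1 ∧ g ≠ -1}, {z : ℍ | g • z = z}) \ {τ}
  have hB : B.Finite :=
    (((Set.toFinite (S : Set SL(2, ℤ))).subset fun g hg => hg.1).biUnion
      fun g hg => finite_fixedPoints g hg.2.1 hg.2.2).diff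
  set V : Set ℍ := (⋂ g ∈ (S : Set SL(2, ℤ)), (fun z => g • z) ⁻¹' U) ∩ U ∩ Bᶜ with hVdef
  have hV : V ∈ 𝓝 τ := by
    refine inter_mem (inter_mem ((Filter.biInter_mem (Set.toFinite _)).mpr fun g hg => ?_) hU)
      (hB.isClosed.isOpen_compl.mem_nhds fun h => h.2 rfl)
    refine (continuous_smul_SL2Z g).continuousAt.preimage_mem_nhds ?_
    rwa [show g • τ = τ from hg]
  -- all preimages of values near `0` lie in `V`
  have hsymm : ∀ᶠ u in 𝓝 (0 : ℂ), u ∈ e.target ∧ ∃ z : ℍ, (z : ℂ) = e.symm u ∧ z ∈ V := by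
    have hc : Tendsto e.symm (𝓝 0) (𝓝 (τ : ℂ)) := by
      have h2 := (e.continuousAt_symm hτtgt).tendsto
      have h0 : e.symm 0 = (τ : ℂ) := by
        rw [show (0 : ℂ) = e τ by rw [hcoe, hψ0], e.left_inv hsrc]
      rwa [h0] at h2
    have him : ∀ᶠ x in 𝓝 (τ : ℂ), 0 < x.im :=
      (isOpen_upperHalfPlaneSet.mem_nhds τ.im_pos)
    have hofc : Tendsto ofComplex (𝓝 (τ : ℂ)) (𝓝 τ) := by
      have hτs : (τ : ℂ) ∈ UpperHalfPlane.ofComplex.source :=
        ⟨τ, trivial, rfl⟩
      have := (UpperHalfPlane.ofComplex.continuousAt hτs).tendsto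
      rwa [ofComplex_apply] at this
    filter_upwards [e.open_target.mem_nhds hτtgt, hc.eventually him,
      (hofc.comp hc).eventually_mem hV] with u hu hi hv
    refine ⟨hu, ofComplex (e.symm u), ?_, hv⟩
    rw [ofComplex_apply_of_im_pos hi]
  obtain ⟨ε, hε, hball⟩ := Metric.mem_nhds_iff.mp hsymm
  set w : ℂ := ((ε / 2 : ℝ) : ℂ) with hw
  have hw0 : w ≠ 0 := by rw [hw]; exact_mod_cast (half_pos hε).ne'
  have hroot : ∀ ζ : ℂ, ζ ^ n = 1 → ζ * w ∈ Metric.ball (0 : ℂ) ε := by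
    intro ζ hζ
    rw [mem_ball_zero_iff, norm_mul, Complex.norm_eq_one_of_pow_eq_one hζ hn0.ne', one_mul, hw,
      Complex.norm_real, Real.norm_of_nonneg (half_pos hε).le]
    linarith
  have hex : ∀ ζ : {ζ : ℂ // ζ ^ n = 1}, ∃ z : ℍ,
      (z : ℂ) = e.symm (ζ.1 * w) ∧ z ∈ V ∧ ψ z = ζ.1 * w := by
    intro ζ
    obtain ⟨ht, z, hz, hzV⟩ := hball (hroot ζ.1 ζ.2)
    exact ⟨z, hz, hzV, by rw [← hcoe, hz, e.right_inv ht]⟩
  choose z hz hzV hzψ using hex
  have hzval : ∀ ζ, jInv (z ζ) = jInv τ + w ^ n := by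
    intro ζ
    have h := (hzV ζ).1.2.2.2
    rw [jFun_coe, hzψ, mul_pow, ζ.2, one_mul] at h
    linear_combination h
  set one' : {ζ : ℂ // ζ ^ n = 1} := ⟨1, one_pow n⟩
  have horbit : Set.range z = MulAction.orbit S (z one') := by
    ext y
    constructor
    · rintro ⟨ζ, rfl⟩
      obtain ⟨g, hg⟩ := exists_smul_eq_of_jInv_eq
        ((hzval one').trans (hzval ζ).symm)
      have hgS : g ∈ S := hU₀' g (z one') (hzV one').1.2.1
        (by rw [hg]; exact (hzV ζ).1.2.1)
      exact ⟨⟨g, hgS⟩, hg⟩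
    · rintro ⟨⟨g, hg⟩, rfl⟩
      have hyU : g • z one' ∈ U := by
        have := (hzV one').1.1
        simp only [Set.mem_iInter, Set.mem_preimage] at this
        exact this g hg
      show g • z one' ∈ Set.range z
      have h := hyU.2.2
      rw [jFun_coe, jInv_smul, hzval, add_sub_cancel_left] at h
      set ζ : ℂ := ψ (g • z one' : ℍ) / w
      have hζ : ζ ^ n = 1 := by rw [div_pow, ← h, div_self (pow_ne_zero _ hw0)]
      refine ⟨⟨ζ, hζ⟩, UpperHalfPlane.ext (e.injOn (hzV _).1.2.2.1 hyU.2.1 ?_)⟩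
      rw [hcoe, hzψ]
      exact div_mul_cancel₀ _ hw0
  have hinj : Function.Injective z := by
    intro a b hab
    have := congrArg (fun y : ℍ => ψ y) hab
    simp only [hzψ] at this
    exact Subtype.ext (mul_right_cancel₀ hw0 this)
  have hcard : Nat.card (MulAction.orbit S (z one')) = n := by
    rw [← horbit, Nat.card_range_of_injective hinj]
    rw [Nat.card_congr ((Equiv.subtypeEquivRight (q := fun ζ => ζ ∈ Polynomial.nthRootsFinset n (1 : ℂ))
      fun ζ => (Polynomial.mem_nthRootsFinset hn0 1).symm)), Nat.card_eq_fintype_card,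
      Fintype.card_coe]
    exact (Complex.isPrimitiveRoot_exp n hn0.ne').card_nthRootsFinset
  have hne : z one' ≠ τ := by
    intro h
    have := hzψ one'
    rw [h, hψ0] at this
    rw [one_mul] at this
    exact hw0 this.symm
  have hneg : (-1 : SL(2, ℤ)) ∈ S := by
    show (-1 : SL(2, ℤ)) • τ = τ
    rw [ModularGroup.SL_neg_smul, one_smul]
  have hstab : Nat.card (MulAction.stabilizer S (z one')) = 2 := by
    have h : (MulAction.stabilizer S (z one') : Set S) = {1, ⟨-1, hneg⟩} := by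
      ext ⟨g, hg⟩
      simp only [SetLike.mem_coe, MulAction.mem_stabilizer_iff, Set.mem_insert_iff,
        Set.mem_singleton_iff, Subtype.ext_iff, Subgroup.coe_one, Subgroup.mk_smul]
      constructor
      · intro hfix
        by_contra hcon
        push Not at hcon
        exact (hzV one').2 ⟨Set.mem_biUnion (show g ∈ {g : SL(2, ℤ) | g ∈ S ∧ g ≠ 1 ∧ g ≠ -1} from
          ⟨hg, hcon.1, hcon.2⟩) hfix, hne⟩
      · rintro (rfl | rfl)
        · exact one_smul _ _
        · rw [ModularGroup.SL_neg_smul, one_smul]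
    rw [show Nat.card (MulAction.stabilizer S (z one'))
      = Nat.card ((MulAction.stabilizer S (z one') : Set S)) from rfl, h,
      Nat.card_coe_set_eq, Set.ncard_pair]
    intro h'
    have := congrArg (fun g : S => (g.1 : Matrix (Fin 2) (Fin 2) ℤ) 0 0) h'
    simp at this
  rw [Subgroup.card_eq_card_quotient_mul_card_subgroup (MulAction.stabilizer S (z one')),
    ← Nat.card_congr (MulAction.orbitEquivQuotientStabilizer S (z one')), hcard, hstab]
  ring

/-- The multiplicity with which `j` takes its value at `τ` is half the order of the stabiliser. -/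
theorem analyticOrderNatAt_jFun_sub (τ : ℍ) :
    analyticOrderNatAt (fun z => jFun z - jInv τ) (τ : ℂ)
      = Nat.card (MulAction.stabilizer SL(2, ℤ) τ) / 2 := by
  obtain ⟨n, h1, h2⟩ := analyticOrderAt_jFun_sub_aux τ
  rw [analyticOrderNatAt, h1, ← h2, ENat.toNat_natCast]
  omega

theorem two_mul_analyticOrderNatAt_jFun_sub (τ : ℍ) :
    2 * analyticOrderNatAt (fun z => jFun z - jInv τ) (τ : ℂ)
      = Nat.card (MulAction.stabilizer SL(2, ℤ) τ) := by
  obtain ⟨n, h1, h2⟩ := analyticOrderAt_jFun_sub_aux τ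
  rw [analyticOrderNatAt, h1, ← h2, ENat.toNat_natCast]

theorem analyticOrderAt_jFun_sub (τ : ℍ) :
    analyticOrderAt (fun z => jFun z - jInv τ) (τ : ℂ)
      = ((Nat.card (MulAction.stabilizer SL(2, ℤ) τ) / 2 : ℕ) : ℕ∞) := by
  obtain ⟨n, h1, h2⟩ := analyticOrderAt_jFun_sub_aux τ
  rw [h1, ← h2]
  simp

end FLTA.Bridge
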