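import Fermat.Agent.Bridge.Expansion
import Fermat.Agent.Bridge.JInvariant
import Mathlib.NumberTheory.ModularForms.CongruenceSubgroups
import Fermat.Prelude.Def_ModularCurve_JqCoeff
import Fermat.Prelude.Def_ModularCurve_LaurentCoeff
import Fermat.Agent.Dim.Defs

/-!
# Holomorphic modular functions for `Γ₀(N)`

`ModHol N`: holomorphic `Γ₀(N)`-invariant functions on `ℍ`, meromorphic at every cusp.
`qexpAt N g` is the expansion of `F (g • τ)` in `exp (2 π i τ / N)`.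
-/

set_option autoImplicit false

noncomputable section

open scoped Manifold MatrixGroups Topology Real ModularForm
open UpperHalfPlane hiding I
open Complex Filter Function CongruenceSubgroup

namespace FLTA.Bridge

/-- Holomorphic modular functions for `Γ₀(N)`. -/
def ModHol (N : ℕ) : Subalgebra ℂ (ℍ → ℂ) where
  carrier := {F | F ∈ Hol ∧ (∀ γ ∈ Gamma0 N, ∀ τ : ℍ, F (γ • τ) = F τ) ∧
    ∀ g : SL(2, ℤ), GrowthInfty (fun τ : ℍ => F (g • τ))}
  mul_mem' ha hb := ⟨mul_mem ha.1 hb.1,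
    fun γ hγ τ => congrArg₂ (· * ·) (ha.2.1 γ hγ τ) (hb.2.1 γ hγ τ),
    fun g => (ha.2.2 g).mul (hb.2.2 g)⟩
  add_mem' ha hb := ⟨add_mem ha.1 hb.1,
    fun γ hγ τ => congrArg₂ (· + ·) (ha.2.1 γ hγ τ) (hb.2.1 γ hγ τ),
    fun g => (ha.2.2 g).add (hb.2.2 g)⟩
  algebraMap_mem' c := ⟨Subalgebra.algebraMap_mem _ c, fun _ _ _ => rfl,
    fun _ => GrowthInfty.const c⟩

theorem mem_modHol_iff {N : ℕ} {F : ℍ → ℂ} :
    F ∈ ModHol N ↔ F ∈ Hol ∧ (∀ γ ∈ Gamma0 N, ∀ τ : ℍ, F (γ • τ) = F τ) ∧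
      ∀ g : SL(2, ℤ), GrowthInfty (fun τ : ℍ => F (g • τ)) := Iff.rfl

theorem modHol_mono {N M : ℕ} (h : N ∣ M) : ModHol N ≤ ModHol M := by
  intro F hF
  refine ⟨hF.1, fun γ hγ => hF.2.1 γ ?_, hF.2.2⟩
  rw [Gamma0_mem, ZMod.intCast_zmod_eq_zero_iff_dvd] at hγ ⊢
  exact (Int.natCast_dvd_natCast.mpr h).trans hγ

theorem coe_smul_eq (g : SL(2, ℤ)) (τ : ℍ) :
    ((g • τ : ℍ) : ℂ) = ((g.1 0 0 : ℂ) * τ + (g.1 0 1 : ℂ)) /
      ((g.1 1 0 : ℂ) * τ + (g.1 1 1 : ℂ)) := by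
  rw [coe_specialLinearGroup_apply]
  simp

theorem smul_mem_hol {F : ℍ → ℂ} (hF : F ∈ Hol) (g : SL(2, ℤ)) :
    (fun τ : ℍ => F (g • τ)) ∈ Hol :=
  comp_smul_mem_hol hF (Matrix.SpecialLinearGroup.toGLPos
    (Matrix.SpecialLinearGroup.map (Int.castRingHom ℝ) g))

theorem T_mem_Gamma0 (N : ℕ) : ModularGroup.T ∈ Gamma0 N := by
  rw [Gamma0_mem, show (ModularGroup.T).1 1 0 = 0 from rfl, Int.cast_zero]

theorem norm_qParam_one (τ : ℍ) : ‖Function.Periodic.qParam 1 (τ : ℂ)‖ =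
    Real.exp (-2 * π * τ.im) := by
  simp [Function.Periodic.norm_qParam]

/-- Inclusion into the holomorphic functions. -/
def modHolToHol (N : ℕ) : ModHol N →ₐ[ℂ] Hol :=
  Subalgebra.inclusion fun _ hF => hF.1

/-- `τ ↦ d * τ`. -/
def scaleTau (d : ℕ) [NeZero d] (τ : ℍ) : ℍ :=
  ⟨(d : ℂ) * (τ : ℂ), by
    simpa using mul_pos (Nat.cast_pos.mpr (Nat.pos_of_ne_zero (NeZero.ne d))) τ.im_pos⟩

theorem coe_scaleTau (d : ℕ) [NeZero d] (τ : ℍ) :
    (scaleTau d τ : ℂ) = (d : ℂ) * (τ : ℂ) := rfl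

/-- `diag(d, 1) * g = h * (α β; 0 δ)` with `h ∈ SL(2, ℤ)`. -/
theorem exists_smul_eq_scaleTau_smul' (d : ℕ) [NeZero d] (g : SL(2, ℤ)) :
    ∃ (h : SL(2, ℤ)) (α δ : ℕ) (β : ℤ), 0 < α ∧ 0 < δ ∧ α * δ = d ∧ (α : ℤ) ∣ g.1 1 0 ∧
      ∀ τ σ : ℍ, (σ : ℂ) = ((α : ℂ) * τ + β) / δ → scaleTau d (g • τ) = h • σ := by
  set a := g.1 0 0
  set b := g.1 0 1
  set c := g.1 1 0
  set e := g.1 1 1
  have hdet : a * e - b * c = 1 := by
    have := g.2
    rw [Matrix.det_fin_two] at this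
    linarith [this]
  set α := Int.gcd ((d : ℤ) * a) c
  have hd0 : (d : ℤ) ≠ 0 := by exact_mod_cast NeZero.ne d
  have hα : 0 < α := by
    rcases Nat.eq_zero_or_pos α with h0 | h0
    · obtain ⟨h1, h2⟩ := Int.gcd_eq_zero_iff.mp h0
      rcases mul_eq_zero.mp h1 with h3 | h3
      · exact absurd h3 hd0
      · rw [h3, h2] at hdet
        norm_num at hdet
    · exact h0
  obtain ⟨u, hu⟩ : (α : ℤ) ∣ (d : ℤ) * a := Int.gcd_dvd_left _ _
  obtain ⟨v, hv⟩ : (α : ℤ) ∣ c := Int.gcd_dvd_right _ _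
  have hbez := Int.gcd_eq_gcd_ab ((d : ℤ) * a) c
  set x := Int.gcdA ((d : ℤ) * a) c
  set y := Int.gcdB ((d : ℤ) * a) c
  have hxy : u * x + v * y = 1 := by
    have h1 : (α : ℤ) = (α : ℤ) * (u * x + v * y) := by
      rw [mul_add, ← mul_assoc, ← mul_assoc, ← hu, ← hv]
      exact hbez
    exact (mul_right_eq_self₀.mp h1.symm).resolve_right (by omega)
  set β := x * ((d : ℤ) * b) + y * e
  set δ' := -v * ((d : ℤ) * b) + u * e
  have hαδ : (α : ℤ) * δ' = d := by
    calc (α : ℤ) * δ' = -((α : ℤ) * v) * ((d : ℤ) * b) + ((α : ℤ) * u) * e := by ring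
      _ = (d : ℤ) * (a * e - b * c) := by rw [← hu, ← hv]; ring
      _ = d := by rw [hdet, mul_one]
  have hδ : 0 < δ' := by
    have : (0 : ℤ) < (α : ℤ) * δ' := by rw [hαδ]; exact_mod_cast Nat.pos_of_ne_zero (NeZero.ne d)
    exact pos_of_mul_pos_right this (by positivity)
  obtain ⟨h, hh⟩ : ∃ h : SL(2, ℤ), h.1 = !![u, -y; v, x] :=
    ⟨⟨!![u, -y; v, x], by rw [Matrix.det_fin_two_of]; linarith [hxy]⟩, rfl⟩
  refine ⟨h, α, δ'.toNat, β, hα, by omega, ?_, Int.gcd_dvd_right _ _, fun τ σ hσ => ?_⟩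
  · have : ((α * δ'.toNat : ℕ) : ℤ) = d := by push_cast [Int.toNat_of_nonneg hδ.le]; exact hαδ
    exact_mod_cast this
  · apply UpperHalfPlane.ext
    have hne : ((c : ℂ) * τ + e) ≠ 0 := by
      have h := UpperHalfPlane.denom_ne_zero
        (Matrix.SpecialLinearGroup.mapGL ℝ g) τ
      simpa [UpperHalfPlane.denom, c, e] using h
    have hδC : (δ' : ℂ) ≠ 0 := by exact_mod_cast hδ.ne'
    have hσ' : (σ : ℂ) = ((α : ℂ) * τ + β) / (δ' : ℂ) := by
      rw [hσ]
      congr 1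
      exact_mod_cast Int.toNat_of_nonneg hδ.le
    rw [coe_scaleTau, coe_smul_eq g τ, coe_smul_eq h σ, hσ', hh]
    simp only [Matrix.of_apply, Matrix.cons_val', Matrix.cons_val_zero, Matrix.cons_val_one,
      Matrix.cons_val_fin_one, Matrix.empty_val']
    have e1 : (u : ℂ) * β + -(y : ℂ) * δ' = (d : ℂ) * b := by
      have : u * β + -y * δ' = (d : ℤ) * b * (u * x + v * y) := by
        simp only [β, δ']; ring
      rw [hxy, mul_one] at this
      exact_mod_cast this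
    have e2 : (v : ℂ) * β + (x : ℂ) * δ' = e := by
      have : v * β + x * δ' = e * (u * x + v * y) := by
        simp only [β, δ']; ring
      rw [hxy, mul_one] at this
      exact_mod_cast this
    have e3 : (u : ℂ) * α = (d : ℂ) * a := by rw [mul_comm]; exact_mod_cast hu.symm
    have e4 : (v : ℂ) * α = c := by rw [mul_comm]; exact_mod_cast hv.symm
    have l1 : (u : ℂ) * (((α : ℂ) * τ + β) / δ') + ((-y : ℤ) : ℂ) =
        (d : ℂ) * ((a : ℂ) * τ + b) / δ' := by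
      field_simp
      push_cast
      linear_combination (τ : ℂ) * e3 + e1
    have l2 : (v : ℂ) * (((α : ℂ) * τ + β) / δ') + (x : ℂ) =
        ((c : ℂ) * τ + e) / δ' := by
      field_simp
      linear_combination (τ : ℂ) * e4 + e2
    rw [l1, l2]
    field_simp
    simp only [a, b, c, e]
    ring_nf

/-- `exists_smul_eq_scaleTau_smul'` without the divisibility of the lower left entry. -/
theorem exists_smul_eq_scaleTau_smul (d : ℕ) [NeZero d] (g : SL(2, ℤ)) :
    ∃ (h : SL(2, ℤ)) (α δ : ℕ) (β : ℤ), 0 < α ∧ 0 < δ ∧ α * δ = d ∧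
      ∀ τ σ : ℍ, (σ : ℂ) = ((α : ℂ) * τ + β) / δ → scaleTau d (g • τ) = h • σ := by
  obtain ⟨h, α, δ, β, h1, h2, h3, -, h4⟩ := exists_smul_eq_scaleTau_smul' d g
  exact ⟨h, α, δ, β, h1, h2, h3, h4⟩

theorem scaleTau_smul_of_mem {N : ℕ} (d : ℕ) [NeZero d] {γ : SL(2, ℤ)}
    (hγ : γ ∈ Gamma0 (N * d)) :
    ∃ γ' ∈ Gamma0 N, ∀ τ : ℍ, scaleTau d (γ • τ) = γ' • scaleTau d τ := by
  rw [Gamma0_mem, ZMod.intCast_zmod_eq_zero_iff_dvd] at hγ
  obtain ⟨k, hk⟩ := hγ
  have hdet : γ.1 0 0 * γ.1 1 1 - γ.1 0 1 * γ.1 1 0 = 1 := by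
    have := γ.2
    rw [Matrix.det_fin_two] at this
    linarith [this]
  obtain ⟨γ', hγ'⟩ : ∃ γ' : SL(2, ℤ), γ'.1 = !![γ.1 0 0, d * γ.1 0 1; N * k, γ.1 1 1] := by
    refine ⟨⟨!![γ.1 0 0, d * γ.1 0 1; N * k, γ.1 1 1], ?_⟩, rfl⟩
    rw [Matrix.det_fin_two_of]
    rw [hk] at hdet
    push_cast at hdet
    linarith [hdet]
  refine ⟨γ', ?_, fun τ => ?_⟩
  · rw [Gamma0_mem, hγ']
    simp
  · apply UpperHalfPlane.ext
    rw [coe_scaleTau, coe_smul_eq γ τ, coe_smul_eq γ' _, coe_scaleTau, hγ']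
    simp only [Matrix.of_apply, Matrix.cons_val', Matrix.cons_val_zero, Matrix.cons_val_one,
      Matrix.cons_val_fin_one, Matrix.empty_val']
    rw [hk]
    push_cast
    rw [mul_div_assoc']
    congr 1 <;> ring

theorem comp_scaleTau_mem_modHol {N : ℕ} (d : ℕ) [NeZero d] {F : ℍ → ℂ} (hF : F ∈ ModHol N) :
    (fun τ => F (scaleTau d τ)) ∈ ModHol (N * d) := by
  refine ⟨?_, fun γ hγ τ => ?_, fun g => ?_⟩
  · rw [mem_hol_iff_differentiableOn]
    have hd : (0 : ℝ) < d := by exact_mod_cast Nat.pos_of_ne_zero (NeZero.ne d)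
    refine DifferentiableOn.congr (f := (F ∘ ofComplex) ∘ fun z : ℂ => (d : ℂ) * z) ?_ ?_
    · exact (mem_hol_iff_differentiableOn.mp hF.1).comp (by fun_prop)
        (fun z hz => by simpa using mul_pos hd hz)
    · intro z hz
      simp only [comp_apply, ofComplex_apply_of_im_pos hz]
      rw [show (d : ℂ) * z = ((scaleTau d ⟨z, hz⟩ : ℍ) : ℂ) from rfl, ofComplex_apply]
  · obtain ⟨γ', hγ', he⟩ := scaleTau_smul_of_mem d hγ
    show F (scaleTau d (γ • τ)) = F (scaleTau d τ)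
    rw [he, hF.2.1 γ' hγ']
  · obtain ⟨h, α, δ, β, hα, hδ, -, he⟩ := exists_smul_eq_scaleTau_smul d g
    obtain ⟨n, hn⟩ := hF.2.2 h
    rw [isBoundedAtImInfty_iff] at hn
    obtain ⟨M, A, hMA⟩ := hn
    refine ⟨n * α, ?_⟩
    rw [isBoundedAtImInfty_iff]
    refine ⟨M, max 0 (A * δ / α), fun τ hτ => ?_⟩
    have hδ' : (0 : ℝ) < δ := by exact_mod_cast hδ
    have hα' : (0 : ℝ) < α := by exact_mod_cast hα
    have him : (((α : ℂ) * τ + β) / δ).im = α * τ.im / δ := by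
      simp [Complex.div_natCast_im]
    let σ : ℍ := ⟨((α : ℂ) * τ + β) / δ, by rw [him]; have := τ.im_pos; positivity⟩
    have hσim : σ.im = α * τ.im / δ := him
    have hσA : A ≤ σ.im := by
      rw [hσim, le_div_iff₀ hδ']
      have := le_trans (le_max_right _ _) hτ
      rw [div_le_iff₀ hα'] at this
      linarith
    have := hMA σ hσA
    simp only [he τ σ rfl, norm_mul, norm_pow, norm_qParam_one] at this ⊢
    refine le_trans (mul_le_mul_of_nonneg_right ?_ (norm_nonneg _)) this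
    rw [← Real.exp_nat_mul, ← Real.exp_nat_mul]
    apply Real.exp_le_exp.mpr
    rw [hσim]
    have h1 : (α : ℝ) * τ.im / δ ≤ α * τ.im :=
      div_le_self (by have := τ.im_pos; positivity) (by exact_mod_cast hδ)
    have h2 : (0 : ℝ) ≤ n * (2 * π) := by positivity
    push_cast
    nlinarith [mul_le_mul_of_nonneg_left h1 h2]

theorem jInv_mem_modHol (N : ℕ) : jInv ∈ ModHol N := by
  refine ⟨mdifferentiable_jInv, fun γ _ τ => jInv_smul γ τ, fun g => ⟨1, ?_⟩⟩
  simp only [jInv_smul, pow_one]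
  exact isBoundedAtImInfty_qMulJ

/-- `j (d τ)` as a modular function for `Γ₀(N)`, `d ∣ N`. -/
def jAt (N d : ℕ) [NeZero d] (hd : d ∣ N) : ModHol N :=
  ⟨fun τ => jInv (scaleTau d τ), by
    have h := comp_scaleTau_mem_modHol d (jInv_mem_modHol 1)
    rw [one_mul] at h
    exact modHol_mono hd h⟩

/-- `j` as an element of `ModHol N`. -/
def jMod (N : ℕ) : ModHol N := ⟨jInv, jInv_mem_modHol N⟩

variable (N : ℕ) [NeZero N]

omit [NeZero N] in
theorem conj_T_pow_mem_Gamma0 (g : SL(2, ℤ)) {w : ℕ} (hw : (N : ℤ) ∣ (g.1 1 0) ^ 2 * w) :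
    g * ModularGroup.T ^ w * g⁻¹ ∈ Gamma0 N := by
  rw [Gamma0_mem, ZMod.intCast_zmod_eq_zero_iff_dvd]
  obtain ⟨k, hk⟩ := hw
  refine ⟨-k, ?_⟩
  have hT : (↑(ModularGroup.T ^ w) : Matrix (Fin 2) (Fin 2) ℤ) = !![1, (w : ℤ); 0, 1] := by
    rw [← zpow_natCast, ModularGroup.coe_T_zpow]
  simp only [Matrix.SpecialLinearGroup.coe_mul, hT, Matrix.SpecialLinearGroup.coe_inv,
    Matrix.adjugate_fin_two, Matrix.mul_apply, Fin.sum_univ_two]
  simp
  linear_combination -hk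

omit [NeZero N] in
theorem periodic_comp_smul (g : SL(2, ℤ)) {F : ℍ → ℂ} (hF : F ∈ ModHol N) {w : ℕ}
    (hw : (N : ℤ) ∣ (g.1 1 0) ^ 2 * w) :
    Periodic ((fun τ : ℍ => F (g • τ)) ∘ ofComplex) (w : ℂ) := by
  intro z
  by_cases hz : 0 < z.im
  · have hz' : 0 < (z + (w : ℂ)).im := by simpa using hz
    simp only [comp_apply, ofComplex_apply_of_im_pos hz, ofComplex_apply_of_im_pos hz']
    rw [← hF.2.1 _ (conj_T_pow_mem_Gamma0 N g hw) (g • ⟨z, hz⟩), ← mul_smul]
    rw [inv_mul_cancel_right, mul_smul]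
    congr 2
    rw [← zpow_natCast, modular_T_zpow_smul]
    apply UpperHalfPlane.ext
    simp [add_comm]
  · have hz' : (z + (w : ℂ)).im ≤ 0 := by simpa using not_lt.mp hz
    simp only [comp_apply, ofComplex_apply_of_im_nonpos hz',
      ofComplex_apply_of_im_nonpos (not_lt.mp hz)]

theorem comp_slash_mem_holInfty (g : SL(2, ℤ)) {F : ℍ → ℂ} (hF : F ∈ ModHol N) :
    (fun τ : ℍ => F (g • τ)) ∈ HolInfty N := by
  exact ⟨smul_mem_hol hF.1 g, periodic_comp_smul N g hF (dvd_mul_left _ _), hF.2.2 g⟩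

/-- `F ↦ F ∘ g` into the functions periodic of period `N`. -/
def modHolToHolInfty (g : SL(2, ℤ)) : ModHol N →ₐ[ℂ] HolInfty N where
  toFun F := ⟨fun τ : ℍ => (F : ℍ → ℂ) (g • τ), comp_slash_mem_holInfty N g F.2⟩
  map_one' := rfl
  map_mul' _ _ := rfl
  map_zero' := rfl
  map_add' _ _ := rfl
  commutes' _ := rfl

/-- Expansion of `F (g • τ)` in `exp (2 π i τ / N)`. -/
def qexpAt (g : SL(2, ℤ)) : ModHol N →ₐ[ℂ] LaurentSeries ℂ :=
  (expansion N).comp (modHolToHolInfty N g)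

omit [NeZero N] in
theorem mem_holInfty_one_of_mem_modHol {F : ℍ → ℂ} (hF : F ∈ ModHol N) : F ∈ HolInfty 1 := by
  refine ⟨hF.1, ?_, by simpa using hF.2.2 1⟩
  have := periodic_comp_smul N 1 hF (w := 1) (by simp)
  simpa using this

/-- The `q`-expansion at infinity. -/
def qexp : ModHol N →ₐ[ℂ] LaurentSeries ℂ :=
  (expansion 1).comp (Subalgebra.inclusion fun _ hF => mem_holInfty_one_of_mem_modHol N hF)

theorem qexp_injective : Function.Injective (qexp N) := by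
  intro F G h
  have h1 := congrArg Subtype.val (expansion_injective 1 h)
  exact Subtype.ext h1

theorem qexpAt_injective (g : SL(2, ℤ)) : Function.Injective (qexpAt N g) := by
  intro F G h
  have h1 := congrArg Subtype.val (expansion_injective N h)
  refine Subtype.ext (funext fun τ => ?_)
  have h2 := congrFun h1 (g⁻¹ • τ)
  simpa [modHolToHolInfty] using h2

theorem qexpAt_one (F : ModHol N) :
    qexpAt N 1 F = ModularCurve.qExpand ℂ N (qexp N F) := by
  show expansionFun N (fun τ : ℍ => (F : ℍ → ℂ) ((1 : SL(2, ℤ)) • τ)) =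
    ModularCurve.qExpand ℂ N (expansionFun 1 (F : ℍ → ℂ))
  rw [← expansionFun_mul_period 1 N (mem_holInfty_one_of_mem_modHol N F.2)]
  simp only [one_mul, one_smul]

omit [NeZero N] in
theorem qExpand_ofPowerSeries {k : ℕ} [NeZero k] {P Q : PowerSeries ℂ}
    (hQ : ∀ m, Q.coeff m = if k ∣ m then P.coeff (m / k) else 0) :
    ModularCurve.qExpand ℂ k (HahnSeries.ofPowerSeries ℤ ℂ P) =
      HahnSeries.ofPowerSeries ℤ ℂ Q := by
  have hk0 := Nat.pos_of_ne_zero (NeZero.ne k)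
  ext j
  by_cases hkj : (k : ℤ) ∣ j
  · obtain ⟨i, rfl⟩ := hkj
    rw [ModularCurve.qExpand_coeff_mul]
    rcases lt_or_ge i 0 with hi | hi
    · rw [ModularCurve.ofPowerSeries_coeff_of_neg _ hi,
        ModularCurve.ofPowerSeries_coeff_of_neg _
          (mul_neg_of_pos_of_neg (by exact_mod_cast hk0) hi)]
    · lift i to ℕ using hi
      rw [← Nat.cast_mul, HahnSeries.ofPowerSeries_apply_coeff,
        HahnSeries.ofPowerSeries_apply_coeff, hQ, if_pos (dvd_mul_right k i),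
        Nat.mul_div_cancel_left _ hk0]
  · rw [ModularCurve.qExpand_coeff_of_not_dvd k _ hkj]
    rcases lt_or_ge j 0 with hj | hj
    · exact (ModularCurve.ofPowerSeries_coeff_of_neg _ hj).symm
    · lift j to ℕ using hj
      rw [HahnSeries.ofPowerSeries_apply_coeff, hQ, if_neg]
      exact fun hd => hkj (Int.natCast_dvd_natCast.mpr hd)

omit [NeZero N] in
theorem order_qExpand {R : Type*} [CommRing R] (k : ℕ) [NeZero k] (x : LaurentSeries R) :
    (ModularCurve.qExpand R k x).order = (k : ℤ) * x.order := by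
  rcases eq_or_ne x 0 with rfl | hx
  · simp
  have hne : ModularCurve.qExpand R k x ≠ 0 :=
    fun h => hx ((map_eq_zero_iff _ (ModularCurve.qExpand_injective k)).mp h)
  have h1 : (ModularCurve.qExpand R k x).coeff ((k : ℤ) * x.order) ≠ 0 := by
    rw [ModularCurve.qExpand_coeff_mul]
    exact fun h => hx (HahnSeries.coeff_order_eq_zero.mp h)
  refine le_antisymm (HahnSeries.order_le_of_coeff_ne_zero h1) ?_
  have h2 : (ModularCurve.qExpand R k x).coeff (ModularCurve.qExpand R k x).order ≠ 0 :=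
    fun h => hne (HahnSeries.coeff_order_eq_zero.mp h)
  by_cases hd : (k : ℤ) ∣ (ModularCurve.qExpand R k x).order
  · obtain ⟨i, hi⟩ := hd
    rw [hi, ModularCurve.qExpand_coeff_mul] at h2
    rw [hi]
    exact mul_le_mul_of_nonneg_left (HahnSeries.order_le_of_coeff_ne_zero h2) (by positivity)
  · exact absurd (ModularCurve.qExpand_coeff_of_not_dvd k _ hd) h2

omit [NeZero N] in
theorem qParam_scaleTau (ℓ : ℕ) [NeZero ℓ] (τ : ℍ) :
    Function.Periodic.qParam 1 (scaleTau ℓ τ : ℂ) = Function.Periodic.qParam 1 (τ : ℂ) ^ ℓ := by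
  simp only [Function.Periodic.qParam, coe_scaleTau, ← Complex.exp_nat_mul]
  congr 1
  push_cast
  ring

omit [NeZero N] in
theorem expansionFun_comp_scaleTau (ℓ : ℕ) [NeZero ℓ] {F : ℍ → ℂ} (hF : F ∈ HolInfty 1)
    (hG : (fun τ => F (scaleTau ℓ τ)) ∈ HolInfty 1) :
    expansionFun 1 (fun τ => F (scaleTau ℓ τ)) =
      ModularCurve.qExpand ℂ ℓ (expansionFun 1 F) := by
  have hn := isBounded_poleBound hF.2.2
  set n := poleBound F
  have hℓ : (1 : ℝ) ≤ ℓ := by exact_mod_cast Nat.pos_of_ne_zero (NeZero.ne ℓ)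
  have hb : IsBoundedAtImInfty (fun τ : ℍ =>
      Function.Periodic.qParam 1 (τ : ℂ) ^ (n * ℓ) * F (scaleTau ℓ τ)) := by
    rw [isBoundedAtImInfty_iff] at hn ⊢
    obtain ⟨M, A, hMA⟩ := hn
    refine ⟨M, max A 0, fun τ hτ => ?_⟩
    have him : (scaleTau ℓ τ).im = ℓ * τ.im := by
      show (scaleTau ℓ τ : ℂ).im = _
      simp [coe_scaleTau]
    have h := hMA (scaleTau ℓ τ) (by rw [him]; nlinarith [le_max_left A 0, le_max_right A 0])
    rwa [mul_comm n, pow_mul, ← qParam_scaleTau]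
  let P := qExpansion (1 : ℕ) (fun τ : ℍ => Function.Periodic.qParam 1 (τ : ℂ) ^ n * F τ)
  have hQ : qExpansion (1 : ℕ) (fun τ : ℍ =>
      Function.Periodic.qParam 1 (τ : ℂ) ^ (n * ℓ) * F (scaleTau ℓ τ)) =
      PowerSeries.mk fun m => if ℓ ∣ m then P.coeff (m / ℓ) else 0 := by
    refine qExpansion_eq_of_hasSum 1 (qParam_pow_mul_mem 1 hG (n * ℓ)) hb fun τ => ?_
    have hs := hasSum_qExpansion' 1 (qParam_pow_mul_mem 1 hF n) hn (scaleTau ℓ τ)
    have hinj : Function.Injective fun m : ℕ => m * ℓ := mul_left_injective₀ (NeZero.ne ℓ)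
    rw [← hinj.hasSum_iff (fun m hm => ?_)]
    · rw [mul_comm n ℓ, pow_mul, ← qParam_scaleTau]
      refine hs.congr_fun fun m => ?_
      simp only [comp_apply, PowerSeries.coeff_mk, dvd_mul_left, if_true,
        Nat.mul_div_cancel _ (Nat.pos_of_ne_zero (NeZero.ne ℓ)), Nat.cast_one]
      rw [qParam_scaleTau, mul_comm m ℓ, pow_mul]
      simp only [P, Nat.cast_one]
    · rw [PowerSeries.coeff_mk, if_neg, zero_mul]
      exact fun hd => hm ⟨m / ℓ, Nat.div_mul_cancel hd⟩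
  rw [expansionFun_eq 1 hG hb, hQ, expansionFun, map_mul, ModularCurve.qExpand_single,
    qExpand_ofPowerSeries (P := P) (Q := PowerSeries.mk fun m =>
      if ℓ ∣ m then P.coeff (m / ℓ) else 0) fun m => PowerSeries.coeff_mk _ _]
  simp only [n]
  congr 2
  push_cast
  ring_nf

omit [NeZero N] in
theorem expansionFun_jInv :
    expansionFun 1 jInv = ModularCurve.coeffEmb ℂ ModularCurve.jq := by
  have hmem : jInv ∈ HolInfty 1 := mem_holInfty_one_of_mem_modHol 1 (jInv_mem_modHol 1)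
  have hn : IsBoundedAtImInfty (fun τ : ℍ => Function.Periodic.qParam 1 (τ : ℂ) ^ 1 * jInv τ) := by
    simp only [pow_one]
    exact isBoundedAtImInfty_qMulJ
  rw [expansionFun_eq 1 hmem hn]
  simp only [pow_one, Nat.cast_one]
  rw [show (fun τ : ℍ => Function.Periodic.qParam 1 (τ : ℂ) * jInv τ) = qMulJ from rfl,
    qExpansion_qMulJ, ModularCurve.coeffEmb, ModularCurve.jq, map_mul,
    ModularCurve.coeffMap_single, (algebraMap ℚ ℂ).map_one]
  congr 1
  ext j
  rw [ModularCurve.coeffMap_coeff]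
  rcases lt_or_ge j 0 with hj | hj
  · rw [ModularCurve.ofPowerSeries_coeff_of_neg _ hj,
      ModularCurve.ofPowerSeries_coeff_of_neg _ hj, map_zero]
  · lift j to ℕ using hj
    rw [HahnSeries.ofPowerSeries_apply_coeff, HahnSeries.ofPowerSeries_apply_coeff,
      PowerSeries.coeff_map, ModularCurve.jNumQ, PowerSeries.coeff_map]
    simp

theorem qexp_jAt {d : ℕ} [NeZero d] (hd : d ∣ N) :
    qexp N (jAt N d hd) =
      ModularCurve.coeffEmb ℂ (ModularCurve.qExpand ℚ d ModularCurve.jq) := by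
  show expansionFun 1 (fun τ => jInv (scaleTau d τ)) = _
  rw [expansionFun_comp_scaleTau d (mem_holInfty_one_of_mem_modHol 1 (jInv_mem_modHol 1))
    (mem_holInfty_one_of_mem_modHol _ (comp_scaleTau_mem_modHol d (jInv_mem_modHol 1))),
    expansionFun_jInv]
  ext k
  by_cases hk : (d : ℤ) ∣ k
  · obtain ⟨i, rfl⟩ := hk
    rw [ModularCurve.qExpand_coeff_mul, ModularCurve.coeffEmb_coeff,
      ModularCurve.coeffEmb_coeff, ModularCurve.qExpand_coeff_mul]
  · rw [ModularCurve.qExpand_coeff_of_not_dvd d _ hk, ModularCurve.coeffEmb_coeff,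
      ModularCurve.qExpand_coeff_of_not_dvd d _ hk, map_zero]

theorem qexp_jMod : qexp N (jMod N) = ModularCurve.coeffEmb ℂ ModularCurve.jq := by
  exact expansionFun_jInv

theorem qexp_scale {ℓ : ℕ} [NeZero ℓ] (F : ModHol N) :
    qexp (N * ℓ) ⟨_, comp_scaleTau_mem_modHol ℓ F.2⟩ =
      ModularCurve.qExpand ℂ ℓ (qexp N F) := by
  exact expansionFun_comp_scaleTau ℓ (mem_holInfty_one_of_mem_modHol N F.2)
    (mem_holInfty_one_of_mem_modHol _ (comp_scaleTau_mem_modHol ℓ F.2))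

theorem order_qexpAt_jMod (g : SL(2, ℤ)) : (qexpAt N g (jMod N)).order = -(N : ℤ) := by
  have h : qexpAt N g (jMod N) = qexpAt N 1 (jMod N) := by
    show expansionFun N (fun τ : ℍ => jInv (g • τ)) =
      expansionFun N (fun τ : ℍ => jInv ((1 : SL(2, ℤ)) • τ))
    simp only [jInv_smul]
  have hc : (ModularCurve.coeffEmb ℂ ModularCurve.jq).coeff (-1) ≠ 0 := by simp
  have ho : (ModularCurve.coeffEmb ℂ ModularCurve.jq).order = -1 := by
    refine le_antisymm (HahnSeries.order_le_of_coeff_ne_zero hc) ?_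
    by_contra hlt
    rw [not_le] at hlt
    have hne : ModularCurve.coeffEmb ℂ ModularCurve.jq ≠ 0 := fun h0 => hc (by simp [h0])
    refine hne (HahnSeries.coeff_order_eq_zero.mp ?_)
    rw [ModularCurve.coeffEmb_coeff, ModularCurve.coeff_jq_of_lt hlt, map_zero]
  rw [h, qexpAt_one, qexp_jMod, order_qExpand, ho, mul_neg_one]

omit [NeZero N] in
theorem isBoundedAtImInfty_div_qParam {G : ℍ → ℂ} (hG : G ∈ HolInfty 1) (hz : IsZeroAtImInfty G) :
    IsBoundedAtImInfty (fun τ : ℍ => G τ / Function.Periodic.qParam 1 (τ : ℂ)) := by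
  have h := hz.exp_decay_atImInfty (h := 1) one_pos (by simpa using hG.2.1) hG.1
    hz.isBoundedAtImInfty
  obtain ⟨C, hC⟩ := h.bound
  rw [IsBoundedAtImInfty, Filter.BoundedAtFilter, Asymptotics.isBigO_iff]
  refine ⟨C, hC.mono fun τ hτ => ?_⟩
  simp only [Pi.one_apply, norm_one, mul_one, norm_div, norm_qParam_one, div_one,
    Real.norm_of_nonneg (Real.exp_pos _).le] at hτ ⊢
  rwa [div_le_iff₀ (Real.exp_pos _)]

theorem exists_eq_eval_of_bounded : ∀ (n : ℕ) (G : ℍ → ℂ), G ∈ ModHol N →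
    (∀ (g : SL(2, ℤ)) (τ : ℍ), G (g • τ) = G τ) →
    IsBoundedAtImInfty (fun τ : ℍ => Function.Periodic.qParam 1 (τ : ℂ) ^ n * G τ) →
    ∃ P : Polynomial ℂ, G = fun τ => P.eval (jInv τ) := by
  intro n
  induction n with
  | zero =>
    intro G hG hinv hb
    have hsl : ∀ g : SL(2, ℤ), G ∣[(0 : ℤ)] g = G := fun g => by
      funext τ
      rw [ModularForm.SL_slash_apply, hinv g τ]
      simp
    obtain ⟨c, hc⟩ := FLTA.Dim.exists_eq_const_of_mem_MF_zero
      (Γ := (⊤ : Subgroup SL(2, ℤ))) (f := G) ⟨hG.1, fun g _ => hsl g, fun g => by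
        rw [hsl]; simpa using hb⟩
    exact ⟨Polynomial.C c, by simpa using hc⟩
  | succ n ih =>
    intro G hG hinv hb
    have hmem := qParam_pow_mul_mem 1 (mem_holInfty_one_of_mem_modHol N hG) (n + 1)
    let H : HolInfty 1 := ⟨_, hmem⟩
    have hlim := tendsto_atImInfty_coeff_zero 1 H ((isBoundedAtImInfty_iff_order 1 H).mp hb)
    set c := (expansion 1 H).coeff 0
    set G' : ℍ → ℂ := G - c • jInv ^ (n + 1)
    have hG' : G' ∈ ModHol N :=
      sub_mem hG (Subalgebra.smul_mem _ (pow_mem (jInv_mem_modHol N) _) c)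
    have hinv' : ∀ (g : SL(2, ℤ)) (τ : ℍ), G' (g • τ) = G' τ := fun g τ => by
      simp only [G', Pi.sub_apply, Pi.smul_apply, Pi.pow_apply, hinv g τ, jInv_smul]
    have hz : IsZeroAtImInfty
        (fun τ : ℍ => Function.Periodic.qParam 1 (τ : ℂ) ^ (n + 1) * G' τ) := by
      have h1 := hlim.sub ((tendsto_qMulJ_atImInfty.pow (n + 1)).const_mul c)
      simp only [one_pow, mul_one, sub_self] at h1
      refine h1.congr fun τ => ?_
      simp only [H, G', qMulJ, Pi.sub_apply, Pi.smul_apply, Pi.pow_apply, smul_eq_mul, mul_pow]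
      ring
    have hb' : IsBoundedAtImInfty (fun τ : ℍ => Function.Periodic.qParam 1 (τ : ℂ) ^ n * G' τ) := by
      have := isBoundedAtImInfty_div_qParam
        (qParam_pow_mul_mem 1 (mem_holInfty_one_of_mem_modHol N hG') (n + 1)) hz
      refine Eq.subst (motive := IsBoundedAtImInfty) (funext fun τ => ?_) this
      rw [pow_succ]
      field_simp [Function.Periodic.qParam_ne_zero]
    obtain ⟨P, hP⟩ := ih G' hG' hinv' hb'
    refine ⟨P + Polynomial.C c * Polynomial.X ^ (n + 1), funext fun τ => ?_⟩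
    have := congrFun hP τ
    simp only [G', Pi.sub_apply, Pi.smul_apply, Pi.pow_apply, smul_eq_mul] at this
    simp [← this]

/-- A modular function of level one is a polynomial in `j`. -/
theorem exists_aeval_jMod_eq {F : ℍ → ℂ} (hF : F ∈ ModHol N)
    (hinv : ∀ (g : SL(2, ℤ)) (τ : ℍ), F (g • τ) = F τ) :
    ∃ P : Polynomial ℂ, F = fun τ => P.eval (jInv τ) := by
  obtain ⟨n, hn⟩ := (mem_holInfty_one_of_mem_modHol N hF).2.2
  exact exists_eq_eval_of_bounded N n F hF hinv hn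

/-- The width of the cusp `g ∞` of `Γ₀(N)`. -/
def cuspWidth (g : SL(2, ℤ)) : ℕ := N / Nat.gcd ((g.1 1 0).natAbs ^ 2) N

/-- `N` divided by the width of the cusp `g ∞`. -/
def cuspDiv (g : SL(2, ℤ)) : ℕ := Nat.gcd ((g.1 1 0).natAbs ^ 2) N

theorem cuspDiv_mul_cuspWidth (g : SL(2, ℤ)) : cuspDiv N g * cuspWidth N g = N :=
  Nat.mul_div_cancel' (Nat.gcd_dvd_right _ _)

theorem cuspDiv_dvd_order_qexpAt (g : SL(2, ℤ)) (F : ModHol N) :
    (cuspDiv N g : ℤ) ∣ (qexpAt N g F).order := by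
  have hw : cuspWidth N g ≠ 0 := by
    intro h0
    have := cuspDiv_mul_cuspWidth N g
    rw [h0, mul_zero] at this
    exact NeZero.ne N this.symm
  have hk : cuspDiv N g ≠ 0 := by
    intro h0
    have := cuspDiv_mul_cuspWidth N g
    rw [h0, zero_mul] at this
    exact NeZero.ne N this.symm
  haveI : NeZero (cuspWidth N g) := ⟨hw⟩
  haveI : NeZero (cuspDiv N g) := ⟨hk⟩
  have hdvd : (N : ℤ) ∣ (g.1 1 0) ^ 2 * (cuspWidth N g : ℕ) := by
    obtain ⟨r, hr⟩ := Nat.gcd_dvd_left ((g.1 1 0).natAbs ^ 2) N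
    have hN := cuspDiv_mul_cuspWidth N g
    refine Int.natAbs_dvd_natAbs.mp ?_
    simp only [Int.natAbs_mul, Int.natAbs_pow, Int.natAbs_natCast]
    refine ⟨r, ?_⟩
    rw [hr]
    unfold cuspDiv at hN
    calc Nat.gcd ((g.1 1 0).natAbs ^ 2) N * r * cuspWidth N g
        = Nat.gcd ((g.1 1 0).natAbs ^ 2) N * cuspWidth N g * r := by ring
      _ = N * r := by rw [hN]
  have hmem : (fun τ : ℍ => (F : ℍ → ℂ) (g • τ)) ∈ HolInfty (cuspWidth N g) :=
    ⟨smul_mem_hol F.2.1 g, periodic_comp_smul N g F.2 hdvd, F.2.2.2 g⟩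
  have hN : N = cuspWidth N g * cuspDiv N g := by
    rw [mul_comm]; exact (cuspDiv_mul_cuspWidth N g).symm
  have h1 : qexpAt N g F = ModularCurve.qExpand ℂ (cuspDiv N g)
      (expansionFun (cuspWidth N g) (fun τ : ℍ => (F : ℍ → ℂ) (g • τ))) := by
    rw [← expansionFun_mul_period (cuspWidth N g) (cuspDiv N g) hmem]
    show expansionFun N _ = _
    rw [← hN]
    congr 1
  rw [h1, order_qExpand]
  exact dvd_mul_right _ _

omit [NeZero N] in
theorem discriminant_slash_apply (m : ℕ) (g : SL(2, ℤ)) (τ : ℍ) :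
    ModularForm.discriminant (g • τ) ^ m * denom g τ ^ (-(12 * m : ℤ)) =
      ModularForm.discriminant τ ^ m := by
  have h := congrFun (FLTA.Dim.discriminant_mem.2.1 g (Subgroup.mem_top g)) τ
  rw [ModularForm.SL_slash_apply] at h
  conv_rhs => rw [← h]
  rw [mul_pow, ← zpow_natCast (denom _ _ ^ (-12 : ℤ)) m, ← zpow_mul]
  congr 2

omit [NeZero N] in
theorem tendsto_qParam_div_discriminant :
    Tendsto (fun τ : ℍ => Function.Periodic.qParam 1 (τ : ℂ) / ModularForm.discriminant τ)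
      atImInfty (𝓝 1) := by
  have h := ModularForm.tendsto_atImInfty_tprod_one_sub_eta_q_pow.inv₀ one_ne_zero
  rw [inv_one] at h
  refine h.congr fun τ => ?_
  rw [ModularForm.discriminant_eq_q_prod]
  field_simp [Function.Periodic.qParam_ne_zero]

/-- Clearing the poles at the cusps with a power of `Δ` gives a modular form. -/
theorem exists_modularForm_eq (F : ModHol N) :
    ∃ (m : ℕ) (f : ModularForm ((Gamma0 N).map (Matrix.SpecialLinearGroup.mapGL ℝ)) (12 * m)),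
      ∀ τ : ℍ, f τ = ModularForm.discriminant τ ^ m * (F : ℍ → ℂ) τ := by
  have hn : ∀ c : SL(2, ℤ) ⧸ Gamma0 N, GrowthInfty (fun τ : ℍ => (F : ℍ → ℂ) (c.out⁻¹ • τ)) :=
    fun c => F.2.2.2 _
  choose n hn using hn
  have : Fintype (SL(2, ℤ) ⧸ Gamma0 N) := Fintype.ofFinite _
  set m := Finset.univ.sup n
  let f : ℍ → ℂ := fun τ => ModularForm.discriminant τ ^ m * (F : ℍ → ℂ) τ
  have hsl : ∀ (g : SL(2, ℤ)) (τ : ℍ), (f ∣[(12 * m : ℤ)] g) τ =
      ModularForm.discriminant τ ^ m * (F : ℍ → ℂ) (g • τ) := fun g τ => by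
    rw [ModularForm.SL_slash_apply, ← discriminant_slash_apply m g τ]
    ring
  have hf : f ∈ FLTA.Dim.MF (Gamma0 N) (12 * m : ℤ) := by
    refine ⟨?_, fun γ hγ => funext fun τ => by rw [hsl, F.2.2.1 γ hγ], fun g => ?_⟩
    · refine mul_mem (s := Hol) (pow_mem ?_ m) F.2.1
      exact FLTA.Dim.discriminant_mem.1
    · set c : SL(2, ℤ) ⧸ Gamma0 N := QuotientGroup.mk g⁻¹
      obtain ⟨γ, hγ⟩ := QuotientGroup.mk_out_eq_mul (Gamma0 N) g⁻¹
      have hF : ∀ τ : ℍ, (F : ℍ → ℂ) (g • τ) = (F : ℍ → ℂ) (c.out⁻¹ • τ) := fun τ => by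
        rw [show c.out = g⁻¹ * γ from hγ, mul_inv_rev, inv_inv, mul_smul,
          F.2.2.1 _ (inv_mem γ.2)]
      obtain ⟨d, hd⟩ := Nat.exists_eq_add_of_le (Finset.le_sup (f := n) (Finset.mem_univ c))
      have hq : IsBoundedAtImInfty (fun τ : ℍ =>
          ((Function.Periodic.qParam 1 (τ : ℂ) / ModularForm.discriminant τ) ^ m)⁻¹) :=
        ((tendsto_qParam_div_discriminant.pow m).inv₀ (by simp)).isBigO_one ℝ
      have h := hq.mul ((isBoundedAtImInfty_qParam_pow d).mul (hn c))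
      refine Eq.subst (motive := IsBoundedAtImInfty) (funext fun τ => ?_) h
      simp only [Pi.mul_apply, hsl, hF]
      have hq0 := Function.Periodic.qParam_ne_zero (h := 1) (τ : ℂ)
      have hD0 := ModularForm.discriminant_ne_zero τ
      rw [div_pow, inv_div, show m = n c + d from hd, pow_add, pow_add]
      field_simp
  exact ⟨m, FLTA.Dim.MF.toForm hf, fun _ => rfl⟩

/-- A modular form of weight `12 m` divided by `Δ ^ m`. -/
theorem div_discriminant_mem_modHol (m : ℕ)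
    (f : ModularForm ((Gamma0 N).map (Matrix.SpecialLinearGroup.mapGL ℝ)) (12 * m)) :
    (fun τ : ℍ => f τ / ModularForm.discriminant τ ^ m) ∈ ModHol N := by
  refine ⟨?_, fun γ hγ τ => ?_, fun g => ⟨m, ?_⟩⟩
  · rw [mem_hol_iff_differentiableOn]
    exact (UpperHalfPlane.mdifferentiable_iff.mp f.holo').div
      ((UpperHalfPlane.mdifferentiable_iff.mp FLTA.Dim.discriminant_mem.1).pow m)
      fun z _ => pow_ne_zero _ (ModularForm.discriminant_ne_zero _)
  · have h := congrFun (f.slash_action_eq' _ ⟨γ, hγ, rfl⟩) τ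
    change (⇑f ∣[(12 * m : ℤ)] γ) τ = f τ at h
    rw [ModularForm.SL_slash_apply] at h
    show f (γ • τ) / _ = f τ / _
    rw [← h, ← discriminant_slash_apply m γ τ,
      mul_div_mul_right _ _ (zpow_ne_zero _ (denom_ne_zero _ τ))]
  · by_cases hN : N = 0
    · exact absurd hN (NeZero.ne N)
    have hb : IsBoundedAtImInfty (⇑f ∣[(12 * m : ℤ)] g) := (FLTA.Dim.coe_mem_MF f).2.2 g
    have hq : IsBoundedAtImInfty (fun τ : ℍ =>
        (Function.Periodic.qParam 1 (τ : ℂ) / ModularForm.discriminant τ) ^ m) :=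
      (tendsto_qParam_div_discriminant.pow m).isBigO_one ℝ
    refine Eq.subst (motive := IsBoundedAtImInfty) (funext fun τ => ?_) (hq.mul hb)
    simp only [Pi.mul_apply, ModularForm.SL_slash_apply, div_pow]
    rw [← discriminant_slash_apply m g τ]
    field_simp [zpow_ne_zero, denom_ne_zero]

end FLTA.Bridge
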