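import Fermat.Agent.Curves.BasicCurve
import Fermat.Agent.Curves.BasicOrdExtra
import Mathlib.GroupTheory.Archimedean

/-!
# Places above a point of the line from a complete set of embeddings into a valued field

Let `t` be transcendental in a function field `F/K`, let `σ i : F → E` be all the extensions of one
embedding of `K(t)` and let `w` be an order function on `E` with `w (σ i t) = n > 0`. Then the
places where `t` vanishes are exactly the places `v i` with `w ∘ σ i = d i • v i`, and if orbits of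
size `n / ε i` are contained in the fibres of `v`, with `ε i ∣ w ∘ σ i`, then `d = ε` and the
fibres are exactly those orbits.
-/

set_option autoImplicit false

noncomputable section

open AlgebraicCurve IntermediateField Polynomial

namespace FLTA.Bridge

/-- An integer valued order function with junk value `0` at `0`. -/
structure IsOrdFn {E : Type*} [Field E] (w : E → ℤ) : Prop where
  map_zero : w 0 = 0
  map_mul : ∀ x y : E, x ≠ 0 → y ≠ 0 → w (x * y) = w x + w y
  map_add : ∀ x y : E, x ≠ 0 → y ≠ 0 → x + y ≠ 0 → min (w x) (w y) ≤ w (x + y)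

namespace IsOrdFn

variable {E : Type*} [Field E] {w : E → ℤ} (hw : IsOrdFn w)
include hw

theorem map_one : w 1 = 0 := by
  have h := hw.map_mul 1 1 one_ne_zero one_ne_zero
  rw [mul_one] at h
  omega

theorem map_neg (x : E) : w (-x) = w x := by
  rcases eq_or_ne x 0 with rfl | hx
  · rw [neg_zero]
  have h1 := hw.map_mul (-1) (-1) (by simp) (by simp)
  rw [neg_mul_neg, mul_one, hw.map_one] at h1
  have h2 := hw.map_mul (-1) x (by simp) hx
  rw [neg_one_mul] at h2
  omega

theorem map_inv (x : E) : w x⁻¹ = -w x := by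
  rcases eq_or_ne x 0 with rfl | hx
  · simp [hw.map_zero]
  have h := hw.map_mul x x⁻¹ hx (inv_ne_zero hx)
  rw [mul_inv_cancel₀ hx, hw.map_one] at h
  omega

theorem map_pow (x : E) (k : ℕ) : w (x ^ k) = k * w x := by
  rcases eq_or_ne x 0 with rfl | hx
  · rcases k with _ | k <;> simp [hw.map_zero, hw.map_one]
  induction k with
  | zero => simp [hw.map_one]
  | succ k ih =>
    rw [pow_succ, hw.map_mul _ _ (pow_ne_zero _ hx) hx, ih]
    push_cast
    ring

theorem add_eq_of_lt {x y : E} (hx : x ≠ 0) (hy : y ≠ 0) (h : w x < w y) :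
    w (x + y) = w x := by
  have hne : x + y ≠ 0 := by
    intro h0
    rw [eq_neg_of_add_eq_zero_left h0, hw.map_neg] at h
    exact lt_irrefl _ h
  have h1 := hw.map_add x y hx hy hne
  have h2 := hw.map_add (x + y) (-y) hne (neg_ne_zero.mpr hy) (by simpa using hx)
  rw [add_neg_cancel_right, hw.map_neg] at h2
  omega

theorem nonneg_add {x y : E} (hx : 0 ≤ w x) (hy : 0 ≤ w y) : 0 ≤ w (x + y) := by
  rcases eq_or_ne x 0 with rfl | hx0
  · simpa using hy
  rcases eq_or_ne y 0 with rfl | hy0
  · simpa using hx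
  rcases eq_or_ne (x + y) 0 with h | h
  · rw [h, hw.map_zero]
  exact le_trans (le_min hx hy) (hw.map_add x y hx0 hy0 h)

theorem nonneg_mul {x y : E} (hx : 0 ≤ w x) (hy : 0 ≤ w y) : 0 ≤ w (x * y) := by
  rcases eq_or_ne x 0 with rfl | hx0
  · simp [hw.map_zero]
  rcases eq_or_ne y 0 with rfl | hy0
  · simp [hw.map_zero]
  rw [hw.map_mul x y hx0 hy0]
  omega

theorem nonneg_coeff_prod_X_sub_C (s : Multiset E) (h : ∀ r ∈ s, 0 ≤ w r) (k : ℕ) :
    0 ≤ w ((s.map fun r => X - C r).prod.coeff k) := by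
  induction s using Multiset.induction_on generalizing k with
  | empty => simp [coeff_one]; split_ifs <;> simp [hw.map_zero, hw.map_one]
  | cons a s ih =>
    have ha : 0 ≤ w (-a) := by rw [hw.map_neg]; exact h a (Multiset.mem_cons_self a s)
    have ih' := fun k => ih (fun r hr => h r (Multiset.mem_cons_of_mem hr)) k
    rw [Multiset.map_cons, Multiset.prod_cons, sub_eq_add_neg, ← _root_.map_neg C, add_mul, coeff_add,
      coeff_C_mul]
    refine hw.nonneg_add ?_ (hw.nonneg_mul ha (ih' k))
    rcases k with _ | k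
    · simp [hw.map_zero]
    · rw [coeff_X_mul]
      exact ih' k

variable {K : Type*} [Field K] {φ : K →+* E}

/-- At a zero of `s` the order of a polynomial in `s` is governed by its trailing degree. -/
theorem map_eval₂ (hK : ∀ c, w (φ c) = 0) {s : E} (hs : 0 < w s) {p : K[X]} (hp : p ≠ 0) :
    p.eval₂ φ s ≠ 0 ∧ w (p.eval₂ φ s) = (p.natTrailingDegree : ℤ) * w s := by
  have hs0 : s ≠ 0 := fun h => by rw [h, hw.map_zero] at hs; omega
  obtain ⟨q, hq⟩ : X ^ p.natTrailingDegree ∣ p := by
    rw [X_pow_dvd_iff]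
    exact fun d hd => coeff_eq_zero_of_lt_natTrailingDegree hd
  have hq0 : q.coeff 0 ≠ 0 := by
    have h : p.coeff p.natTrailingDegree ≠ 0 := mem_support_iff.mp
      (natTrailingDegree_mem_support_of_nonzero hp)
    intro h0
    apply h
    have hk := congrArg (fun r : K[X] => r.coeff p.natTrailingDegree) hq
    simp only [coeff_X_pow_mul'] at hk
    simpa [h0] using hk
  have hnn : ∀ r : K[X], 0 ≤ w (r.eval₂ φ s) := by
    intro r
    induction r using Polynomial.induction_on' with
    | add a b ha hb => rw [eval₂_add]; exact hw.nonneg_add ha hb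
    | monomial k a =>
      rw [eval₂_monomial]
      refine hw.nonneg_mul (hK a).ge ?_
      rw [hw.map_pow]
      exact mul_nonneg (Int.natCast_nonneg k) hs.le
  have hc : φ (q.coeff 0) ≠ 0 := (map_ne_zero φ).mpr hq0
  have hqs : q.eval₂ φ s ≠ 0 ∧ w (q.eval₂ φ s) = 0 := by
    obtain ⟨r, hr⟩ : X ∣ q - C (q.coeff 0) := by rw [X_dvd_iff]; simp
    have hq' : q.eval₂ φ s = φ (q.coeff 0) + s * r.eval₂ φ s := by
      conv_lhs => rw [← sub_add_cancel q (C (q.coeff 0)), hr]
      rw [eval₂_add, eval₂_mul, eval₂_X, eval₂_C]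
      ring
    rcases eq_or_ne (r.eval₂ φ s) 0 with h0 | h0
    · rw [hq', h0, mul_zero, add_zero]; exact ⟨hc, hK _⟩
    have hlt : w (φ (q.coeff 0)) < w (s * r.eval₂ φ s) := by
      rw [hK, hw.map_mul _ _ hs0 h0]
      have := hnn r
      omega
    have hw' := hw.add_eq_of_lt hc (mul_ne_zero hs0 h0) hlt
    rw [hq']
    refine ⟨fun h => ?_, by rw [hw', hK]⟩
    rw [eq_neg_of_add_eq_zero_left h, hw.map_neg] at hlt
    exact lt_irrefl _ hlt
  conv => rw [hq, eval₂_mul, eval₂_X_pow]
  rw [← hq]
  exact ⟨mul_ne_zero (pow_ne_zero _ hs0) hqs.1,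
    by rw [hw.map_mul _ _ (pow_ne_zero _ hs0) hqs.1, hw.map_pow, hqs.2, add_zero]⟩

end IsOrdFn

section Places

variable {K F : Type*} [Field K] [Field F] [Algebra K F]

theorem isOrdFn_place (v : Place K F) : IsOrdFn v.ord :=
  ⟨v.ord_zero, fun _ _ => v.ord_mul, fun _ _ _ _ h => FLTA.Curves.min_ord_le_ord_add v h⟩

theorem exists_ord_neg_pos {v w : Place K F} (h : v ≠ w) :
    ∃ x : F, v.ord x < 0 ∧ 0 < w.ord x := by
  obtain ⟨x, hx, hxv⟩ : ∃ x ∈ w.toValuationSubring, x ∉ v.toValuationSubring := by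
    by_contra hc
    push Not at hc
    exact h (FLTA.Curves.place_eq_of_le hc).symm
  obtain ⟨y, hy, hyw⟩ : ∃ y ∈ v.toValuationSubring, y ∉ w.toValuationSubring := by
    by_contra hc
    push Not at hc
    exact h (FLTA.Curves.place_eq_of_le hc)
  have hx1 := (FLTA.Curves.not_mem_iff_ord_neg v x).mp hxv
  have hx2 := FLTA.Curves.ord_nonneg_of_mem w hx
  have hy1 := (FLTA.Curves.not_mem_iff_ord_neg w y).mp hyw
  have hy2 := FLTA.Curves.ord_nonneg_of_mem v hy
  have hx0 : x ≠ 0 := fun h => hxv (h ▸ zero_mem _)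
  have hy0 : y⁻¹ ≠ 0 := inv_ne_zero fun h => hyw (h ▸ zero_mem _)
  refine ⟨x * y⁻¹, ?_, ?_⟩
  · rw [v.ord_mul hx0 hy0, v.ord_inv]; omega
  · rw [w.ord_mul hx0 hy0, w.ord_inv]; omega

/-- Weak approximation: a pole at `v` and zeros at finitely many other places. -/
theorem exists_ord_neg_forall_pos {v : Place K F} (s : Finset (Place K F)) (hv : v ∉ s) :
    ∃ x : F, v.ord x < 0 ∧ ∀ w ∈ s, 0 < w.ord x := by
  classical
  induction s using Finset.induction_on with
  | empty =>
    obtain ⟨p, hp0, hp⟩ := FLTA.Curves.exists_ord_eq v (-1)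
    exact ⟨p, by omega, by simp⟩
  | insert m s hm ih =>
    rw [Finset.mem_insert, not_or] at hv
    obtain ⟨y, hy, hys⟩ := ih hv.2
    obtain ⟨z, hz, hzm⟩ := exists_ord_neg_pos hv.1
    have hy0 : y ≠ 0 := fun h => by rw [h, v.ord_zero] at hy; omega
    have hz0 : z ≠ 0 := fun h => by rw [h, v.ord_zero] at hz; omega
    by_cases hym : 0 < m.ord y
    · exact ⟨y, hy, fun u hu => (Finset.mem_insert.mp hu).elim (fun h => h ▸ hym) (hys u)⟩
    obtain ⟨R, hR⟩ : ∃ R : ℕ, ∀ u ∈ s, -u.ord z < R := by
      refine ⟨(∑ u ∈ s, (u.ord z).natAbs) + 1, fun u hu => ?_⟩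
      have := Finset.single_le_sum (f := fun u : Place K F => (u.ord z).natAbs)
        (fun _ _ => Nat.zero_le _) hu
      omega
    set r : ℕ := R + 1
    have hbig : ∀ u ∈ s, 0 < (r : ℤ) * u.ord y + u.ord z := fun u hu => by
      have h1 := hR u hu
      have h2 := hys u hu
      have h3 : (r : ℤ) * 1 ≤ (r : ℤ) * u.ord y := mul_le_mul_of_nonneg_left h2 (by positivity)
      omega
    rcases lt_or_eq_of_le (not_lt.mp hym) with hlt | heq
    · have key : ∀ u : Place K F, u.ord y ≠ 0 → y ^ r + 1 ≠ 0 ∧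
          u.ord (y ^ r + 1) = min ((r : ℤ) * u.ord y) 0 := by
        intro u hu
        have ho := isOrdFn_place u
        have hpow : u.ord (y ^ r) = r * u.ord y := ho.map_pow y r
        have hne : (r : ℤ) * u.ord y ≠ 0 := mul_ne_zero (by positivity) hu
        have h1 : u.ord (1 : F) = 0 := u.ord_one
        rcases lt_or_gt_of_ne hne with h | h
        · refine ⟨fun h0 => ?_, ?_⟩
          · rw [eq_neg_of_add_eq_zero_left h0, ho.map_neg, h1] at hpow
            omega
          · rw [ho.add_eq_of_lt (pow_ne_zero _ hy0) one_ne_zero (by omega), hpow, min_eq_left h.le]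
        · refine ⟨fun h0 => ?_, ?_⟩
          · rw [eq_neg_of_add_eq_zero_left h0, ho.map_neg, h1] at hpow
            omega
          · rw [add_comm, ho.add_eq_of_lt one_ne_zero (pow_ne_zero _ hy0) (by omega), h1,
              min_eq_right h.le]
      have hord : ∀ u : Place K F, u.ord y ≠ 0 → u.ord (y ^ r * (y ^ r + 1)⁻¹ * z) =
          (r : ℤ) * u.ord y - min ((r : ℤ) * u.ord y) 0 + u.ord z := by
        intro u hu
        obtain ⟨hne, he⟩ := key u hu
        rw [u.ord_mul (mul_ne_zero (pow_ne_zero _ hy0) (inv_ne_zero hne)) hz0,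
          u.ord_mul (pow_ne_zero _ hy0) (inv_ne_zero hne), u.ord_inv, he,
          (isOrdFn_place u).map_pow]
        ring
      refine ⟨y ^ r * (y ^ r + 1)⁻¹ * z, ?_, fun u hu => ?_⟩
      · rw [hord v hy.ne, min_eq_left (mul_nonpos_of_nonneg_of_nonpos (by positivity) hy.le)]
        omega
      · rcases Finset.mem_insert.mp hu with rfl | hu
        · rw [hord u hlt.ne, min_eq_left (mul_nonpos_of_nonneg_of_nonpos (by positivity) hlt.le)]
          omega
        · rw [hord u (hys u hu).ne', min_eq_right (mul_nonneg (by positivity) (hys u hu).le)]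
          have := hbig u hu
          omega
    · have hord : ∀ u : Place K F, u.ord (y ^ r * z) = (r : ℤ) * u.ord y + u.ord z := fun u => by
        rw [u.ord_mul (pow_ne_zero _ hy0) hz0, (isOrdFn_place u).map_pow]
      refine ⟨y ^ r * z, ?_, fun u hu => ?_⟩
      · have h3 : (r : ℤ) * v.ord y ≤ 0 := mul_nonpos_of_nonneg_of_nonpos (by positivity) hy.le
        rw [hord]; omega
      · rcases Finset.mem_insert.mp hu with rfl | hu
        · rw [hord, heq, mul_zero, zero_add]; exact hzm
        · rw [hord]; exact hbig u hu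

variable {E : Type*} [Field E] {w : E → ℤ}

/-- An order function pulled back along an embedding is a multiple of a place. -/
theorem exists_place_of_embedding (hw : IsOrdFn w) (σ : F →+* E)
    (hK : ∀ c, w (σ (algebraMap K F c)) = 0) {t : F} (ht : w (σ t) ≠ 0) :
    ∃ (v : Place K F) (d : ℕ), 0 < d ∧ ∀ x, w (σ x) = d * v.ord x := by
  let H : AddSubgroup ℤ :=
    { carrier := {k | ∃ x : F, x ≠ 0 ∧ w (σ x) = k}
      zero_mem' := ⟨1, one_ne_zero, by rw [map_one, hw.map_one]⟩
      add_mem' := by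
        rintro a b ⟨x, hx, rfl⟩ ⟨y, hy, rfl⟩
        exact ⟨x * y, mul_ne_zero hx hy,
          by rw [map_mul, hw.map_mul _ _ ((map_ne_zero σ).mpr hx) ((map_ne_zero σ).mpr hy)]⟩
      neg_mem' := by
        rintro a ⟨x, hx, rfl⟩
        exact ⟨x⁻¹, inv_ne_zero hx, by rw [map_inv₀, hw.map_inv]⟩ }
  obtain ⟨a, ha⟩ := Int.subgroup_cyclic H
  have ht0 : t ≠ 0 := fun h => ht (by rw [h, map_zero, hw.map_zero])
  have hmem : ∀ k, k ∈ H ↔ ∃ q : ℤ, q * (a.natAbs : ℤ) = k := fun k => by
    rw [ha, AddSubgroup.mem_closure_singleton]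
    simp only [smul_eq_mul]
    rcases Int.natAbs_eq a with h | h
    · rw [← h]
    · exact ⟨fun ⟨q, hq⟩ => ⟨-q, by rw [← hq, h]; simp⟩, fun ⟨q, hq⟩ => ⟨-q, by rw [← hq, h]; simp⟩⟩
  have hd : 0 < a.natAbs := by
    rcases Nat.eq_zero_or_pos a.natAbs with h | h
    · obtain ⟨q, hq⟩ := (hmem _).mp ⟨t, ht0, rfl⟩
      rw [h, Nat.cast_zero, mul_zero] at hq
      exact absurd hq.symm ht
    · exact h
  set d : ℕ := a.natAbs
  have hdiv : ∀ x : F, w (σ x) / d * d = w (σ x) := fun x => by
    rcases eq_or_ne x 0 with rfl | hx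
    · simp [hw.map_zero]
    obtain ⟨q, hq⟩ := (hmem _).mp ⟨x, hx, rfl⟩
    exact Int.ediv_mul_cancel ⟨q, by rw [← hq]; ring⟩
  have hdz : (d : ℤ) ≠ 0 := by exact_mod_cast hd.ne'
  classical
  let u : Valuation F (WithZero (Multiplicative ℤ)) :=
    { toFun := fun x => if x = 0 then 0 else WithZero.exp (-(w (σ x) / d))
      map_zero' := if_pos rfl
      map_one' := by simp [hw.map_one]
      map_mul' := by
        intro x y
        rcases eq_or_ne x 0 with rfl | hx
        · simp
        rcases eq_or_ne y 0 with rfl | hy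
        · simp
        rw [if_neg (mul_ne_zero hx hy), if_neg hx, if_neg hy, ← WithZero.exp_add]
        congr 1
        have h := hw.map_mul _ _ ((map_ne_zero σ).mpr hx) ((map_ne_zero σ).mpr hy)
        rw [← map_mul] at h
        apply mul_right_cancel₀ hdz
        linear_combination -(hdiv (x * y)) + hdiv x + hdiv y - h
      map_add_le_max' := by
        intro x y
        rcases eq_or_ne (x + y) 0 with h | h
        · simp [h]
        rcases eq_or_ne x 0 with rfl | hx
        · simp
        rcases eq_or_ne y 0 with rfl | hy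
        · simp
        rw [if_neg h, if_neg hx, if_neg hy]
        have h1 := hw.map_add _ _ ((map_ne_zero σ).mpr hx) ((map_ne_zero σ).mpr hy)
          (by rw [← map_add]; exact (map_ne_zero σ).mpr h)
        rw [← map_add] at h1
        have hd' : (0 : ℤ) < d := by exact_mod_cast hd
        rw [le_max_iff, WithZero.exp_le_exp, WithZero.exp_le_exp, neg_le_neg_iff, neg_le_neg_iff]
        rcases min_le_iff.mp h1 with h2 | h2
        · exact Or.inl (Int.ediv_le_ediv hd' h2)
        · exact Or.inr (Int.ediv_le_ediv hd' h2) }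
  obtain ⟨p, hp0, hp⟩ := (hmem (d : ℤ)).mpr ⟨1, one_mul _⟩
  have hK' : ∀ c, u (algebraMap K F c) ≤ 1 := fun c => by
    show (if _ then _ else _) ≤ _
    rw [hK]
    split_ifs <;> simp
  have hp' : ∃ π : F, u π = WithZero.exp (-1 : ℤ) := ⟨p, by
    show (if _ then _ else _) = _
    rw [if_neg hp0, hp, Int.ediv_self hdz]⟩
  refine ⟨FLTA.Curves.ofValuation u hK' hp', d, hd, fun x => ?_⟩
  rw [FLTA.Curves.ord_ofValuation]
  show _ = (d : ℤ) * -WithZero.log (if _ then _ else _)
  rcases eq_or_ne x 0 with rfl | hx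
  · simp [hw.map_zero]
  rw [if_neg hx, WithZero.log_exp, neg_neg, mul_comm, hdiv]

variable {ι : Type*} [Fintype ι]

/-- The places at which `t` vanishes all come from the given embeddings. -/
theorem exists_embedding_of_place [CharZero F] [FLTA.Curves.IsSepFunctionField K F]
    (hw : IsOrdFn w) (σ : ι → F →+* E) (hinj : Function.Injective σ) {t : F}
    (ht : Transcendental K t) (hcard : Fintype.card ι = Module.finrank K⟮t⟯ F)
    (hagree : ∀ i k, ∀ x : K⟮t⟯, σ i (x : F) = σ k (x : F))
    (hK : ∀ i c, w (σ i (algebraMap K F c)) = 0) (hpos : ∀ i, 0 < w (σ i t))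
    (v : Place K F) (hv : 0 < v.ord t) :
    ∃ (i : ι) (d : ℕ), 0 < d ∧ ∀ x, w (σ i x) = d * v.ord x := by
  classical
  haveI := FLTA.Curves.finite_adjoin_of_transcendental ht
  choose vi di hdi hvi using fun i => exists_place_of_embedding hw (σ i) (hK i) (hpos i).ne'
  by_contra hcon
  push Not at hcon
  have hne : v ∉ Finset.univ.image vi := by
    intro h
    obtain ⟨i, -, rfl⟩ := Finset.mem_image.mp h
    obtain ⟨x, hx⟩ := hcon i (di i) (hdi i)
    exact hx (hvi i x)
  obtain ⟨x, hxv, hxs⟩ := exists_ord_neg_forall_pos _ hne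
  have hIne : 0 < Fintype.card ι := by rw [hcard]; exact Module.finrank_pos
  obtain ⟨i₀⟩ := Fintype.card_pos_iff.mp hIne
  -- the embeddings give all the embeddings over `K(t)`
  let E' := AlgebraicClosure E
  let τ : K⟮t⟯ →+* E' := ((algebraMap E E').comp (σ i₀)).comp (algebraMap K⟮t⟯ F)
  letI : Algebra K⟮t⟯ E' := τ.toAlgebra
  let Φ : ι → (F →ₐ[K⟮t⟯] E') := fun i =>
    { toRingHom := (algebraMap E E').comp (σ i)
      commutes' := fun y => congrArg (algebraMap E E') (hagree i i₀ y) }
  have hΦinj : Function.Injective Φ := fun i k h => hinj (RingHom.ext fun y =>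
    (algebraMap E E').injective (DFunLike.congr_fun h y))
  have hΦcard : Fintype.card (F →ₐ[K⟮t⟯] E') = Fintype.card ι := by
    rw [AlgHom.card K⟮t⟯ F E', hcard]
  have hΦsurj : Function.Surjective Φ :=
    ((Fintype.bijective_iff_injective_and_card Φ).mpr ⟨hΦinj, hΦcard.symm⟩).2
  set P := minpoly K⟮t⟯ x with hP
  have hint : IsIntegral K⟮t⟯ x := Algebra.IsIntegral.isIntegral x
  let τE : K⟮t⟯ →+* E := (σ i₀).comp (algebraMap K⟮t⟯ F)
  have hroots : ∀ r ∈ (P.map τ).roots, ∃ i, algebraMap E E' (σ i x) = r := by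
    intro r hr
    have h1 : r ∈ P.rootSet E' := by
      rw [mem_rootSet']
      rw [mem_roots'] at hr
      exact ⟨hr.1, by rw [aeval_def, eval₂_eq_eval_map]; exact hr.2⟩
    rw [← Algebra.IsAlgebraic.range_eval_eq_rootSet_minpoly] at h1
    obtain ⟨φ, hφ⟩ := h1
    obtain ⟨i, rfl⟩ := hΦsurj φ
    exact ⟨i, hφ⟩
  have hsplit : P.map τ = ((P.map τ).roots.map fun r => X - C r).prod :=
    (IsAlgClosed.splits _).eq_prod_roots_of_monic ((minpoly.monic hint).map τ)
  obtain ⟨s, hs, hsr⟩ : ∃ s : Multiset E, (P.map τ).roots = s.map (algebraMap E E') ∧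
      ∀ r ∈ s, 0 ≤ w r := by
    choose g hg using hroots
    refine ⟨(P.map τ).roots.pmap (fun r hr => σ (g r hr) x) fun r hr => hr, ?_, ?_⟩
    · rw [Multiset.map_pmap, Multiset.pmap_congr (q := fun _ => True) (g := fun r _ => r)
        (H₂ := fun _ _ => trivial) _ (fun r _ h₁ _ => hg r h₁), Multiset.pmap_eq_map, Multiset.map_id']
    · intro r hr
      rw [Multiset.mem_pmap] at hr
      obtain ⟨a, ha, rfl⟩ := hr
      rw [hvi]
      exact mul_nonneg (Int.natCast_nonneg _)
        (hxs _ (Finset.mem_image_of_mem _ (Finset.mem_univ _))).le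
  have hPE : P.map τE = (s.map fun r => X - C r).prod := by
    apply map_injective (algebraMap E E') (algebraMap E E').injective
    rw [Polynomial.map_map, show (algebraMap E E').comp τE = τ from rfl, hsplit, hs,
      Polynomial.map_multiset_prod, Multiset.map_map, Multiset.map_map]
    simp [Function.comp_def]
  have hcoeff : ∀ k, 0 ≤ v.ord (algebraMap K⟮t⟯ F (P.coeff k)) := by
    intro k
    have h1 := hw.nonneg_coeff_prod_X_sub_C s hsr k
    rw [← hPE, coeff_map] at h1
    obtain ⟨p, q, hpq⟩ := (mem_adjoin_simple_iff K _).mp (P.coeff k).2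
    rcases eq_or_ne (P.coeff k) 0 with h0 | h0
    · simp [h0]
    change 0 ≤ w (σ i₀ ((P.coeff k : K⟮t⟯) : F)) at h1
    change 0 ≤ v.ord ((P.coeff k : K⟮t⟯) : F)
    rw [hpq] at h1 ⊢
    have hp0 : p ≠ 0 := fun h => h0 (Subtype.ext (by rw [hpq, h]; simp))
    have hq0 : q ≠ 0 := fun h => h0 (Subtype.ext (by rw [hpq, h]; simp))
    have hev : ∀ r : K[X], σ i₀ (aeval t r) = r.eval₂ ((σ i₀).comp (algebraMap K F)) (σ i₀ t) :=
      fun r => by rw [aeval_def, hom_eval₂]
    obtain ⟨hp1, hp2⟩ := hw.map_eval₂ (φ := (σ i₀).comp (algebraMap K F)) (hK i₀) (hpos i₀) hp0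
    obtain ⟨hq1, hq2⟩ := hw.map_eval₂ (φ := (σ i₀).comp (algebraMap K F)) (hK i₀) (hpos i₀) hq0
    rw [← hev] at hp1 hp2 hq1 hq2
    obtain ⟨hp3, hp4⟩ := (isOrdFn_place v).map_eval₂ (φ := algebraMap K F)
      (FLTA.Curves.ord_algebraMap v) hv hp0
    obtain ⟨hq3, hq4⟩ := (isOrdFn_place v).map_eval₂ (φ := algebraMap K F)
      (FLTA.Curves.ord_algebraMap v) hv hq0
    rw [← aeval_def] at hp3 hp4 hq3 hq4
    rw [map_div₀, div_eq_mul_inv, hw.map_mul _ _ hp1 (inv_ne_zero hq1), hw.map_inv, hp2, hq2] at h1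
    rw [div_eq_mul_inv, v.ord_mul hp3 (inv_ne_zero hq3), v.ord_inv, hp4, hq4]
    have h2 : (q.natTrailingDegree : ℤ) ≤ p.natTrailingDegree :=
      le_of_mul_le_mul_right (by linarith) (hpos i₀)
    nlinarith
  -- contradiction with the pole at `v`
  have hx0 : x ≠ 0 := fun h => by rw [h, v.ord_zero] at hxv; omega
  have h := FLTA.Curves.sum_ne_zero_and_ord_sum_eq v (Finset.range (P.natDegree + 1))
    (fun k => algebraMap K⟮t⟯ F (P.coeff k) * x ^ k) (i₀ := P.natDegree) (by simp)
    (mul_ne_zero (by simp [(minpoly.monic hint).coeff_natDegree, hP]) (pow_ne_zero _ hx0))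
    fun k hk hne => ?_
  · refine h.1 ?_
    have := minpoly.aeval K⟮t⟯ x
    rw [aeval_eq_sum_range] at this
    simpa only [Algebra.smul_def] using this
  · rcases eq_or_ne (P.coeff k) 0 with h0 | h0
    · exact Or.inl (by simp [h0])
    refine Or.inr ?_
    have hlt : k < P.natDegree := lt_of_le_of_ne (by simpa [Nat.lt_succ_iff] using hk) hne
    rw [show P.coeff P.natDegree = 1 from (minpoly.monic hint).coeff_natDegree, map_one, one_mul,
      v.ord_mul (by simpa using h0) (pow_ne_zero _ hx0), (isOrdFn_place v).map_pow,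
      (isOrdFn_place v).map_pow]
    have h1 := hcoeff k
    have h2 : (P.natDegree : ℤ) * v.ord x < k * v.ord x :=
      mul_lt_mul_of_neg_right (by exact_mod_cast hlt) hxv
    omega

/-- The exact description of the places where `t` vanishes. -/
theorem exists_places_of_orbits [CharZero F] [IsAlgClosed K]
    [FLTA.Curves.IsSepFunctionField K F] (hw : IsOrdFn w) (σ : ι → F →+* E)
    (hinj : Function.Injective σ) {t : F} (ht : Transcendental K t)
    (hcard : Fintype.card ι = Module.finrank K⟮t⟯ F)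
    (hagree : ∀ i k, ∀ x : K⟮t⟯, σ i (x : F) = σ k (x : F))
    (hK : ∀ i c, w (σ i (algebraMap K F c)) = 0) {n : ℕ} (hn : 0 < n)
    (hval : ∀ i, w (σ i t) = n) (ε : ι → ℕ) (hε : ∀ i x, (ε i : ℤ) ∣ w (σ i x))
    (r : ι → ι → Prop) (hr : ∀ i k, r i k → ∀ x, w (σ i x) = w (σ k x))
    (horb : ∀ i, Nat.card {k // r i k} * ε i = n) :
    ∃ v : ι → Place K F, (∀ i x, w (σ i x) = ε i * (v i).ord x) ∧
      (∀ i, 0 < (v i).ord t) ∧ (∀ i k, v i = v k → r i k) ∧
      ∀ u : Place K F, 0 < u.ord t → ∃ i, v i = u := by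
  classical
  choose v d hd hv using fun i => exists_place_of_embedding hw (σ i) (hK i)
    (t := t) (by rw [hval]; exact_mod_cast hn.ne')
  have huniq : ∀ i k, r i k → v i = v k := by
    intro i k hik
    refine FLTA.Curves.place_eq_of_le fun x hx => ?_
    by_contra hcon
    have h1 := FLTA.Curves.ord_nonneg_of_mem _ hx
    have h2 := (FLTA.Curves.not_mem_iff_ord_neg _ x).mp hcon
    have h := hr i k hik x
    rw [hv, hv] at h
    have hdk : (0 : ℤ) < d k := by exact_mod_cast hd k
    have : (0 : ℤ) ≤ (d i : ℤ) * (v i).ord x := mul_nonneg (Int.natCast_nonneg _) h1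
    nlinarith
  have hpos : ∀ i, 0 < (v i).ord t := by
    intro i
    have h := hv i t
    rw [hval] at h
    by_contra hcon
    have : (d i : ℤ) * (v i).ord t ≤ 0 :=
      mul_nonpos_of_nonneg_of_nonpos (Int.natCast_nonneg _) (not_lt.mp hcon)
    omega
  have hsurj : ∀ u : Place K F, 0 < u.ord t → ∃ i, v i = u := by
    intro u hu
    obtain ⟨i, e, he, hi⟩ := exists_embedding_of_place hw σ hinj ht hcard hagree hK
      (fun i => by rw [hval]; exact_mod_cast hn) u hu
    refine ⟨i, FLTA.Curves.place_eq_of_le fun x hx => ?_⟩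
    by_contra hcon
    have h1 := FLTA.Curves.ord_nonneg_of_mem _ hx
    have h2 := (FLTA.Curves.not_mem_iff_ord_neg _ x).mp hcon
    have h := hi x
    rw [hv] at h
    have hez : (0 : ℤ) < e := by exact_mod_cast he
    have : (0 : ℤ) ≤ (d i : ℤ) * (v i).ord x := mul_nonneg (Int.natCast_nonneg _) h1
    nlinarith
  -- counting
  set V : Finset (Place K F) := Finset.univ.image v
  have hdeg : ∀ u : Place K F, u.deg = 1 := fun u => by
    haveI := FLTA.Curves.finite_residueField_of_isSepFunctionField (K := K) u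
    exact FLTA.Curves.deg_eq_one_of_bijective u
      (IsAlgClosed.algebraMap_bijective_of_isIntegral)
  have hVmem : ∀ u, u ∈ V ↔ 0 < u.ord t := fun u =>
    ⟨fun h => by obtain ⟨i, -, rfl⟩ := Finset.mem_image.mp h; exact hpos i,
     fun h => by obtain ⟨i, rfl⟩ := hsurj u h; exact Finset.mem_image_of_mem _ (Finset.mem_univ i)⟩
  have hsum : ∑ u ∈ V, u.ord t = (Fintype.card ι : ℤ) := by
    have htinv : Transcendental K t⁻¹ := fun h => ht (by simpa using h.inv)
    have heq : K⟮t⁻¹⟯ = K⟮t⟯ := by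
      apply le_antisymm <;> rw [adjoin_simple_le_iff]
      · exact inv_mem (mem_adjoin_simple_self K t)
      · simpa using inv_mem (mem_adjoin_simple_self K t⁻¹)
    haveI := FLTA.Curves.finite_adjoin_of_transcendental htinv
    let D : Divisor K F := ∑ u ∈ V, Finsupp.single u (u.ord t)
    have hD : ∀ u, D u = max (-u.ord t⁻¹) 0 := by
      intro u
      rw [u.ord_inv, neg_neg]
      simp only [D, Finsupp.finsetSum_apply, Finsupp.single_apply, Finset.sum_ite_eq', hVmem]
      split_ifs with h <;> omega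
    have h := FLTA.Curves.degree_polarDivisor htinv hD
    rw [heq] at h
    rw [hcard, ← h, map_sum]
    exact Finset.sum_congr rfl fun u _ => by rw [Divisor.degree_single, hdeg, Nat.cast_one, mul_one]
  -- each fibre is at least as big as the multiplicity
  have hεd : ∀ i, ε i ∣ d i := by
    intro i
    obtain ⟨π, hπ0, hπ⟩ := FLTA.Curves.exists_ord_eq_one (v i)
    have := hε i π
    rw [hv, hπ, mul_one] at this
    exact_mod_cast this
  have hεpos : ∀ i, 0 < ε i := fun i => Nat.pos_of_ne_zero fun h0 => by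
    have h := horb i
    rw [h0, mul_zero] at h
    omega
  have hfib : ∀ i, (v i).ord t ≤ (Nat.card {k // r i k} : ℤ) ∧
      Nat.card {k // r i k} ≤ (Finset.univ.filter fun k => v k = v i).card := by
    intro i
    refine ⟨?_, ?_⟩
    · have h1 := hv i t
      rw [hval] at h1
      have h2 : ((Nat.card {k // r i k} : ℕ) : ℤ) * ε i = n := by exact_mod_cast horb i
      have h3 : (ε i : ℤ) ≤ d i := by exact_mod_cast Nat.le_of_dvd (hd i) (hεd i)
      have h4 : (0 : ℤ) < ε i := by exact_mod_cast hεpos i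
      have h5 := hpos i
      nlinarith
    · rw [Nat.card_eq_fintype_card, Fintype.card_subtype]
      exact Finset.card_le_card fun k hk => by
        simp only [Finset.mem_filter, Finset.mem_univ, true_and] at hk ⊢
        exact (huniq i k hk).symm
  have hle : ∀ u ∈ V, u.ord t ≤ ((Finset.univ.filter fun k => v k = u).card : ℤ) := by
    intro u hu
    obtain ⟨i, -, rfl⟩ := Finset.mem_image.mp hu
    exact (hfib i).1.trans (by exact_mod_cast (hfib i).2)
  have htot : ∑ u ∈ V, ((Finset.univ.filter fun k => v k = u).card : ℤ) = Fintype.card ι := by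
    rw [← Nat.cast_sum, ← Finset.card_univ,
      Finset.card_eq_sum_card_fiberwise (f := v) (t := V) fun k _ =>
        Finset.mem_image_of_mem _ (Finset.mem_univ k)]
  have heach := (Finset.sum_eq_sum_iff_of_le hle).mp (hsum.trans htot.symm)
  have hexact : ∀ i, (v i).ord t = (Nat.card {k // r i k} : ℤ) ∧
      Nat.card {k // r i k} = (Finset.univ.filter fun k => v k = v i).card := by
    intro i
    have h := heach (v i) (Finset.mem_image_of_mem _ (Finset.mem_univ i))
    obtain ⟨h1, h2⟩ := hfib i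
    omega
  have hdeq : ∀ i, d i = ε i := by
    intro i
    have h1 := hv i t
    rw [hval, (hexact i).1] at h1
    have h3 : n = d i * Nat.card {k // r i k} := by exact_mod_cast h1
    rw [mul_comm (d i)] at h3
    have hc : 0 < Nat.card {k // r i k} := by
      rcases Nat.eq_zero_or_pos (Nat.card {k // r i k}) with h0 | h0
      · rw [h0, zero_mul] at h3; omega
      · exact h0
    exact Nat.eq_of_mul_eq_mul_left hc (h3.symm.trans (horb i).symm)
  refine ⟨v, fun i x => by rw [hv, hdeq], hpos, fun i k hik => ?_, hsurj⟩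
  have hsub : (Finset.univ.filter fun m => r i m) ⊆ Finset.univ.filter fun m => v m = v i :=
    fun m hm => by
      simp only [Finset.mem_filter, Finset.mem_univ, true_and] at hm ⊢
      exact (huniq i m hm).symm
  have heq := Finset.eq_of_subset_of_card_le hsub (by
    rw [← (hexact i).2, Nat.card_eq_fintype_card, Fintype.card_subtype])
  have hk : k ∈ Finset.univ.filter fun m => v m = v i := by simp [hik]
  rw [← heq] at hk
  simpa using hk

end Places

end FLTA.Bridge

end
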