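import Fermat.Agent.Bridge.PlacesLocal

/-!
# The places of the function field of `X₀(N)` above a finite value of `j`
-/

set_option autoImplicit false
set_option linter.style.haveILetI false

noncomputable section

open scoped Manifold MatrixGroups Topology
open UpperHalfPlane hiding I
open Complex Filter CongruenceSubgroup ModularCurve AlgebraicCurve IntermediateField

namespace FLTA.Bridge

variable (N : ℕ) [NeZero N] {L : Type*} [Field L] [Algebra ℚ L] (ι : L →+* ℂ)

local notation "FN" => laurentBaseChange L (modularFunctionFieldFull N)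

theorem meroSmul_slPos_mul (g h : SL(2, ℤ)) (x : Mero) :
    meroSmul (slPos (g * h)) x = meroSmul (slPos h) (meroSmul (slPos g) x) := by
  rw [map_mul, meroSmul_mul]

theorem meroSmul_slPos_evMero {γ : SL(2, ℤ)} (hγ : γ ∈ Gamma0 N) (x : FN) :
    meroSmul (slPos γ) (evMero N ι x) = evMero N ι x := meroSmul_evMero N ι hγ x

/-- The function field seen in meromorphic functions through `τ ↦ g • τ`. -/
def evAt (g : SL(2, ℤ)) : laurentBaseChange L (modularFunctionFieldFull N) →+* Mero :=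
  (meroSmul (slPos g)).toAlgHom.toRingHom.comp (evMero N ι)

theorem evAt_apply (g : SL(2, ℤ)) (x : FN) :
    evAt N ι g x = meroSmul (slPos g) (evMero N ι x) := rfl

theorem meroOrd_evAt (g : SL(2, ℤ)) (τ : ℍ) (x : FN) :
    meroOrd τ (evAt N ι g x) = ordF N ι (g • τ) x := by
  rw [evAt_apply, meroOrd_meroSmul, coe_slPos_smul]
  rfl

theorem ordF_smul {γ : SL(2, ℤ)} (hγ : γ ∈ Gamma0 N) (τ : ℍ) (x : FN) :
    ordF N ι (γ • τ) x = ordF N ι τ x := by
  rw [← meroOrd_evAt, evAt_apply, meroSmul_slPos_evMero N ι hγ]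
  rfl

theorem isOrdFn_ordF (τ : ℍ) : IsOrdFn (ordF N ι τ : FN → ℤ) := by
  have h := isOrdFn_meroOrd τ
  refine ⟨?_, fun x y hx hy => ?_, fun x y hx hy hxy => ?_⟩
  · show meroOrd τ (evMero N ι 0) = 0
    rw [map_zero, h.map_zero]
  · show meroOrd τ _ = meroOrd τ _ + meroOrd τ _
    rw [map_mul]
    exact h.map_mul _ _ ((map_ne_zero _).mpr hx) ((map_ne_zero _).mpr hy)
  · show min (meroOrd τ _) (meroOrd τ _) ≤ meroOrd τ _
    rw [map_add]
    exact h.map_add _ _ ((map_ne_zero _).mpr hx) ((map_ne_zero _).mpr hy)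
      (by rw [← map_add]; exact (map_ne_zero _).mpr hxy)

theorem ordF_algebraMap (τ : ℍ) (c : L) : ordF N ι τ (algebraMap L FN c) = 0 := by
  show meroOrd τ (evMero N ι (algebraMap L FN c)) = 0
  rw [evMero_algebraMap]
  exact meroOrd_algebraMap_const τ _

theorem ellipticIndex_dvd_ordF (τ : ℍ) (x : FN) :
    (ellipticIndex N τ : ℤ) ∣ ordF N ι τ x := by
  rcases eq_or_ne x 0 with rfl | hx
  · rw [(isOrdFn_ordF N ι τ).map_zero]
    exact dvd_zero _
  obtain ⟨A, B, hB, h⟩ := exists_rep N ι x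
  have hx' : coeffMap ι (x : LaurentSeries L) ≠ 0 := by
    rw [← qexpFrac_evFrac]
    exact (map_ne_zero _).mpr ((map_ne_zero _).mpr hx)
  have hA : A ≠ 0 := by
    intro h0
    rw [h0, map_zero, mul_eq_zero] at h
    rcases h with h | h
    · exact hx' h
    · exact hB (qexp_injective N (by rw [h, map_zero]))
  have hA' : modHolToHol N A ≠ 0 := fun h0 => hA (modHolToHol_injective N (by rw [h0, map_zero]))
  have hB' : modHolToHol N B ≠ 0 := fun h0 => hB (modHolToHol_injective N (by rw [h0, map_zero]))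
  show (ellipticIndex N τ : ℤ) ∣ meroOrd τ (evMero N ι x)
  rw [evMero_eq_of_rep N ι hB h, meroOrd_div τ hA' hB']
  exact dvd_sub (Int.natCast_dvd_natCast.mpr (ellipticIndex_dvd_ordAt A.2 τ))
    (Int.natCast_dvd_natCast.mpr (ellipticIndex_dvd_ordAt B.2 τ))

theorem evMero_jF :
    evMero N ι (jF N L) = algebraMap Hol Mero (modHolToHol N (jMod N)) := by
  rw [jF, evMero_jElt]
  congr 2
  refine Subtype.ext (funext fun τ => ?_)
  show jInv (scaleTau 1 τ) = jInv τ
  congr 1
  exact UpperHalfPlane.ext (by simp [coe_scaleTau])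

theorem evAt_algebraMap (g : SL(2, ℤ)) (c : L) :
    evAt N ι g (algebraMap L FN c) = algebraMap ℂ Mero (ι c) := by
  rw [evAt_apply, evMero_algebraMap, AlgEquiv.commutes]

theorem evAt_jF (g : SL(2, ℤ)) :
    evAt N ι g (jF N L) = algebraMap Hol Mero (modHolToHol N (jMod N)) := by
  rw [evAt_apply, evMero_jF, meroSmul_algebraMap]
  congr 1
  exact Subtype.ext (funext fun τ => jInv_smul g τ)

theorem transcendental_jF_sub (a : L) : Transcendental L (jF N L - algebraMap L FN a) := by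
  intro h
  refine transcendental_jF N L ?_
  have h2 := h.add (isAlgebraic_algebraMap (R := L) (A := FN) a)
  rwa [sub_add_cancel] at h2

theorem adjoin_jF_sub (a : L) : L⟮jF N L - algebraMap L FN a⟯ = L⟮jF N L⟯ := by
  apply le_antisymm <;> rw [adjoin_simple_le_iff]
  · exact sub_mem (mem_adjoin_simple_self L _) (IntermediateField.algebraMap_mem _ a)
  · have h := add_mem (mem_adjoin_simple_self L (jF N L - algebraMap L FN a))
      (IntermediateField.algebraMap_mem L⟮jF N L - algebraMap L FN a⟯ a)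
    rwa [sub_add_cancel] at h

theorem evAt_congr {g h : SL(2, ℤ)} {a : L} (x : FN)
    (hx : x ∈ L⟮jF N L - algebraMap L FN a⟯) : evAt N ι g x = evAt N ι h x := by
  rw [adjoin_jF_sub] at hx
  induction hx using IntermediateField.adjoin_induction with
  | mem y hy =>
    rw [Set.mem_singleton_iff] at hy
    rw [hy, evAt_jF, evAt_jF]
  | algebraMap c => rw [evAt_algebraMap, evAt_algebraMap]
  | add x y _ _ hx hy => rw [map_add, map_add, hx, hy]
  | inv x _ hx => rw [map_inv₀, map_inv₀, hx]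
  | mul x y _ _ hx hy => rw [map_mul, map_mul, hx, hy]

theorem mk_inv_eq_of_evAt_eq {g h : SL(2, ℤ)} (heq : evAt N ι g = evAt N ι h) :
    g * h⁻¹ ∈ Gamma0 N := by
  refine eq_of_jInv_scaleTau_smul_eq N fun τ => ?_
  have h1 := RingHom.congr_fun heq (jNF N L)
  rw [evAt_apply, evAt_apply, jNF, evMero_jElt, meroSmul_algebraMap, meroSmul_algebraMap] at h1
  exact congrArg (fun F : Hol => (F : ℍ → ℂ) τ) (IsFractionRing.injective Hol Mero h1)

theorem ordF_jF_sub (τ : ℍ) (a : L) (ha : ι a = jInv τ) :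
    ordF N ι τ (jF N L - algebraMap L FN a) =
      (analyticOrderNatAt (fun z => jFun z - jInv τ) (τ : ℂ) : ℤ) := by
  show meroOrd τ (evMero N ι (jF N L - algebraMap L FN a)) = _
  rw [map_sub, evMero_jF, evMero_algebraMap, IsScalarTower.algebraMap_apply ℂ Hol Mero,
    ← map_sub, meroOrd_algebraMap_hol, ha]
  rfl

theorem analyticOrderNatAt_jFun_sub_pos (τ : ℍ) :
    0 < analyticOrderNatAt (fun z => jFun z - jInv τ) (τ : ℂ) := by
  have h := two_mul_analyticOrderNatAt_jFun_sub τ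
  haveI := finite_stabilizer τ
  have : 0 < Nat.card (MulAction.stabilizer SL(2, ℤ) τ) := Nat.card_pos
  omega

/-- The point of a coset. -/
def cosetPoint (τ : ℍ) (c : SL(2, ℤ) ⧸ Gamma0 N) : ℍ := c.out⁻¹ • τ

theorem exists_cosetPoint (g : SL(2, ℤ)) (τ : ℍ) :
    ∃ γ ∈ Gamma0 N, cosetPoint N τ (QuotientGroup.mk g⁻¹) = γ • g • τ := by
  obtain ⟨k, hk⟩ := QuotientGroup.mk_out_eq_mul (Gamma0 N) g⁻¹
  refine ⟨(k : SL(2, ℤ))⁻¹, inv_mem k.2, ?_⟩
  rw [cosetPoint, hk, mul_inv_rev, inv_inv, mul_smul]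

theorem card_fibre_mul_ellipticIndex (τ : ℍ) (c : SL(2, ℤ) ⧸ Gamma0 N) :
    Nat.card {c' : SL(2, ℤ) ⧸ Gamma0 N //
        ∃ γ ∈ Gamma0 N, γ • cosetPoint N τ c = cosetPoint N τ c'} *
      ellipticIndex N (cosetPoint N τ c) =
    analyticOrderNatAt (fun z => jFun z - jInv τ) (τ : ℂ) := by
  set g := c.out with hg
  have hc : (QuotientGroup.mk g : SL(2, ℤ) ⧸ Gamma0 N) = c := QuotientGroup.out_eq' c
  set S := MulAction.stabilizer SL(2, ℤ) τ
  haveI : Finite S := finite_stabilizer τ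
  have horb : ∀ c' : SL(2, ℤ) ⧸ Gamma0 N,
      (∃ γ ∈ Gamma0 N, γ • cosetPoint N τ c = cosetPoint N τ c') ↔ c' ∈ MulAction.orbit S c := by
    intro c'
    constructor
    · rintro ⟨γ, hγ, h⟩
      refine ⟨⟨c'.out * γ * g⁻¹, ?_⟩, ?_⟩
      · show (c'.out * γ * g⁻¹) • τ = τ
        rw [mul_smul, mul_smul]
        show c'.out • γ • cosetPoint N τ c = τ
        rw [h, cosetPoint, smul_inv_smul]
      · show (c'.out * γ * g⁻¹) • c = c'
        conv_lhs => rw [← hc]
        rw [MulAction.Quotient.smul_mk]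
        conv_rhs => rw [← QuotientGroup.out_eq' c']
        refine QuotientGroup.eq.mpr ?_
        simpa [mul_assoc] using inv_mem hγ
    · rintro ⟨⟨s, hs⟩, rfl⟩
      have h2 : (QuotientGroup.mk (s * g) : SL(2, ℤ) ⧸ Gamma0 N) = s • c :=
        congrArg (s • ·) hc
      obtain ⟨γ, hγ, h⟩ := exists_cosetPoint N (s * g)⁻¹ τ
      rw [inv_inv, h2] at h
      refine ⟨γ, hγ, ?_⟩
      show γ • cosetPoint N τ c = cosetPoint N τ (s • c)
      rw [h, mul_inv_rev, mul_smul, show s⁻¹ • τ = τ from inv_smul_eq_iff.mpr (Eq.symm hs)]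
      rfl
  rw [Nat.card_congr ((Equiv.refl _).subtypeEquiv horb)]
  have hcs : ∀ s : SL(2, ℤ), s • c = c ↔ g⁻¹ * s * g ∈ Gamma0 N := by
    intro s
    have h : s • c = (QuotientGroup.mk (s * g) : SL(2, ℤ) ⧸ Gamma0 N) :=
      congrArg (s • ·) hc.symm
    rw [h]
    conv_lhs => rhs; rw [← hc]
    rw [QuotientGroup.eq, ← inv_mem_iff]
    simp [mul_assoc]
  have e : MulAction.stabilizer S c ≃ MulAction.stabilizer (Gamma0 N) (cosetPoint N τ c) :=
    { toFun := fun s => ⟨⟨g⁻¹ * (s : S).1 * g, (hcs _).mp s.2⟩, by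
        show (g⁻¹ * (s : S).1 * g) • g⁻¹ • τ = g⁻¹ • τ
        rw [mul_smul, smul_inv_smul, mul_smul, show (s : S).1 • τ = τ from (s : S).2]⟩
      invFun := fun k => ⟨⟨g * (k : Gamma0 N).1 * g⁻¹, by
          show (g * (k : Gamma0 N).1 * g⁻¹) • τ = τ
          rw [mul_smul, mul_smul, show (k : Gamma0 N).1 • g⁻¹ • τ = g⁻¹ • τ from k.2,
            smul_inv_smul]⟩, by
        show (g * (k : Gamma0 N).1 * g⁻¹) • c = c
        refine (hcs _).mpr ?_
        simp [mul_assoc]⟩
      left_inv := fun s => Subtype.ext (Subtype.ext (by simp [mul_assoc]))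
      right_inv := fun k => Subtype.ext (Subtype.ext (by simp [mul_assoc])) }
  have h1 := two_mul_analyticOrderNatAt_jFun_sub τ
  rw [Subgroup.card_eq_card_quotient_mul_card_subgroup (MulAction.stabilizer S c),
    ← Nat.card_congr (MulAction.orbitEquivQuotientStabilizer S c), Nat.card_congr e,
    ← two_mul_ellipticIndex] at h1
  refine Nat.eq_of_mul_eq_mul_left two_pos ?_
  rw [h1]
  ring

variable [IsAlgClosed L]

/-- The places where `j` takes the value `a = j τ` are the `Γ₀(N)`-orbits in `SL(2, ℤ) • τ`. -/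
theorem exists_places_over (τ : ℍ) (a : L) (ha : ι a = jInv τ) :
    ∃ v : SL(2, ℤ) ⧸ Gamma0 N → Place L FN,
      (∀ c x, ordF N ι (cosetPoint N τ c) x =
        ellipticIndex N (cosetPoint N τ c) * (v c).ord x) ∧
      (∀ c c', v c = v c' → ∃ γ ∈ Gamma0 N, γ • cosetPoint N τ c = cosetPoint N τ c') ∧
      ∀ u : Place L FN, 0 < u.ord (jF N L - algebraMap L FN a) → ∃ c, v c = u := by
  classical
  haveI : CharZero L := charZero_of_injective_algebraMap (algebraMap ℚ L).injective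
  haveI : CharZero FN := charZero_of_injective_algebraMap (algebraMap L FN).injective
  haveI : (Gamma0 N).FiniteIndex := ⟨by
    rw [index_Gamma0_eq_dedekindPsi N]
    have h := finrank_adjoin_jF N L ι
    haveI := finite_adjoin_jF N L ι
    rw [← h]
    exact Module.finrank_pos.ne'⟩
  haveI : Fintype (SL(2, ℤ) ⧸ Gamma0 N) := Subgroup.fintypeQuotientOfFiniteIndex
  refine Exists.elim (exists_places_of_orbits (isOrdFn_meroOrd τ)
    (fun c : SL(2, ℤ) ⧸ Gamma0 N => evAt N ι c.out⁻¹) ?_ (transcendental_jF_sub N a) ?_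
    (fun i k x => evAt_congr N ι (x : FN) x.2)
    (fun c l => by rw [meroOrd_evAt, ordF_algebraMap])
    (analyticOrderNatAt_jFun_sub_pos τ) ?_ (fun c => ellipticIndex N (cosetPoint N τ c))
    (fun c x => by rw [meroOrd_evAt]; exact ellipticIndex_dvd_ordF N ι _ x)
    (fun c c' => ∃ γ ∈ Gamma0 N, γ • cosetPoint N τ c = cosetPoint N τ c') ?_
    (fun c => card_fibre_mul_ellipticIndex N τ c)) fun v hv =>
      ⟨v, fun c x => by rw [← hv.1 c x, meroOrd_evAt, cosetPoint], hv.2.2.1, hv.2.2.2⟩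
  · intro c c' h
    have := mk_inv_eq_of_evAt_eq N ι h
    rw [inv_inv] at this
    rw [← QuotientGroup.out_eq' c, ← QuotientGroup.out_eq' c']
    exact QuotientGroup.eq.mpr this
  · rw [← Nat.card_eq_fintype_card, ← Subgroup.index, index_Gamma0_eq_dedekindPsi,
      adjoin_jF_sub, finrank_adjoin_jF N L ι]
  · intro c
    rw [meroOrd_evAt, ordF_jF_sub N ι _ a (by rw [jInv_smul, ha])]
    congr 1
    refine Nat.eq_of_mul_eq_mul_left two_pos ?_
    rw [two_mul_analyticOrderNatAt_jFun_sub, two_mul_analyticOrderNatAt_jFun_sub]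
    exact Nat.card_congr (MulAction.stabilizerEquivStabilizer (G := SL(2, ℤ))
      (a := τ) (b := c.out⁻¹ • τ) (g := c.out⁻¹) rfl).symm.toEquiv
  · rintro c c' ⟨γ, hγ, h⟩ x
    rw [meroOrd_evAt, meroOrd_evAt]
    show ordF N ι (cosetPoint N τ c) x = ordF N ι (cosetPoint N τ c') x
    rw [← h, ordF_smul N ι hγ]

end FLTA.Bridge

end
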