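import Fermat.Agent.Bridge.Degree
import Fermat.Agent.Bridge.PlacesAbstract
import Fermat.Agent.Curves.BasicModular
import Mathlib.RingTheory.IntegralDomain

/-!
# Orders of modular functions at points of `ℍ` and the places above a finite value of `j`
-/

set_option autoImplicit false

noncomputable section

open scoped Manifold MatrixGroups Topology
open UpperHalfPlane hiding I
open Complex Filter CongruenceSubgroup ModularCurve AlgebraicCurve IntermediateField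

namespace FLTA.Bridge

/-- An element of `SL(2, ℤ)` in `GL(2, ℝ)⁺`. -/
def slPos : SL(2, ℤ) →* GL(2, ℝ)⁺ :=
  Matrix.SpecialLinearGroup.toGLPos.comp
    (Matrix.SpecialLinearGroup.map (Int.castRingHom ℝ))

theorem coe_slPos_smul (g : SL(2, ℤ)) (τ : ℍ) :
    ((slPos g : GL(2, ℝ)⁺) : GL (Fin 2) ℝ) • τ = g • τ := rfl

theorem isOrdFn_meroOrd (τ : ℍ) : IsOrdFn (meroOrd τ) :=
  ⟨by simp [meroOrd], fun _ _ => meroOrd_mul τ, fun _ _ => meroOrd_add τ⟩

theorem meroOrd_algebraMap_hol (τ : ℍ) (A : Hol) :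
    meroOrd τ (algebraMap Hol Mero A) = (ordAt τ (A : ℍ → ℂ) : ℤ) := by
  rcases eq_or_ne A 0 with rfl | hA
  · simp [meroOrd, ordAt, analyticOrderNatAt, Function.comp_def, analyticOrderAt_eq_top.mpr]
  have h := meroOrd_div τ hA (one_ne_zero : (1 : Hol) ≠ 0)
  rw [map_one, div_one] at h
  have e2 : ordAt τ ((1 : Hol) : ℍ → ℂ) = 0 :=
    (ordAt_eq_zero_iff (1 : Hol).2 (fun h => one_ne_zero (Subtype.ext h : (1 : Hol) = 0)) τ).mpr
      one_ne_zero
  rw [h, e2]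
  simp

section Elliptic

variable (N : ℕ)

theorem neg_one_mem_Gamma0 : (-1 : SL(2, ℤ)) ∈ Gamma0 N := by simp

theorem finite_stabilizer_Gamma0 (τ : ℍ) : Finite (MulAction.stabilizer (Gamma0 N) τ) := by
  haveI := finite_stabilizer τ
  exact Finite.of_injective
    (fun g : MulAction.stabilizer (Gamma0 N) τ =>
      (⟨((g : Gamma0 N) : SL(2, ℤ)), g.2⟩ : MulAction.stabilizer SL(2, ℤ) τ))
    fun a b h => Subtype.ext (Subtype.ext (congrArg (fun x => (x.1 : SL(2, ℤ))) h))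

/-- Half the order of the stabiliser of `τ` in `Γ₀(N)`. -/
def ellipticIndex (τ : ℍ) : ℕ := Nat.card (MulAction.stabilizer (Gamma0 N) τ) / 2

theorem two_mul_ellipticIndex (τ : ℍ) :
    2 * ellipticIndex N τ = Nat.card (MulAction.stabilizer (Gamma0 N) τ) := by
  haveI := finite_stabilizer_Gamma0 N τ
  let m : MulAction.stabilizer (Gamma0 N) τ :=
    ⟨⟨-1, neg_one_mem_Gamma0 N⟩, by
      show (-1 : SL(2, ℤ)) • τ = τ
      rw [ModularGroup.SL_neg_smul, one_smul]⟩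
  have hm : orderOf m = 2 := by
    refine orderOf_eq_prime ?_ ?_
    · exact Subtype.ext (Subtype.ext (by simp [m]))
    · intro h
      have := congrArg (fun x : MulAction.stabilizer (Gamma0 N) τ =>
        (((x : Gamma0 N) : SL(2, ℤ)) : Matrix (Fin 2) (Fin 2) ℤ) 0 0) h
      simp [m] at this
  obtain ⟨k, hk⟩ := (hm ▸ orderOf_dvd_natCard m : 2 ∣ _)
  unfold ellipticIndex
  omega
end Elliptic

theorem ellipticIndex_pos (N : ℕ) (τ : ℍ) : 0 < ellipticIndex N τ := by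
  haveI := finite_stabilizer_Gamma0 N τ
  have h := two_mul_ellipticIndex N τ
  have : 0 < Nat.card (MulAction.stabilizer (Gamma0 N) τ) := Nat.card_pos
  omega

theorem ellipticIndex_smul {N : ℕ} {γ : SL(2, ℤ)} (hγ : γ ∈ Gamma0 N) (τ : ℍ) :
    ellipticIndex N (γ • τ) = ellipticIndex N τ := by
  unfold ellipticIndex
  congr 1
  exact Nat.card_congr (MulAction.stabilizerEquivStabilizer (G := Gamma0 N) (a := τ)
    (b := γ • τ) (g := ⟨γ, hγ⟩) rfl).symm.toEquiv

section Divisibility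

theorem coe_smul_SL2Z (γ : SL(2, ℤ)) (τ : ℍ) :
    ((γ • τ : ℍ) : ℂ) = ((γ.1 0 0 : ℂ) * τ + γ.1 0 1) / ((γ.1 1 0 : ℂ) * τ + γ.1 1 1) := by
  rw [coe_specialLinearGroup_apply]
  simp

theorem denom_SL2Z_ne_zero (γ : SL(2, ℤ)) (τ : ℍ) :
    ((γ.1 1 0 : ℂ) * τ + γ.1 1 1) ≠ 0 := by
  intro h
  have h2 := congrArg Complex.im h
  have h3 := congrArg Complex.re h
  simp [τ.im_pos.ne'] at h2 h3
  have hd := Matrix.det_fin_two γ.1
  rw [γ.2, h2] at hd
  simp [h2] at h3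
  rw [h3] at hd
  simp at hd

/-- At a fixed point of `γ` the order of an invariant function is killed by the rotation number. -/
theorem denom_pow_two_mul_ordAt {F : ℍ → ℂ} (hF : F ∈ Hol) (h0 : F ≠ 0) {γ : SL(2, ℤ)}
    (hinv : ∀ z : ℍ, F (γ • z) = F z) {τ : ℍ} (hfix : γ • τ = τ) :
    ((γ.1 1 0 : ℂ) * τ + γ.1 1 1) ^ (2 * ordAt τ F) = 1 := by
  obtain ⟨v, hv, hv0, hFv⟩ := (analyticAt_of_mem_hol hF τ).analyticOrderAt_ne_top.mp
    (analyticOrderAt_ne_top hF h0 τ)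
  set m := ordAt τ F
  have hm : analyticOrderNatAt (F ∘ ofComplex) (τ : ℂ) = m := rfl
  rw [hm] at hFv
  set a : ℂ := ((γ.1 0 0 : ℤ) : ℂ)
  set b : ℂ := ((γ.1 0 1 : ℤ) : ℂ)
  set c : ℂ := ((γ.1 1 0 : ℤ) : ℂ)
  set d : ℂ := ((γ.1 1 1 : ℤ) : ℂ)
  set D : ℂ := c * τ + d with hD
  have hD0 : D ≠ 0 := denom_SL2Z_ne_zero γ τ
  have hdet : a * d - b * c = 1 := by
    have h := Matrix.det_fin_two γ.1
    rw [γ.2] at h
    have h' := congrArg (fun n : ℤ => (n : ℂ)) h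
    push_cast at h'
    exact h'.symm
  have hτeq : a * τ + b = τ * D := by
    have h := coe_smul_SL2Z γ τ
    rw [hfix, eq_div_iff hD0] at h
    exact h.symm
  set φ : ℂ → ℂ := fun z => (a * z + b) / (c * z + d)
  have hφτ : φ τ = τ := by
    show (a * τ + b) / D = τ
    rw [hτeq, mul_div_assoc, div_self hD0, mul_one]
  have hφc : ContinuousAt φ (τ : ℂ) :=
    ContinuousAt.div (by fun_prop) (by fun_prop) hD0
  have hφt : Tendsto φ (𝓝 (τ : ℂ)) (𝓝 (τ : ℂ)) := by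
    have := hφc.tendsto
    rwa [hφτ] at this
  have hcd : ∀ᶠ z in 𝓝 (τ : ℂ), c * z + d ≠ 0 :=
    (show ContinuousAt (fun z : ℂ => c * z + d) (τ : ℂ) by fun_prop).eventually_ne hD0
  have him : ∀ᶠ z in 𝓝 (τ : ℂ), 0 < z.im := isOpen_upperHalfPlaneSet.mem_nhds τ.im_pos
  have key : ∀ᶠ z in 𝓝[≠] (τ : ℂ), v (φ z) = ((c * z + d) * D) ^ m * v z := by
    filter_upwards [nhdsWithin_le_nhds hFv, nhdsWithin_le_nhds (hφt.eventually hFv),
      nhdsWithin_le_nhds hcd, nhdsWithin_le_nhds him, self_mem_nhdsWithin] with z h1 h2 h3 h4 h5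
    have h6 : (F ∘ ofComplex) (φ z) = (F ∘ ofComplex) z := by
      have h := hinv ⟨z, h4⟩
      simp only [Function.comp_apply, ofComplex_apply_of_im_pos h4]
      rw [← h]
      congr 1
      have he : φ z = ((γ • (⟨z, h4⟩ : ℍ) : ℍ) : ℂ) := (coe_smul_SL2Z γ ⟨z, h4⟩).symm
      rw [he, ofComplex_apply]
    rw [h1, h2, smul_eq_mul, smul_eq_mul] at h6
    have hsub : φ z - (τ : ℂ) = (z - τ) / ((c * z + d) * D) := by
      show (a * z + b) / (c * z + d) - (τ : ℂ) = _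
      rw [div_sub' h3, div_eq_div_iff h3 (mul_ne_zero h3 hD0)]
      linear_combination (z - (τ : ℂ)) * (c * z + d) * hdet + (c * z + d) ^ 2 * hτeq
    rw [hsub, div_pow, div_mul_eq_mul_div,
      div_eq_iff (pow_ne_zero _ (mul_ne_zero h3 hD0))] at h6
    have hz : (z - (τ : ℂ)) ^ m ≠ 0 := pow_ne_zero _ (sub_ne_zero.mpr h5)
    exact mul_left_cancel₀ hz (by linear_combination h6)
  have hl : Tendsto (fun z => v (φ z)) (𝓝[≠] (τ : ℂ)) (𝓝 (v τ)) :=
    (hv.continuousAt.tendsto.comp hφt).mono_left nhdsWithin_le_nhds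
  have hr : Tendsto (fun z => ((c * z + d) * D) ^ m * v z) (𝓝[≠] (τ : ℂ))
      (𝓝 ((D * D) ^ m * v τ)) := by
    refine Tendsto.mono_left (Tendsto.mul (Tendsto.pow (Tendsto.mul ?_ tendsto_const_nhds) m)
      hv.continuousAt.tendsto) nhdsWithin_le_nhds
    exact (show ContinuousAt (fun z : ℂ => c * z + d) (τ : ℂ) by fun_prop).tendsto
  have h := tendsto_nhds_unique (hl.congr' key) hr
  rw [pow_mul, sq]
  exact mul_right_cancel₀ hv0 (h.symm.trans (one_mul _).symm)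

/-- The rotation number of an element fixing `τ`. -/
def stabChar (N : ℕ) (τ : ℍ) : MulAction.stabilizer (Gamma0 N) τ →* ℂ where
  toFun g := ((((g : Gamma0 N) : SL(2, ℤ)).1 1 0 : ℤ) : ℂ) * τ
    + (((g : Gamma0 N) : SL(2, ℤ)).1 1 1 : ℤ)
  map_one' := by simp
  map_mul' g h := by
    have hfix : (((h : Gamma0 N) : SL(2, ℤ)) • τ : ℍ) = τ := h.2
    have hne := denom_SL2Z_ne_zero ((h : Gamma0 N) : SL(2, ℤ)) τ
    have hτ := congrArg (fun z : ℍ => (z : ℂ)) hfix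
    simp only [coe_smul_SL2Z] at hτ
    rw [div_eq_iff hne] at hτ
    simp only [Subgroup.coe_mul, Matrix.SpecialLinearGroup.coe_mul, Matrix.mul_apply,
      Fin.sum_univ_two, Int.cast_add, Int.cast_mul]
    linear_combination ((((g : Gamma0 N) : SL(2, ℤ)).1 1 0 : ℤ) : ℂ) * hτ

theorem stabChar_injective (N : ℕ) (τ : ℍ) : Function.Injective (stabChar N τ) := by
  intro g h hgh
  have h1 : stabChar N τ (g * h⁻¹) = 1 := by
    rw [map_mul, hgh, ← map_mul, mul_inv_cancel, map_one]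
  rw [← mul_inv_eq_one]
  set k := g * h⁻¹ with hk
  have hfix : (((k : Gamma0 N) : SL(2, ℤ)) • τ : ℍ) = τ := k.2
  change ((((k : Gamma0 N) : SL(2, ℤ)).1 1 0 : ℤ) : ℂ) * τ
    + (((k : Gamma0 N) : SL(2, ℤ)).1 1 1 : ℤ) = 1 at h1
  have hc : ((k : Gamma0 N) : SL(2, ℤ)).1 1 0 = 0 := by
    have := congrArg Complex.im h1
    simpa [τ.im_pos.ne'] using this
  have hd : ((k : Gamma0 N) : SL(2, ℤ)).1 1 1 = 1 := by
    rw [hc] at h1
    simpa using h1
  have ha : ((k : Gamma0 N) : SL(2, ℤ)).1 0 0 = 1 := by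
    have := Matrix.det_fin_two ((k : Gamma0 N) : SL(2, ℤ)).1
    rw [((k : Gamma0 N) : SL(2, ℤ)).2, hc, hd] at this
    omega
  have hb : ((k : Gamma0 N) : SL(2, ℤ)).1 0 1 = 0 := by
    have := congrArg (fun z : ℍ => (z : ℂ)) hfix
    simp only [coe_smul_SL2Z, ha, hc, hd] at this
    simpa using this
  refine Subtype.ext (Subtype.ext (Subtype.ext ?_))
  rw [Matrix.eta_fin_two ((k : Gamma0 N) : SL(2, ℤ)).1, ha, hb, hc, hd]
  simp [Matrix.one_fin_two]

/-- The elliptic index divides the order of a holomorphic modular function. -/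
theorem ellipticIndex_dvd_ordAt {N : ℕ} {F : ℍ → ℂ} (hF : F ∈ ModHol N) (τ : ℍ) :
    ellipticIndex N τ ∣ ordAt τ F := by
  rcases eq_or_ne F 0 with rfl | h0
  · simp [ordAt, analyticOrderNatAt, Function.comp_def, analyticOrderAt_eq_top.mpr]
  haveI := finite_stabilizer_Gamma0 N τ
  haveI := isCyclic_of_injective_ringHom (stabChar N τ) (stabChar_injective N τ)
  obtain ⟨g, hg⟩ := IsCyclic.exists_ofOrder_eq_natCard (α := MulAction.stabilizer (Gamma0 N) τ)
  have h := denom_pow_two_mul_ordAt hF.1 h0 (γ := ((g : Gamma0 N) : SL(2, ℤ)))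
    (fun z => hF.2.1 _ (g : Gamma0 N).2 z) g.2
  have h1 : stabChar N τ (g ^ (2 * ordAt τ F)) = stabChar N τ 1 := by
    rw [map_pow, map_one]
    exact h
  have h2 := orderOf_dvd_of_pow_eq_one (stabChar_injective N τ h1)
  rw [hg, ← two_mul_ellipticIndex] at h2
  exact Nat.dvd_of_mul_dvd_mul_left two_pos h2

end Divisibility

end FLTA.Bridge

end
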